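/-
S56 / FLAT / RAM (architect helper18), leaf ZETA (Mathlib only).  Owner: helper258.

`v (ζ - 1) ^ (p - 1) = v p` for a non trivial `p`-th root of unity, any valuation on any field.
-/
import Mathlib

set_option autoImplicit false

namespace Fermat.Agent.S56.Flat.Ram

variable {F : Type*} [Field F] {Γ : Type*} [LinearOrderedCommGroupWithZero Γ]

private theorem zeta_one_sub_pow_le (v : Valuation F Γ) {x : F} (hx : v x ≤ 1) (k : ℕ) :
    v (1 - x ^ k) ≤ v (1 - x) := by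
  rw [← geom_sum_mul_neg, map_mul]
  have : v (∑ i ∈ Finset.range k, x ^ i) ≤ 1 := by
    apply Valuation.map_sum_le
    intro i _
    rw [map_pow]
    exact pow_le_one₀ zero_le hx
  exact mul_le_of_le_one_left' this

private theorem zeta_one_sub_zeta_pow (v : Valuation F Γ) {p : ℕ} (hp : p.Prime) {ζ : F}
    (hζ : IsPrimitiveRoot ζ p) (k : ℕ) (hk : ¬ p ∣ k) : v (1 - ζ ^ k) = v (1 - ζ) := by
  have hζ1 : v ζ = 1 := by
    have h : v ζ ^ p = 1 := by rw [← map_pow, hζ.pow_eq_one, map_one]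
    exact (pow_eq_one_iff.1 h).resolve_right hp.ne_zero
  apply le_antisymm (zeta_one_sub_pow_le v hζ1.le k)
  have hcop : Nat.Coprime k p := ((Nat.Prime.coprime_iff_not_dvd hp).2 hk).symm
  obtain ⟨k', _, hk'⟩ := Nat.exists_mul_mod_eq_one_of_coprime hcop hp.one_lt
  have h1 : (ζ ^ k) ^ k' = ζ := by
    rw [← pow_mul, ← Nat.mod_add_div (k * k') p, hk', pow_add, pow_mul, hζ.pow_eq_one, one_pow,
      mul_one, pow_one]
  have h2 : v (ζ ^ k) ≤ 1 := by rw [map_pow, hζ1, one_pow]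
  calc v (1 - ζ) = v (1 - (ζ ^ k) ^ k') := by rw [h1]
    _ ≤ _ := zeta_one_sub_pow_le v h2 k'

theorem val_zeta_sub_one (v : Valuation F Γ) (p : ℕ) (hp : p.Prime) (ζ : F) (hζ : ζ ^ p = 1)
    (hζ1 : ζ ≠ 1) : v (ζ - 1) ^ (p - 1) = v (p : F) := by
  have hprim : IsPrimitiveRoot ζ p := by
    have : Fact p.Prime := ⟨hp⟩
    rw [← orderOf_eq_prime hζ hζ1]
    exact IsPrimitiveRoot.orderOf ζ
  obtain ⟨n, rfl⟩ : ∃ n, p = n + 1 := ⟨p - 1, (Nat.sub_add_cancel hp.one_le).symm⟩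
  have h1 := hprim.prod_one_sub_pow_eq_order
  have h2 : ((n + 1 : ℕ) : F) = ∏ k ∈ Finset.range n, (1 - ζ ^ (k + 1)) := by
    rw [h1]
    push_cast
    ring
  rw [Valuation.map_sub_swap, h2, map_prod, Nat.add_sub_cancel]
  have h3 : ∀ k ∈ Finset.range n, v (1 - ζ ^ (k + 1)) = v (1 - ζ) := by
    intro k hk
    rw [Finset.mem_range] at hk
    exact zeta_one_sub_zeta_pow v hp hprim (k + 1)
      (Nat.not_dvd_of_pos_of_lt (Nat.succ_pos k) (by omega))
  rw [Finset.prod_congr rfl h3, Finset.prod_const, Finset.card_range]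

end Fermat.Agent.S56.Flat.Ram
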