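/-
S56 / FLAT / RAM (architect helper18): ABSTRACT DEFINITIONS (Mathlib only).

The ramification part of the block is done for an abstract finite Galois extension `F / F0` with a
Galois invariant valuation `v` on `F` which is "totally ramified over `p`" (`TotRam`).  It is applied
to `F0 = K0 A` (inertia field), `F = K0(W)`.

* `IsUnif v π`   : `v` is discrete on `F` with uniformiser `π`.
* `ordOf v π x`  : the integer `k` with `v x = v π ^ k` (`0` for `x = 0`).
* `ii v π s`     : `i(s) = ord (s π - π)` (`0` for `s = 1`).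
* `TotRam F0 v p`: every intermediate field `E` has a uniformiser `π_E` with
                   `v π_E ^ [E : F0] = v p`; the residue field of `F` is that of `F0`, and is perfect.
* `FonBound F0 v p π` : Fontaine's bound `(p - 1) (∑_{s ≠ 1} i(s) + i_max - 1) ≤ p [F : F0]`.
-/
import Mathlib

set_option autoImplicit false

namespace Fermat.Agent.S56.Flat.Ram

variable {F : Type*} [Field F] {Γ : Type*} [LinearOrderedCommGroupWithZero Γ]

/-- `π` is a uniformiser of the discrete valuation `v`. -/
structure IsUnif (v : Valuation F Γ) (π : F) : Prop where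
  ne_zero : π ≠ 0
  lt_one : v π < 1
  disc : ∀ x : F, x ≠ 0 → ∃ k : ℤ, v x = v π ^ k

open Classical in
/-- The order of `x`: the integer `k` with `v x = v π ^ k` (junk value `0` if there is none). -/
noncomputable def ordOf (v : Valuation F Γ) (π x : F) : ℤ :=
  if h : ∃ k : ℤ, v x = v π ^ k then h.choose else 0

/-- `i(s) = ord (s π - π)`. -/
noncomputable def ii {G : Type*} [Group G] [MulSemiringAction G F] (v : Valuation F Γ) (π : F)
    (s : G) : ℤ := ordOf v π (s • π - π)

/-- `F / F0` is totally ramified over `p` (with perfect residue field), `v` Galois invariant. -/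
structure TotRam (F0 : Type*) [Field F0] [Algebra F0 F] (v : Valuation F Γ) (p : ℕ) : Prop where
  inv : ∀ (s : F ≃ₐ[F0] F) (x : F), v (s x) = v x
  p_ne : (p : F) ≠ 0
  p_lt : v (p : F) < 1
  unif : ∀ E : IntermediateField F0 F, ∃ π : F, π ∈ E ∧
    v π ^ (Module.finrank F0 E) = v (p : F) ∧ ∀ x ∈ E, x ≠ 0 → ∃ k : ℤ, v x = v π ^ k
  res : ∀ x : F, v x ≤ 1 → ∃ b : F0, v (x - algebraMap F0 F b) < 1
  root : ∀ b : F0, v (algebraMap F0 F b) = 1 → ∃ w : F0, v (algebraMap F0 F (w ^ p - b)) < 1

/-- Fontaine's bound for the uniformiser `π`. -/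
def FonBound (F0 : Type*) [Field F0] [Algebra F0 F] [FiniteDimensional F0 F]
    (v : Valuation F Γ) (p : ℕ) (π : F) : Prop :=
  ∀ s1 : F ≃ₐ[F0] F, s1 ≠ 1 → (∀ s : F ≃ₐ[F0] F, s ≠ 1 → v (s1 • π - π) ≤ v (s • π - π)) →
    ((p : ℤ) - 1) * ((∑ s : F ≃ₐ[F0] F, ii v π s) + ii v π s1 - 1) ≤
      (p : ℤ) * (Module.finrank F0 F : ℤ)

end Fermat.Agent.S56.Flat.Ram
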