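/-
S56 / FLAT / RAM (architect helper18), node NORMAL-BASE (helper29).

`normal_base`: `b1 = ϖ ^ (-i) ∈ K`, `u = a b1^p`, `v u = 1`.  `hT.res u`: `u0 ∈ F0`, `v (u - u0) < 1` (so `v u0 = 1`).
  `hT.root u0⁻¹`: `w ∈ F0`, `v (w^p - u0⁻¹) < 1` (so `v w = 1`, `w ≠ 0`).  `b = b1 w`:
  `a b^p - 1 = u w^p - 1 = u (w^p - u0⁻¹) + (u - u0) u0⁻¹`.
-/
import Fermat.Agent.S56.Flat.Ram.Defs

set_option autoImplicit false

namespace Fermat.Agent.S56.Flat.Ram

open scoped IntermediateField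

variable {F0 F : Type*} [Field F0] [Field F] [Algebra F0 F] [FiniteDimensional F0 F]
variable {Γ : Type*} [LinearOrderedCommGroupWithZero Γ] {v : Valuation F Γ} {p : ℕ}

/-- If `v (x - y) < 1` and `v x = 1` then `v y = 1`. -/
private theorem normalBase_val_eq_one {x y : F} (hx : v x = 1) (h : v (x - y) < 1) : v y = 1 := by
  have h1 : v (y - x) < v x := by rw [hx, Valuation.map_sub_swap]; exact h
  have h2 : v y = v x := by
    have := Valuation.map_add_eq_of_lt_right (v := v) (x := y - x) (y := x) h1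
    simpa using this
  rw [h2, hx]

theorem normal_base (hT : TotRam F0 v p) (hp : p.Prime) (ϖ : F) (hϖ0 : ϖ ≠ 0)
    (a : F) (ha : a ∈ F0⟮ϖ⟯) (i : ℤ) (hi : v a = v ϖ ^ ((p : ℤ) * i)) :
    ∃ b : F, b ≠ 0 ∧ b ∈ F0⟮ϖ⟯ ∧ v (a * b ^ p - 1) < 1 := by
  have hvϖ : v ϖ ≠ 0 := (Valuation.ne_zero_iff v).2 hϖ0
  set b1 : F := ϖ ^ (-i) with hb1
  have hb1ne : b1 ≠ 0 := zpow_ne_zero _ hϖ0
  have hb1mem : b1 ∈ F0⟮ϖ⟯ := zpow_mem (IntermediateField.mem_adjoin_simple_self F0 ϖ) _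
  set u : F := a * b1 ^ p with hu
  have hvu : v u = 1 := by
    rw [hu, map_mul, map_pow, hi, hb1, map_zpow₀, ← zpow_natCast, ← zpow_mul, ← zpow_add₀ hvϖ]
    have : (p : ℤ) * i + -i * (p : ℤ) = 0 := by ring
    rw [this, zpow_zero]
  obtain ⟨u0, hu0⟩ := hT.res u hvu.le
  have hvu0 : v (algebraMap F0 F u0) = 1 := normalBase_val_eq_one hvu hu0
  have hu0ne : algebraMap F0 F u0 ≠ 0 := by
    intro h; rw [h, map_zero] at hvu0; exact zero_ne_one hvu0
  have hvu0i : v (algebraMap F0 F u0⁻¹) = 1 := by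
    rw [map_inv₀, map_inv₀, hvu0, inv_one]
  obtain ⟨w, hw⟩ := hT.root u0⁻¹ hvu0i
  have hw' : v ((algebraMap F0 F w) ^ p - (algebraMap F0 F u0)⁻¹) < 1 := by
    simpa [map_sub, map_pow, map_inv₀] using hw
  have hvwp : v ((algebraMap F0 F w) ^ p) = 1 := by
    have h1 : v ((algebraMap F0 F u0)⁻¹) = 1 := by rw [map_inv₀, hvu0, inv_one]
    refine normalBase_val_eq_one h1 ?_
    rw [Valuation.map_sub_swap]; exact hw'
  have hwne : algebraMap F0 F w ≠ 0 := by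
    intro h
    rw [h, zero_pow hp.ne_zero, map_zero] at hvwp
    exact zero_ne_one hvwp
  refine ⟨b1 * algebraMap F0 F w, mul_ne_zero hb1ne hwne,
    mul_mem hb1mem (IntermediateField.algebraMap_mem _ w), ?_⟩
  have key : a * (b1 * algebraMap F0 F w) ^ p - 1
      = u * ((algebraMap F0 F w) ^ p - (algebraMap F0 F u0)⁻¹)
        + (u - algebraMap F0 F u0) * (algebraMap F0 F u0)⁻¹ := by
    rw [hu]
    field_simp
    ring
  rw [key]
  refine lt_of_le_of_lt (Valuation.map_add v _ _) (max_lt ?_ ?_)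
  · rw [map_mul, hvu, one_mul]; exact hw'
  · rw [map_mul, map_inv₀, hvu0, inv_one, mul_one]; exact hu0

end Fermat.Agent.S56.Flat.Ram
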