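/-
S56 / FLAT / RAM (architect helper18), node NORMAL, part `normal_step` (this file: helper267):
improve `b` when `v (a b^p - 1) = v ϖ ^ j`, `p ∣ j < e`.

`t = a b^p - 1`, `j = p j'`, `u = t / ϖ^j`, `v u = 1`; `u0 ∈ F0` with `v (u - u0) < 1`; `w ∈ F0` with
`v (w^p + u0) < 1`; `z = w ϖ^j'`, `b' = b (1 + z)`.  `(1 + z)^p = 1 + z^p + ε`, `ε = p z r`, `v r ≤ 1`, and
`a b'^p - 1 = (u + w^p) ϖ^j + ε + t (z^p + ε)`, all three terms have `v < v ϖ ^ j`.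
-/
import Fermat.Agent.S56.Flat.Ram.Defs

set_option autoImplicit false

namespace Fermat.Agent.S56.Flat.Ram

open scoped IntermediateField

variable {F0 F : Type*} [Field F0] [Field F] [Algebra F0 F] [FiniteDimensional F0 F]
variable {Γ : Type*} [LinearOrderedCommGroupWithZero Γ] {v : Valuation F Γ} {p : ℕ}

theorem normal_step (hT : TotRam F0 v p) (hp : p.Prime) (e : ℕ) (ϖ : F) (hϖ : ϖ ^ e = (p : F))
    (a : F) (ha : a ∈ F0⟮ϖ⟯) (j : ℕ) (hj0 : 0 < j) (hje : j < e) (hpj : p ∣ j)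
    (b : F) (hb0 : b ≠ 0) (hb : b ∈ F0⟮ϖ⟯) (hv : v (a * b ^ p - 1) = v ϖ ^ j) :
    ∃ b' : F, b' ≠ 0 ∧ b' ∈ F0⟮ϖ⟯ ∧ v (a * b' ^ p - 1) < v ϖ ^ j := by
  obtain ⟨j', rfl⟩ := hpj
  have hj' : 0 < j' := Nat.pos_of_ne_zero (by rintro rfl; simp at hj0)
  have hϖ0 : ϖ ≠ 0 := by
    rintro rfl
    rw [zero_pow (by omega)] at hϖ
    exact hT.p_ne hϖ.symm
  have hvϖ0 : v ϖ ≠ 0 := (Valuation.ne_zero_iff v).2 hϖ0
  have hvϖe : v ϖ ^ e = v (p : F) := by rw [← map_pow, hϖ]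
  have hvϖ : v ϖ < 1 := by
    by_contra h
    rw [not_lt] at h
    have h1 : 1 ≤ v ϖ ^ e := one_le_pow₀ h
    rw [hvϖe] at h1
    exact absurd hT.p_lt (not_lt.2 h1)
  have hg0 : v ϖ ^ (p * j') ≠ 0 := pow_ne_zero _ hvϖ0
  have hgpos : 0 < v ϖ ^ (p * j') := zero_lt_iff.2 hg0
  obtain ⟨t, ht⟩ : ∃ t, t = a * b ^ p - 1 := ⟨_, rfl⟩
  obtain ⟨u, hu⟩ : ∃ u, u = t / ϖ ^ (p * j') := ⟨_, rfl⟩
  rw [← ht] at hv
  have hvu : v u = 1 := by rw [hu, map_div₀, hv, map_pow, div_self hg0]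
  have htu : t = u * ϖ ^ (p * j') := by rw [hu, div_mul_cancel₀ _ (pow_ne_zero _ hϖ0)]
  obtain ⟨u0, hu0⟩ := hT.res u hvu.le
  have hvu0 : v (algebraMap F0 F u0) = 1 := by
    have h1 : algebraMap F0 F u0 = u - (u - algebraMap F0 F u0) := by ring
    rw [h1, Valuation.map_sub_eq_of_lt_left _ (by rw [hvu]; exact hu0), hvu]
  obtain ⟨w, hw⟩ := hT.root (-u0) (by rw [map_neg, Valuation.map_neg, hvu0])
  obtain ⟨W, hW⟩ : ∃ W, W = algebraMap F0 F w := ⟨_, rfl⟩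
  have hw' : v (W ^ p + algebraMap F0 F u0) < 1 := by
    have h1 : algebraMap F0 F (w ^ p - -u0) = W ^ p + algebraMap F0 F u0 := by
      rw [hW, map_sub, map_pow, map_neg, sub_neg_eq_add]
    rwa [h1] at hw
  have hvW : v W ≤ 1 := by
    have h1 : W ^ p = (W ^ p + algebraMap F0 F u0) - algebraMap F0 F u0 := by ring
    have h2 : v (W ^ p) = 1 := by
      rw [h1, Valuation.map_sub_eq_of_lt_right _ (by rw [hvu0]; exact hw'), hvu0]
    rw [map_pow] at h2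
    exact ((pow_eq_one_iff_of_nonneg zero_le hp.ne_zero).1 h2).le
  obtain ⟨z, hz⟩ : ∃ z, z = W * ϖ ^ j' := ⟨_, rfl⟩
  have hvz : v z < 1 := by
    rw [hz, map_mul, map_pow]
    exact mul_lt_one_of_nonneg_of_lt_one_right hvW zero_le (pow_lt_one₀ zero_le hvϖ hj'.ne')
  have hzp : z ^ p = W ^ p * ϖ ^ (p * j') := by
    rw [hz, mul_pow, ← pow_mul, mul_comm j' p]
  obtain ⟨r, hr⟩ := exists_add_pow_prime_eq hp (1 : v.integer) ⟨z, hvz.le⟩
  obtain ⟨ε, hε⟩ : ∃ ε, ε = (p : F) * z * (r : F) := ⟨_, rfl⟩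
  have hr' : (1 + z) ^ p = 1 + z ^ p + ε := by
    have h1 := congrArg (fun x : v.integer => (x : F)) hr
    simp only [Subring.coe_add, Subring.coe_mul, Subring.coe_pow, Subring.coe_one,
      Subring.coe_natCast, one_pow, mul_one] at h1
    rw [hε]
    exact h1
  have hvp : v (p : F) < v ϖ ^ (p * j') := by
    rw [← hvϖe]
    exact pow_lt_pow_right_of_lt_one₀ (zero_lt_iff.2 hvϖ0) hvϖ hje
  have hvε : v ε < v ϖ ^ (p * j') := by
    refine lt_of_le_of_lt ?_ hvp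
    rw [hε, map_mul, map_mul, mul_assoc]
    exact mul_le_of_le_one_right zero_le (mul_le_one' hvz.le r.2)
  have hg1 : v ϖ ^ (p * j') ≤ 1 := pow_le_one₀ zero_le hvϖ.le
  have hvzp : v (z ^ p) < 1 := by
    rw [map_pow]
    exact pow_lt_one₀ zero_le hvz hp.ne_zero
  have h1z : v (1 + z) = 1 := Valuation.map_one_add_of_lt v hvz
  have h1z0 : 1 + z ≠ 0 := by
    intro h0
    rw [h0, map_zero] at h1z
    exact zero_ne_one h1z
  have hϖmem : ϖ ∈ F0⟮ϖ⟯ := IntermediateField.mem_adjoin_simple_self F0 ϖ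
  refine ⟨b * (1 + z), mul_ne_zero hb0 h1z0, ?_, ?_⟩
  · refine mul_mem hb (add_mem (one_mem _) ?_)
    rw [hz, hW]
    exact mul_mem (IntermediateField.algebraMap_mem _ w) (pow_mem hϖmem j')
  · have key : a * (b * (1 + z)) ^ p - 1 =
        ((u - algebraMap F0 F u0) + (W ^ p + algebraMap F0 F u0)) * ϖ ^ (p * j') + ε +
          t * (z ^ p + ε) := by
      have h1 : a * b ^ p = 1 + t := by rw [ht]; ring
      rw [mul_pow, ← mul_assoc, h1, hr', hzp]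
      conv_lhs => rw [htu]
      conv_rhs => rw [htu]
      ring
    rw [key]
    refine Valuation.map_add_lt v (Valuation.map_add_lt v ?_ hvε) ?_
    · rw [map_mul, map_pow]
      exact mul_lt_of_lt_one_left hgpos (Valuation.map_add_lt v hu0 hw')
    · rw [map_mul, hv]
      exact mul_lt_of_lt_one_right hgpos
        (Valuation.map_add_lt v hvzp (lt_of_lt_of_le hvε hg1))

end Fermat.Agent.S56.Flat.Ram
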