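/-
S56 / FLAT / RAM (architect helper18), node NORMAL (task RAM-NORMAL, helper270): normal form of an element
of `K = F0(ϖ)`, `ϖ ^ e = p`, modulo `p`-th powers.

`normal_form`: if `v a = v ϖ ^ i` with `p ∤ i`: third case.  Otherwise `normal_base` gives `b` with `v (a b^p - 1) < 1`.  Then
  by induction on `e - j` :  `∀ j, 1 ≤ j → j ≤ e → (∃ b ∈ K, b ≠ 0 ∧ v (a b^p - 1) ≤ v ϖ ^ j) → conclusion`.
-/
import Fermat.Agent.S56.Flat.Ram.FieldK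
import Fermat.Agent.S56.Flat.Ram.NormalBase
import Fermat.Agent.S56.Flat.Ram.NormalStep

set_option autoImplicit false

namespace Fermat.Agent.S56.Flat.Ram

open scoped IntermediateField

variable {F0 F : Type*} [Field F0] [Field F] [Algebra F0 F] [FiniteDimensional F0 F]
variable {Γ : Type*} [LinearOrderedCommGroupWithZero Γ] {v : Valuation F Γ} {p : ℕ}

/-- discreteness of `v` on `K = F0(ϖ)` -/
theorem Normal_le_succ (hT : TotRam F0 v p) (e : ℕ) (he : 0 < e) (ϖ : F)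
    (hϖ : ϖ ^ e = (p : F)) (h0 : 0 < v ϖ) (h1 : v ϖ < 1) (x : F) (hx : x ∈ F0⟮ϖ⟯) (j : ℕ)
    (h : v x < v ϖ ^ j) : v x ≤ v ϖ ^ (j + 1) := by
  rcases eq_or_ne x 0 with rfl | hx0
  · rw [map_zero]
    exact zero_le
  · obtain ⟨k, hk⟩ := hT.val_mem_adjoin_root e he ϖ hϖ x hx hx0
    rw [hk, ← zpow_natCast, zpow_lt_zpow_iff_right_of_lt_one₀ h0 h1] at h
    rw [hk, ← zpow_natCast, zpow_le_zpow_iff_right_of_lt_one₀ h0 h1]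
    push_cast
    omega

theorem normal_form (hT : TotRam F0 v p) (hp : p.Prime) (e : ℕ) (he : 0 < e) (ϖ : F)
    (hϖ : ϖ ^ e = (p : F)) (a : F) (ha0 : a ≠ 0) (ha : a ∈ F0⟮ϖ⟯) :
    (∃ b : F, b ≠ 0 ∧ b ∈ F0⟮ϖ⟯ ∧ v (a * b ^ p - 1) ≤ v (p : F)) ∨
    (∃ b : F, b ≠ 0 ∧ b ∈ F0⟮ϖ⟯ ∧ ∃ j : ℕ, 0 < j ∧ j < e ∧ ¬ p ∣ j ∧ v (a * b ^ p - 1) = v ϖ ^ j) ∨
    (∃ i : ℤ, ¬ (p : ℤ) ∣ i ∧ v a = v ϖ ^ i) := by
  have hϖ0 : ϖ ≠ 0 := by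
    rintro rfl
    rw [zero_pow he.ne'] at hϖ
    exact hT.p_ne hϖ.symm
  have h0 : 0 < v ϖ := zero_lt_iff.2 ((Valuation.ne_zero_iff v).2 hϖ0)
  have hve : v ϖ ^ e = v (p : F) := by rw [← map_pow, hϖ]
  have h1 : v ϖ < 1 := by
    by_contra h
    push Not at h
    have h2 : 1 ≤ v ϖ ^ e := one_le_pow₀ h
    rw [hve] at h2
    exact absurd hT.p_lt (not_lt.2 h2)
  obtain ⟨i, hi⟩ := hT.val_mem_adjoin_root e he ϖ hϖ a ha ha0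
  by_cases hpi : (p : ℤ) ∣ i
  swap
  · exact Or.inr (Or.inr ⟨i, hpi, hi⟩)
  obtain ⟨i', rfl⟩ := hpi
  obtain ⟨b₀, hb₀0, hb₀, hvb₀⟩ := normal_base hT hp ϖ hϖ0 a ha i' hi
  have hmem : ∀ b : F, b ∈ F0⟮ϖ⟯ → a * b ^ p - 1 ∈ F0⟮ϖ⟯ := fun b hb =>
    sub_mem (mul_mem ha (pow_mem hb p)) (one_mem _)
  have key : ∀ (n j : ℕ), j + n = e → 1 ≤ j → ∀ b : F, b ≠ 0 → b ∈ F0⟮ϖ⟯ →
      v (a * b ^ p - 1) ≤ v ϖ ^ j →
      (∃ b : F, b ≠ 0 ∧ b ∈ F0⟮ϖ⟯ ∧ v (a * b ^ p - 1) ≤ v (p : F)) ∨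
      (∃ b : F, b ≠ 0 ∧ b ∈ F0⟮ϖ⟯ ∧
        ∃ j : ℕ, 0 < j ∧ j < e ∧ ¬ p ∣ j ∧ v (a * b ^ p - 1) = v ϖ ^ j) ∨
      (∃ i : ℤ, ¬ (p : ℤ) ∣ i ∧ v a = v ϖ ^ i) := by
    intro n
    induction n with
    | zero =>
      intro j hj _ b hb0 hb hv
      rw [add_zero] at hj
      subst hj
      exact Or.inl ⟨b, hb0, hb, hve ▸ hv⟩
    | succ n ih =>
      intro j hj hj1 b hb0 hb hv
      have hje : j < e := by omega
      rcases lt_or_eq_of_le hv with hlt | heq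
      · exact ih (j + 1) (by omega) (by omega) b hb0 hb
          (Normal_le_succ hT e he ϖ hϖ h0 h1 _ (hmem b hb) j hlt)
      · by_cases hpj : p ∣ j
        · obtain ⟨b', hb'0, hb', hlt⟩ := normal_step hT hp e ϖ hϖ a ha j hj1 hje hpj b hb0 hb heq
          exact ih (j + 1) (by omega) (by omega) b' hb'0 hb'
            (Normal_le_succ hT e he ϖ hϖ h0 h1 _ (hmem b' hb') j hlt)
        · exact Or.inr (Or.inl ⟨b, hb0, hb, j, hj1, hje, hpj, heq⟩)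
  refine key (e - 1) 1 (by omega) le_rfl b₀ hb₀0 hb₀ ?_
  have := Normal_le_succ hT e he ϖ hϖ h0 h1 _ (hmem b₀ hb₀) 0 (by rw [pow_zero]; exact hvb₀)
  rwa [zero_add] at this

end Fermat.Agent.S56.Flat.Ram
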