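/-
S56 / FLAT / RAM (architect helper18), node SHAPE3 (Mathlib only + KUMBOUND, ZETA, ORD).

`shape_three_false`: `y = α`, `q = X ^ p - C a`, `j = i`, `δ = d1` with `(p - 1) d1 = n`: for `τ` fixing `ϖ` and moving `α`,
`ζ = τ α / α` is a non trivial `p`-th root of unity, `v (τ α - α) = v α * v π ^ d1`.  `kummer_bound`:
`(p-1) p d1 = p n ≤ n + p - 1`, so `n ≤ 1`.  But `p * ord α = i * o` gives `p ∣ o`, `o > 0`, so `n = e o ≥ 2`.
-/
import Fermat.Agent.S56.Flat.Ram.KumBound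
import Fermat.Agent.S56.Flat.Ram.Zeta

set_option autoImplicit false

namespace Fermat.Agent.S56.Flat.Ram

open scoped IntermediateField

variable {F0 F : Type*} [Field F0] [Field F] [Algebra F0 F] [FiniteDimensional F0 F] [IsGalois F0 F]
variable {Γ : Type*} [LinearOrderedCommGroupWithZero Γ] {v : Valuation F Γ} {p : ℕ}

omit [FiniteDimensional F0 F] [IsGalois F0 F] in
/-- an automorphism fixing `ϖ` fixes `F0(ϖ)` -/
theorem Shape3_fix (τ : F ≃ₐ[F0] F) (ϖ : F) (hτ : τ ϖ = ϖ) (a : F) (ha : a ∈ F0⟮ϖ⟯) : τ a = a := by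
  have h : (τ : F →ₐ[F0] F).comp (F0⟮ϖ⟯).val = (F0⟮ϖ⟯).val := by
    apply IntermediateField.adjoin_algHom_ext
    intro x hx
    rw [Set.mem_singleton_iff] at hx
    subst hx
    exact hτ
  exact DFunLike.congr_fun h ⟨a, ha⟩

theorem shape_three_false (hT : TotRam F0 v p) (hp : p.Prime) (π : F) (hπ : IsUnif v π)
    (hπn : v π ^ Module.finrank F0 F = v (p : F)) (hFon : FonBound F0 v p π)
    (e : ℕ) (he : ¬ p ∣ e) (hpe : (p - 1) ∣ e) (ϖ : F) (hϖ : ϖ ^ e = (p : F))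
    (a α : F) (ha : a ∈ F0⟮ϖ⟯) (hα : α ^ p = a) (i : ℤ) (hi : ¬ (p : ℤ) ∣ i)
    (hv : v a = v ϖ ^ i) : False := by
  set n : ℕ := Module.finrank F0 F with hn
  have hn0 : 0 < n := Module.finrank_pos
  have hp2 : 2 ≤ p := hp.two_le
  have hϖ0 : ϖ ≠ 0 := by
    rintro rfl
    rcases Nat.eq_zero_or_pos e with h0 | h0
    · exact he (h0 ▸ dvd_zero p)
    · rw [zero_pow h0.ne'] at hϖ
      exact hT.p_ne hϖ.symm
  have he0 : 0 < e := Nat.pos_of_ne_zero fun h0 => he (h0 ▸ dvd_zero p)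
  -- `o = ord ϖ`, `o e = n`
  set o : ℤ := ordOf v π ϖ with ho
  have hvϖ : v ϖ = v π ^ o := hπ.val_eq hϖ0
  have hoe : o * (e : ℤ) = (n : ℤ) := by
    have h1 : v π ^ (o * (e : ℤ)) = v π ^ (n : ℤ) := by
      rw [zpow_mul, ← hvϖ, zpow_natCast, zpow_natCast, ← map_pow, hϖ, hπn]
    exact hπ.zpow_inj.mp h1
  obtain ⟨e', he'⟩ := hpe
  have hp1 : ((p - 1 : ℕ) : ℤ) = (p : ℤ) - 1 := by
    rw [Nat.cast_sub hp.one_le]; simp
  set d1 : ℤ := (e' : ℤ) * o with hd1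
  have hd1n : ((p : ℤ) - 1) * d1 = (n : ℤ) := by
    rw [← hoe, he', hd1]
    push_cast
    rw [hp1]
    ring
  -- `α`
  have ha0 : a ≠ 0 := by
    intro h
    rw [h, map_zero] at hv
    exact (zpow_ne_zero i ((Valuation.ne_zero_iff v).mpr hϖ0)) hv.symm
  have hα0 : α ≠ 0 := by
    rintro rfl
    rw [zero_pow hp.ne_zero] at hα
    exact ha0 hα.symm
  -- the bound on `τ α - α`
  have hδ : ∀ τ : F ≃ₐ[F0] F, τ ϖ = ϖ → τ α ≠ α → v (τ α - α) ≤ v α * v π ^ d1 := by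
    intro τ hτ hne
    have hτa : τ a = a := Shape3_fix τ ϖ hτ a ha
    set ζ : F := τ α / α with hζ
    have hζp : ζ ^ p = 1 := by
      rw [hζ, div_pow, ← map_pow, hα, hτa, div_self ha0]
    have hζ1 : ζ ≠ 1 := by
      intro h
      rw [hζ, div_eq_one_iff_eq hα0] at h
      exact hne h
    have hz := val_zeta_sub_one v p hp ζ hζp hζ1
    have hζ10 : ζ - 1 ≠ 0 := sub_ne_zero.mpr hζ1
    have hk : v (ζ - 1) = v π ^ ordOf v π (ζ - 1) := hπ.val_eq hζ10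
    have hk2 : ordOf v π (ζ - 1) * ((p : ℤ) - 1) = (n : ℤ) := by
      have h1 : v π ^ (ordOf v π (ζ - 1) * ((p : ℤ) - 1)) = v π ^ (n : ℤ) := by
        rw [zpow_mul, ← hk, ← hp1, zpow_natCast, zpow_natCast, hz, hπn]
      exact hπ.zpow_inj.mp h1
    have hk3 : ordOf v π (ζ - 1) = d1 := by
      have hpp : ((p : ℤ) - 1) ≠ 0 := by
        have : (2 : ℤ) ≤ p := by exact_mod_cast hp2
        omega
      apply mul_right_cancel₀ hpp
      rw [hk2, ← hd1n]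
      ring
    have hfac : τ α - α = α * (ζ - 1) := by
      rw [hζ]
      field_simp
    rw [hfac, map_mul, hk, hk3]
  -- the polynomial
  let q : Polynomial F0⟮ϖ⟯ := Polynomial.X ^ p - Polynomial.C ⟨a, ha⟩
  have hq : q.Monic := Polynomial.monic_X_pow_sub_C _ hp.ne_zero
  have hqd : q.natDegree = p := Polynomial.natDegree_X_pow_sub_C
  have hqy : Polynomial.aeval α q = 0 := by
    simp only [q, map_sub, map_pow, Polynomial.aeval_X, Polynomial.aeval_C]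
    rw [hα]
    exact sub_self a
  have hy : v α ^ p = v ϖ ^ i := by rw [← map_pow, hα, hv]
  have hb := kummer_bound hT hp π hπ hπn hFon e he ϖ hϖ α q hq hqd hqy i hi hy d1 hδ
  rw [← hn] at hb
  -- `p ∣ o`
  have hαk : v α = v π ^ ordOf v π α := hπ.val_eq hα0
  have hko : ordOf v π α * (p : ℤ) = o * i := by
    have h1 : v π ^ (ordOf v π α * (p : ℤ)) = v π ^ (o * i) := by
      rw [zpow_mul, ← hαk, zpow_natCast, hy, hvϖ, zpow_mul]
    exact hπ.zpow_inj.mp h1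
  have hpo : (p : ℤ) ∣ o := by
    have h1 : (p : ℤ) ∣ o * i := ⟨ordOf v π α, by rw [← hko]; ring⟩
    exact ((Nat.prime_iff_prime_int.mp hp).dvd_or_dvd h1).resolve_right hi
  have ho0 : 0 < o := by
    have h1 : (0 : ℤ) < o * (e : ℤ) := by rw [hoe]; exact_mod_cast hn0
    have h2 : (0 : ℤ) < (e : ℤ) := by exact_mod_cast he0
    by_contra hneg
    have h3 : o ≤ 0 := not_lt.mp hneg
    nlinarith
  have hop : (p : ℤ) ≤ o := Int.le_of_dvd ho0 hpo
  have hp2' : (2 : ℤ) ≤ p := by exact_mod_cast hp2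
  have he1 : (1 : ℤ) ≤ (e : ℤ) := by exact_mod_cast he0
  have hn2 : (2 : ℤ) ≤ (n : ℤ) := by
    rw [← hoe]
    nlinarith
  -- `p n ≤ n + p - 1`
  have hb2 : (p : ℤ) * (n : ℤ) ≤ (n : ℤ) + (p : ℤ) - 1 := by
    have : ((p : ℤ) - 1) * (p : ℤ) * d1 = (p : ℤ) * (n : ℤ) := by
      rw [← hd1n]; ring
    rwa [this] at hb
  nlinarith

end Fermat.Agent.S56.Flat.Ram
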