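/-
S56 / FLAT / RAM (architect helper18), node ABSMAIN (Mathlib only + KUMBOUND, NORMAL, ZETA, ORD).

Notation: `n = finrank F0 F`, `o = ordOf v π ϖ` (`e o = n`), `d1` with `(p - 1) d1 = n` (exists: `(p-1) ∣ e ∣ n`).
For `τ` fixing `ϖ` (hence `K = F0(ϖ)`, `IntermediateField.adjoin_simple_le_iff`/`mem_fixingSubgroup`...) and `β ^ p ∈ K`, `β ≠ 0`:
`ζ := τ β / β` satisfies `ζ ^ p = 1`; if `τ β ≠ β` then `ζ ≠ 1` and `v (ζ - 1) ^ (p - 1) = v p = v π ^ n` (`val_zeta_sub_one`), hence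
`v (ζ - 1) = v π ^ d1`, and `τ β - β = (ζ - 1) β`.

`shape_three_false`: `y = α`, `q = X ^ p - C a`, `j = i`, `δ = d1`: `v (τ α - α) = v α * v π ^ d1`.  `kummer_bound`:
  `(p-1) p d1 = p n ≤ n + p - 1`, so `n ≤ 1`.  But `p * ord α = i * o` gives `p ∣ o`, `o > 0`, so `n = e o ≥ 2`.
`shape_two_false`: `y = α' - 1`, `q = (X + 1) ^ p - C a'`.  `v α' = 1` (`v a' = 1` since `v (a' - 1) < 1`), `v y ≤ 1`;
  `(1 + y)^p = 1 + y^p + p y r`, `v r ≤ 1` (`exists_add_pow_prime_eq` in `v.integer`), so `y^p = (a' - 1) - p y r` with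
  `v (p y r) ≤ v p = v ϖ ^ e < v ϖ ^ j`: `v y ^ p = v ϖ ^ j`.  `τ y - y = τ α' - α' = (ζ - 1) α'`, `v = v π ^ d1 = v y * v π ^ (d1 - ord y)`.
  `kummer_bound` with `δ = d1 - ord y`, `p * ord y = j o`:  `p n - (p-1) j o ≤ n + p - 1`, so `(e - j) o ≤ 1`; but `p ∣ o`, `o ≥ 2`, `e - j ≥ 1`.
`abs_kummer_level`: `normal_form`; in the second case apply `shape_two_false` to `a' = a b^p`, `α' = α b`; in the third `shape_three_false`.
-/
import Fermat.Agent.S56.Flat.Ram.Shape2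
import Fermat.Agent.S56.Flat.Ram.Shape3
import Fermat.Agent.S56.Flat.Ram.Normal

set_option autoImplicit false

namespace Fermat.Agent.S56.Flat.Ram

open scoped IntermediateField

variable {F0 F : Type*} [Field F0] [Field F] [Algebra F0 F] [FiniteDimensional F0 F] [IsGalois F0 F]
variable {Γ : Type*} [LinearOrderedCommGroupWithZero Γ] {v : Valuation F Γ} {p : ℕ}

/-- The abstract form of `FlatLoc.kummer_level`. -/
theorem abs_kummer_level (hT : TotRam F0 v p) (hp : p.Prime) (π : F) (hπ : IsUnif v π)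
    (hπn : v π ^ Module.finrank F0 F = v (p : F)) (hFon : FonBound F0 v p π)
    (e : ℕ) (he : ¬ p ∣ e) (hpe : (p - 1) ∣ e) (ϖ : F) (hϖ : ϖ ^ e = (p : F))
    (a α : F) (ha0 : a ≠ 0) (ha : a ∈ F0⟮ϖ⟯) (hα : α ^ p = a) :
    ∃ b : F, b ≠ 0 ∧ b ∈ F0⟮ϖ⟯ ∧ v (a * b ^ p - 1) ≤ v (p : F) := by
  have he0 : 0 < e := Nat.pos_of_ne_zero (fun h => he (h ▸ dvd_zero p))
  rcases normal_form hT hp e he0 ϖ hϖ a ha0 ha with h | ⟨b, hb0, hb, j, hj0, hje, hpj, hv⟩ |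
    ⟨i, hi, hv⟩
  · exact h
  · exact (shape_two_false hT hp π hπ hπn hFon e he hpe ϖ hϖ (a * b ^ p) (α * b)
      (mul_mem ha (pow_mem hb p)) (by rw [mul_pow, hα]) j hj0 hje hpj hv).elim
  · exact (shape_three_false hT hp π hπ hπn hFon e he hpe ϖ hϖ a α ha hα i hi hv).elim


end Fermat.Agent.S56.Flat.Ram
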