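/-
S56 / FLAT / RAM (architect helper18): CONCRETE DEFINITIONS (inside `Qb`, over the inertia field `K0 A`).

* `fieldOf M`      : `L = K0(W)`, generated over `K0 A` by the values `f w` of the functions of the model.
* `valOn A L`      : the restriction of `A.valuation` to an intermediate field `L` of `Qb / K0 A`.
* `InSpan A n π z` : `z = ∑_{i<n} a_i π^i` with `a_i ∈ A0`.
* `EisData A p n π c` : `v π ^ n = v p` and `π ^ n = ∑_{i<n} c_i π^i`, `c_i ∈ A0` (the Eisenstein equation of `π`).
* `eis c x`        : `x ^ n - ∑ c_i x^i` (the Eisenstein polynomial evaluated at `x`).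
* `transport A n π x` : the map `∑ a_i π^i ↦ ∑ a_i x^i`.
-/
import Fermat.Agent.S56.Flat.Defs
import Fermat.Agent.S56.Flat.Ram.Defs

set_option autoImplicit false

namespace Fermat.Agent.S56.Flat.Ram

open Fermat.Agent.Lib.InertiaField

/-- `K0(W)`. -/
noncomputable def fieldOf {A : ValuationSubring Qb} {W : Type} [AddCommGroup W]
    [DistribMulAction ↥(Iner A) W] (M : Model A W) : IntermediateField (K0 A) Qb :=
  IntermediateField.adjoin (K0 A) {x | ∃ f ∈ M.carrier, ∃ w : W, x = f w}

/-- The restriction of the valuation of `A` to `L`. -/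
noncomputable def valOn (A : ValuationSubring Qb) (L : IntermediateField (K0 A) Qb) :
    Valuation L A.ValueGroup :=
  A.valuation.comap (algebraMap L Qb)

/-- `z ∈ ∑_{i<n} A0 π^i`. -/
def InSpan (A : ValuationSubring Qb) (n : ℕ) (π z : Qb) : Prop :=
  ∃ a : Fin n → Qb, (∀ i, InA0 A (a i)) ∧ z = ∑ i, a i * π ^ (i : ℕ)

/-- The Eisenstein equation of `π`. -/
structure EisData (A : ValuationSubring Qb) (p n : ℕ) (π : Qb) (c : Fin n → Qb) : Prop where
  npos : 0 < n
  val : A.valuation π ^ n = A.valuation (p : Qb)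
  cA0 : ∀ i, InA0 A (c i)
  rel : π ^ n = ∑ i, c i * π ^ (i : ℕ)

/-- The Eisenstein polynomial evaluated at `x`. -/
noncomputable def eis {n : ℕ} (c : Fin n → Qb) (x : Qb) : Qb := x ^ n - ∑ i, c i * x ^ (i : ℕ)

open Classical in
/-- The transport map `∑ a_i π^i ↦ ∑ a_i x^i`. -/
noncomputable def transport (A : ValuationSubring Qb) (n : ℕ) (π x z : Qb) : Qb :=
  if h : InSpan A n π z then ∑ i, h.choose i * x ^ (i : ℕ) else 0

end Fermat.Agent.S56.Flat.Ram
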