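/-
S56 / FLAT / RAM (architect helper18), node FIELD (task 3218, owner helper169):
the field `L = K0(W) = fieldOf M`.
-/
import Fermat.Agent.S56.Flat.Ram.CDefs
import Fermat.Agent.Lib.InertiaField.TotRam.Field

set_option autoImplicit false

namespace Fermat.Agent.S56.Flat.Ram

open Fermat.Agent.Lib.InertiaField

variable {A : ValuationSubring Qb} {W : Type} [AddCommGroup W] [DistribMulAction ↥(Iner A) W]

/-- Galois theoretic description of `fieldOf M`. -/
theorem Field_mem_fieldOf_iff (M : Model A W) (x : Qb) :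
    x ∈ fieldOf M ↔ ∀ σ ∈ Iner A, (∀ f ∈ M.carrier, ∀ w : W, σ (f w) = f w) → σ x = x := by
  rw [fieldOf, adjoin_eq_adjI, mem_adjI, mem_adj]
  constructor
  · intro h σ hσ hs
    refine h σ hσ ?_
    rintro s ⟨f, hf, w, rfl⟩
    exact hs f hf w
  · intro h σ hσ hs
    exact h σ hσ fun f hf w => hs _ ⟨f, hf, w, rfl⟩

theorem Field_actsTriv_of_fix (M : Model A W) (σ : ↥(Iner A))
    (h : ∀ f ∈ M.carrier, ∀ w : W, σ.1 (f w) = f w) : ActsTriv W σ := fun w =>
  M.sep (σ • w) w fun f hf => by rw [M.equiv f hf σ w, h f hf w]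

theorem apply_mem_fieldOf (M : Model A W) {f : W → Qb} (hf : f ∈ M.carrier) (w : W) :
    f w ∈ fieldOf M :=
  IntermediateField.subset_adjoin _ _ ⟨f, hf, w, rfl⟩

theorem fieldOf_finite [Finite W] (M : Model A W) : FiniteDimensional (K0 A) (fieldOf M) := by
  obtain ⟨n, F, hF, hfg⟩ := M.fg
  have h : fieldOf M =
      IntermediateField.adjoin (K0 A) (Set.range fun iw : Fin n × W => F iw.1 iw.2) := by
    apply le_antisymm
    · rw [fieldOf, IntermediateField.adjoin_le_iff]
      rintro s ⟨f, hf, w, rfl⟩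
      obtain ⟨a, ha, hfa⟩ := hfg f hf
      rw [hfa w]
      refine sum_mem fun i _ => mul_mem ?_ ?_
      · exact (IntermediateField.adjoin (K0 A) _).algebraMap_mem (⟨a i, (ha i).1⟩ : K0 A)
      · exact IntermediateField.subset_adjoin _ _ ⟨(i, w), rfl⟩
    · rw [IntermediateField.adjoin_le_iff]
      rintro s ⟨⟨i, w⟩, rfl⟩
      exact apply_mem_fieldOf M (hF i) w
  rw [h]
  exact IntermediateField.finiteDimensional_adjoin fun x _ => IsGalois.integral (K0 A) x

theorem actsTriv_iff (M : Model A W) (σ : ↥(Iner A)) :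
    ActsTriv W σ ↔ ∀ x ∈ fieldOf M, σ.1 x = x := by
  constructor
  · intro hσ x hx
    refine (Field_mem_fieldOf_iff M x).1 hx σ.1 σ.2 fun f hf w => ?_
    rw [← M.equiv f hf σ w, hσ w]
  · intro h
    exact Field_actsTriv_of_fix M σ fun f hf w => h _ (apply_mem_fieldOf M hf w)

theorem fieldOf_isGalois (M : Model A W) : IsGalois (K0 A) (fieldOf M) := by
  have hsep : Algebra.IsSeparable (K0 A) (fieldOf M) :=
    Algebra.isSeparable_tower_bot_of_isSeparable (K0 A) (fieldOf M) Qb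
  have hnorm : Normal (K0 A) (fieldOf M) := by
    rw [IntermediateField.normal_iff_forall_map_le']
    intro τ
    rw [fieldOf, IntermediateField.adjoin_map, IntermediateField.adjoin_le_iff]
    rintro s ⟨t, ⟨f, hf, w, rfl⟩, rfl⟩
    have h1 : τ (f w) = f ((inertiaEquiv A).symm τ • w) := by
      rw [M.equiv f hf, inertiaEquiv_symm_apply]
    show τ (f w) ∈ _
    rw [h1]
    exact IntermediateField.subset_adjoin _ _ ⟨f, hf, _, rfl⟩
  exact isGalois_iff.2 ⟨hsep, hnorm⟩

theorem mem_fieldOf_of_fixed (M : Model A W) (x : Qb)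
    (h : ∀ σ : ↥(Iner A), ActsTriv W σ → σ.1 x = x) : x ∈ fieldOf M :=
  (Field_mem_fieldOf_iff M x).2 fun σ hσ hs => h ⟨σ, hσ⟩ (Field_actsTriv_of_fix M ⟨σ, hσ⟩ hs)

end Fermat.Agent.S56.Flat.Ram
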