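/-
S56 / FLAT / RAM (architect helper18), leaf FIELDK (Mathlib only), proved by helper249.

Structure of `K = F0(ϖ)`, `ϖ ^ e = p`, and of `F0(π)` for a uniformiser `π` of `F`.
-/
import Fermat.Agent.S56.Flat.Ram.Defs

set_option autoImplicit false

namespace Fermat.Agent.S56.Flat.Ram

open scoped IntermediateField

variable {F0 F : Type*} [Field F0] [Field F] [Algebra F0 F] [FiniteDimensional F0 F]
variable {Γ : Type*} [LinearOrderedCommGroupWithZero Γ] {v : Valuation F Γ} {p : ℕ}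

/-- an element whose positive power has the valuation of `p` has valuation in `(0, 1)`. -/
private theorem fieldK_val (hT : TotRam F0 v p) {n : ℕ} (hn : 0 < n) {π : F}
    (hpow : v π ^ n = v (p : F)) : v π ≠ 0 ∧ v π < 1 := by
  have hvp0 : v (p : F) ≠ 0 := (Valuation.ne_zero_iff v).2 hT.p_ne
  refine ⟨?_, ?_⟩
  · intro h
    rw [h, zero_pow hn.ne'] at hpow
    exact hvp0 hpow.symm
  · by_contra h
    push Not at h
    have h1 : 1 ≤ v π ^ n := one_le_pow₀ h
    rw [hpow] at h1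
    exact absurd hT.p_lt (not_lt.2 h1)

private theorem fieldK_core (hT : TotRam F0 v p) (e : ℕ) (he : 0 < e) (ϖ : F)
    (hϖ : ϖ ^ e = (p : F)) :
    Module.finrank F0 F0⟮ϖ⟯ = e ∧ ∀ x ∈ F0⟮ϖ⟯, x ≠ 0 → ∃ k : ℤ, v x = v ϖ ^ k := by
  obtain ⟨πK, hπK, hpow, hdisc⟩ := hT.unif F0⟮ϖ⟯
  have hnpos : 0 < Module.finrank F0 F0⟮ϖ⟯ := Module.finrank_pos
  obtain ⟨hπ0, hπ1⟩ := fieldK_val hT hnpos hpow
  have hϖ0 : ϖ ≠ 0 := by
    rintro rfl
    rw [zero_pow he.ne'] at hϖ
    exact hT.p_ne hϖ.symm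
  obtain ⟨k, hk⟩ := hdisc ϖ (IntermediateField.mem_adjoin_simple_self F0 ϖ) hϖ0
  have hinj : Function.Injective (fun n : ℤ => v πK ^ n) :=
    zpow_right_injective₀ (zero_lt_iff.2 hπ0) hπ1.ne
  have hke : k * (e : ℤ) = (Module.finrank F0 F0⟮ϖ⟯ : ℤ) := by
    apply hinj
    simp only
    rw [zpow_mul, ← hk, zpow_natCast, zpow_natCast, ← map_pow, hϖ, hpow]
  have hle : Module.finrank F0 F0⟮ϖ⟯ ≤ e := by
    have hint : IsIntegral F0 ϖ := IsIntegral.of_finite F0 ϖ
    rw [IntermediateField.adjoin.finrank hint]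
    have hdvd : minpoly F0 ϖ ∣ (Polynomial.X ^ e - Polynomial.C (p : F0)) := by
      apply minpoly.dvd
      simp [hϖ]
    have hne : (Polynomial.X ^ e - Polynomial.C (p : F0)) ≠ 0 :=
      Polynomial.X_pow_sub_C_ne_zero he _
    calc _ ≤ (Polynomial.X ^ e - Polynomial.C (p : F0)).natDegree :=
          Polynomial.natDegree_le_of_dvd hdvd hne
      _ = e := Polynomial.natDegree_X_pow_sub_C
  have hk1 : k = 1 := by
    have he' : (0 : ℤ) < e := by exact_mod_cast he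
    have hn' : (0 : ℤ) < (Module.finrank F0 F0⟮ϖ⟯ : ℤ) := by exact_mod_cast hnpos
    have hle' : (Module.finrank F0 F0⟮ϖ⟯ : ℤ) ≤ e := by exact_mod_cast hle
    have hkpos : 0 < k := by
      by_contra h
      push Not at h
      nlinarith
    by_contra h
    have h2 : 2 ≤ k := by omega
    nlinarith
  subst hk1
  rw [zpow_one] at hk
  refine ⟨by rw [one_mul] at hke; exact_mod_cast hke.symm, ?_⟩
  intro x hx hx0
  rw [hk]
  exact hdisc x hx hx0

theorem TotRam.finrank_adjoin_root (hT : TotRam F0 v p) (e : ℕ) (he : 0 < e) (ϖ : F)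
    (hϖ : ϖ ^ e = (p : F)) : Module.finrank F0 F0⟮ϖ⟯ = e := (fieldK_core hT e he ϖ hϖ).1

theorem TotRam.val_mem_adjoin_root (hT : TotRam F0 v p) (e : ℕ) (he : 0 < e) (ϖ : F)
    (hϖ : ϖ ^ e = (p : F)) : ∀ x ∈ F0⟮ϖ⟯, x ≠ 0 → ∃ k : ℤ, v x = v ϖ ^ k :=
  (fieldK_core hT e he ϖ hϖ).2

theorem TotRam.adjoin_unif_eq_top (hT : TotRam F0 v p) (π : F) (hπ : IsUnif v π)
    (hπn : v π ^ Module.finrank F0 F = v (p : F)) : F0⟮π⟯ = ⊤ := by
  obtain ⟨πE, hπE, hpow, hdisc⟩ := hT.unif F0⟮π⟯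
  have hnpos : 0 < Module.finrank F0 F0⟮π⟯ := Module.finrank_pos
  obtain ⟨hE0, hE1⟩ := fieldK_val hT hnpos hpow
  have hπ0 : v π ≠ 0 := (Valuation.ne_zero_iff v).2 hπ.ne_zero
  have hπE0 : πE ≠ 0 := (Valuation.ne_zero_iff v).1 hE0
  obtain ⟨k, hk⟩ := hdisc π (IntermediateField.mem_adjoin_simple_self F0 π) hπ.ne_zero
  obtain ⟨l, hl⟩ := hπ.disc πE hπE0
  have hinj : Function.Injective (fun n : ℤ => v π ^ n) :=
    zpow_right_injective₀ (zero_lt_iff.2 hπ0) hπ.lt_one.ne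
  have hlk : l * k = 1 := by
    apply hinj
    simp only
    rw [zpow_mul, ← hl, ← hk, zpow_one]
  have hlpos : 0 < l := by
    by_contra h
    push Not at h
    have h1 : 1 ≤ v π ^ l := by
      obtain ⟨m, rfl⟩ : ∃ m : ℕ, l = -(m : ℤ) := ⟨(-l).toNat, by omega⟩
      rw [zpow_neg, zpow_natCast]
      exact (one_le_inv₀ (pow_pos (zero_lt_iff.2 hπ0) m)).2 (pow_le_one₀ zero_le' hπ.lt_one.le)
    rw [← hl] at h1
    exact absurd hE1 (not_lt.2 h1)
  have hl1 : l = 1 := by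
    rcases Int.eq_one_or_neg_one_of_mul_eq_one hlk with h | h
    · exact h
    · omega
  subst hl1
  rw [zpow_one] at hl
  have hfin : Module.finrank F0 F0⟮π⟯ = Module.finrank F0 F := by
    have h2 : ((Module.finrank F0 F0⟮π⟯ : ℕ) : ℤ) = ((Module.finrank F0 F : ℕ) : ℤ) := by
      apply hinj
      simp only
      rw [zpow_natCast, zpow_natCast, hπn, ← hl, hpow]
    exact_mod_cast h2
  exact IntermediateField.eq_of_le_of_finrank_eq le_top
    (by rw [hfin, IntermediateField.finrank_top'])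

theorem TotRam.smul_unif_ne (hT : TotRam F0 v p) (π : F) (hπ : IsUnif v π)
    (hπn : v π ^ Module.finrank F0 F = v (p : F)) :
    ∀ s : F ≃ₐ[F0] F, s ≠ 1 → s • π ≠ π := by
  intro s hs h
  apply hs
  have htop := hT.adjoin_unif_eq_top π hπ hπn
  have hle : F0⟮π⟯ ≤ IntermediateField.fixedField (Subgroup.zpowers s) := by
    rw [IntermediateField.adjoin_simple_le_iff, IntermediateField.mem_fixedField_iff]
    rintro f ⟨n, rfl⟩
    have hfix : ∀ m : ℕ, (s ^ m) π = π := by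
      intro m
      induction m with
      | zero => simp
      | succ m ih => rw [pow_succ, AlgEquiv.mul_apply]; rw [show s π = π from h, ih]
    have hfix' : ∀ m : ℕ, ((s ^ m)⁻¹) π = π := by
      intro m
      have := hfix m
      calc ((s ^ m)⁻¹) π = ((s ^ m)⁻¹) ((s ^ m) π) := by rw [this]
        _ = π := by rw [← AlgEquiv.mul_apply]; simp
    rcases Int.eq_nat_or_neg n with ⟨m, rfl | rfl⟩
    · simpa using hfix m
    · simpa using hfix' m
  rw [htop] at hle
  ext x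
  have hx : x ∈ IntermediateField.fixedField (Subgroup.zpowers s) := hle trivial
  rw [IntermediateField.mem_fixedField_iff] at hx
  exact hx s (Subgroup.mem_zpowers s)

end Fermat.Agent.S56.Flat.Ram
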