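/-
S56 / FLAT / RAM (architect helper18, proofs helper189), leaf MEML: degree count `x ∈ L`, and
membership in `K0(ϖ)` in Galois form.
-/
import Fermat.Agent.S56.Flat.Ram.CDefs
import Fermat.Agent.Lib.InertiaField.TotRam.Field

set_option autoImplicit false

namespace Fermat.Agent.S56.Flat.Ram

open Fermat.Agent.Lib.InertiaField
open scoped IntermediateField

variable {A : ValuationSubring Qb}

theorem mem_of_stab (L : IntermediateField (K0 A) Qb) [FiniteDimensional (K0 A) L] (x : Qb)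
    (Q : Polynomial (K0 A)) (hQ : Q.Monic) (hQd : Q.natDegree = Module.finrank (K0 A) L)
    (hQx : Polynomial.aeval x Q = 0)
    (hstab : ∀ σ : ↥(Iner A), σ.1 x = x → ∀ z ∈ L, σ.1 z = z) : x ∈ L := by
  have hle : L ≤ (K0 A)⟮x⟯ := by
    intro z hz
    rw [adjoin_eq_adjI, mem_adjI, mem_adj_singleton]
    intro σ hσ hx
    exact hstab ⟨σ, hσ⟩ hx z hz
  have hint : IsIntegral (K0 A) x := ⟨Q, hQ, hQx⟩
  have hfin : FiniteDimensional (K0 A) (K0 A)⟮x⟯ := IntermediateField.adjoin.finiteDimensional hint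
  have hdeg : Module.finrank (K0 A) (K0 A)⟮x⟯ ≤ Module.finrank (K0 A) L := by
    rw [IntermediateField.adjoin.finrank hint, ← hQd]
    exact Polynomial.natDegree_le_of_dvd (minpoly.dvd _ _ hQx) hQ.ne_zero
  have heq : L = (K0 A)⟮x⟯ := IntermediateField.eq_of_le_of_finrank_le hle hdeg
  rw [heq]
  exact IntermediateField.mem_adjoin_simple_self _ x

/-- membership in `K0(ϖ)`, inside `L`, in Galois form. -/
theorem mem_adjoin_simple_iff (L : IntermediateField (K0 A) Qb) (ϖ a : L) :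
    a ∈ (K0 A)⟮ϖ⟯ ↔ ∀ σ : ↥(Iner A), σ.1 (ϖ : Qb) = ϖ → σ.1 (a : Qb) = a := by
  rw [← IntermediateField.mem_lift, IntermediateField.lift_adjoin_simple, adjoin_eq_adjI, mem_adjI,
    mem_adj_singleton]
  exact ⟨fun h σ => h σ.1 σ.2, fun h σ hσ => h ⟨σ, hσ⟩⟩

end Fermat.Agent.S56.Flat.Ram
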