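/-
S56 / FLAT / RAM (architect helper18), leaf NOTVALUE (Mathlib only + ORD API).  Proof: helper111.

`D := ∑_{s ≠ 1} i(s) + i_max - 1` is not the order of `∏_s (x - s π)` for any `x ∈ F`.

Proof.  If some factor vanishes the left side is `0 ≠ v π ^ D`.  Otherwise put `d_s = ord (x - s π)`,
let `s0` maximise `d_s`, `d = d_{s0}`.  For `s ≠ s0`:  `x - s π = (x - s0 π) + (s0 π - s π)` and
`ord (s0 π - s π) = i(s0⁻¹ s)` (`ordOf_smul_sub_smul`), hence `d_s ≥ min (d, i(s0⁻¹ s))`, with equality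
if `d ≠ i(s0⁻¹ s)` (`ordOf_add_eq_min`), and if `d = i(s0⁻¹ s)` then `d ≤ d_s ≤ d` by maximality.  So
`d_s = min (d, i(s0⁻¹ s))` and (reindex `t = s0⁻¹ s`)   `∑_s d_s = d + ∑_{t ≠ 1} min (d, i(t))`.
* if `d ≥ i(s1)` (`= i_max`): the sum is `d + ∑_{t ≠ 1} i(t) ≥ D + 1`;
* if `d ≤ i(s1) - 1`: the sum is `≤ d + d + ∑_{t ≠ 1, s1} i(t) = 2 d - i(s1) + ∑_{t ≠ 1} i(t) ≤ D - 1`.
(recall `ii v π 1 = 0`, so `∑ s, ii v π s` is the sum over `s ≠ 1`.)
-/
import Fermat.Agent.S56.Flat.Ram.Ord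

set_option autoImplicit false

namespace Fermat.Agent.S56.Flat.Ram

variable {F : Type*} [Field F] {Γ : Type*} [LinearOrderedCommGroupWithZero Γ]
variable {G : Type*} [Group G] [Fintype G] [MulSemiringAction G F]

theorem not_value (v : Valuation F Γ) (π : F) (hπ : IsUnif v π)
    (hinv : ∀ (s : G) (x : F), v (s • x) = v x) (hgen : ∀ s : G, s ≠ 1 → s • π ≠ π)
    (s1 : G) (hs1 : s1 ≠ 1) (hmax : ∀ s : G, s ≠ 1 → v (s1 • π - π) ≤ v (s • π - π)) (x : F) :
    v (∏ s : G, (x - s • π)) ≠ v π ^ ((∑ s : G, ii v π s) + ii v π s1 - 1) := by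
  classical
  intro hD
  by_cases hz : ∃ s : G, x - s • π = 0
  · obtain ⟨s, hs⟩ := hz
    rw [Finset.prod_eq_zero (Finset.mem_univ s) hs, map_zero] at hD
    exact (zpow_ne_zero _ hπ.val_pos.ne') hD.symm
  push Not at hz
  have hsum : ∑ s : G, ordOf v π (x - s • π) = (∑ s : G, ii v π s) + ii v π s1 - 1 := by
    rw [← hπ.ordOf_prod Finset.univ _ (fun s _ => hz s)]
    exact hπ.ordOf_eq hD
  obtain ⟨s0, -, hs0⟩ := Finset.exists_max_image Finset.univ
    (fun s : G => ordOf v π (x - s • π)) ⟨1, Finset.mem_univ _⟩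
  obtain ⟨d0, hd0⟩ : ∃ d0 : ℤ, d0 = ordOf v π (x - s0 • π) := ⟨_, rfl⟩
  have hmin : ∀ s : G, s ≠ s0 → ordOf v π (x - s • π) = min d0 (ii v π (s0⁻¹ * s)) := by
    intro s hs
    have hne : s0 • π - s • π ≠ 0 := by
      intro h0
      refine hgen (s0⁻¹ * s) (fun h1 => hs ?_) ?_
      · rw [inv_mul_eq_one] at h1
        exact h1.symm
      · rw [mul_smul, ← sub_eq_zero.mp h0, inv_smul_smul]
    have hdec : (x - s0 • π) + (s0 • π - s • π) = x - s • π := by ring
    have hord : ordOf v π (s0 • π - s • π) = ii v π (s0⁻¹ * s) := ordOf_smul_sub_smul hinv s0 s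
    by_cases heq : d0 = ii v π (s0⁻¹ * s)
    · rw [← heq, min_self]
      refine le_antisymm (by rw [hd0]; exact hs0 s (Finset.mem_univ _)) ?_
      have h1 := hπ.min_le_ordOf_add (hz s0) hne (by rw [hdec]; exact hz s)
      rwa [hord, ← heq, ← hd0, min_self, hdec] at h1
    · have h1 := (hπ.ordOf_add_eq_min (hz s0) hne (by rw [hord, ← hd0]; exact heq)).2
      rwa [hdec, hord, ← hd0] at h1
  -- reindexing
  have hre : ∑ s : G, ordOf v π (x - s • π) =
      ∑ t : G, (if t = 1 then d0 else min d0 (ii v π t)) := by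
    refine Eq.trans ?_ (Equiv.sum_comp (Equiv.mulLeft s0⁻¹)
      (fun t : G => if t = 1 then d0 else min d0 (ii v π t)))
    refine Finset.sum_congr rfl fun s _ => ?_
    simp only [Equiv.coe_mulLeft]
    by_cases hs : s = s0
    · rw [hs, inv_mul_cancel, if_pos rfl, hd0]
    · rw [if_neg (fun h1 => hs (by rw [inv_mul_eq_one] at h1; exact h1.symm)), hmin s hs]
  have hle : ∀ t : G, t ≠ 1 → ii v π t ≤ ii v π s1 := by
    intro t ht
    exact (hπ.ordOf_le_ordOf_iff (sub_ne_zero.mpr (hgen t ht))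
      (sub_ne_zero.mpr (hgen s1 hs1))).mpr (hmax t ht)
  have hone : ii v π (1 : G) = 0 := hπ.ii_one
  rw [hre] at hsum
  by_cases hcase : ii v π s1 ≤ d0
  · have h1 : ∑ t : G, (if t = 1 then d0 else min d0 (ii v π t)) =
        ∑ t : G, (ii v π t + if t = 1 then d0 else 0) := by
      refine Finset.sum_congr rfl fun t _ => ?_
      by_cases ht : t = 1
      · rw [if_pos ht, if_pos ht, ht, hone, zero_add]
      · rw [if_neg ht, if_neg ht, add_zero, min_eq_right ((hle t ht).trans hcase)]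
    rw [h1, Finset.sum_add_distrib, Finset.sum_ite_eq' Finset.univ (1 : G) (fun _ => d0),
      if_pos (Finset.mem_univ _)] at hsum
    omega
  · have h1 : ∑ t : G, (if t = 1 then d0 else min d0 (ii v π t)) ≤
        ∑ t : G, (ii v π t + (if t = 1 then d0 else 0) +
          if t = s1 then d0 - ii v π s1 else 0) := by
      refine Finset.sum_le_sum fun t _ => ?_
      by_cases ht : t = 1
      · rw [if_pos ht, if_pos ht, if_neg (fun h2 : t = s1 => hs1 (h2 ▸ ht)), ht, hone]
        omega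
      · rw [if_neg ht, if_neg ht]
        by_cases ht1 : t = s1
        · rw [if_pos ht1, ht1]
          have := min_le_left d0 (ii v π s1)
          omega
        · rw [if_neg ht1]
          have := min_le_right d0 (ii v π t)
          omega
    rw [Finset.sum_add_distrib, Finset.sum_add_distrib,
      Finset.sum_ite_eq' Finset.univ (1 : G) (fun _ => d0),
      Finset.sum_ite_eq' Finset.univ s1 (fun _ => d0 - ii v π s1),
      if_pos (Finset.mem_univ _), if_pos (Finset.mem_univ _), hsum] at h1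
    omega

end Fermat.Agent.S56.Flat.Ram
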