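/-
S56 / FLAT / RAM (architect helper18), leaf PROD (Mathlib only; proof helper262): a monic polynomial of degree `[F : F0]` killing a generator `π` of the Galois extension
`F / F0` is `∏_s (X - s π)`.

Proof.  `P = minpoly F0 π` (`minpoly.dvd`, both monic, `natDegree (minpoly) = finrank F0 F0⟮π⟯ = finrank F0 F`; `Polynomial.eq_of_monic_of_dvd_of_natDegree_le`).
The `s π` (`s ∈ Gal`) are pairwise distinct (an `s` fixing `π` fixes `F0⟮π⟯ = ⊤`) roots of `P.map (algebraMap F0 F)`; so `∏_s (X - C (s π))` divides it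
(`Finset.prod_X_sub_C_dvd`-type lemma / `Multiset.prod_X_sub_C_dvd_iff_le_roots`), both are monic of degree `n = |Gal|` (`IsGalois.card_aut_eq_finrank`), so they are equal.
Evaluate at `x`.
-/
import Mathlib

set_option autoImplicit false

namespace Fermat.Agent.S56.Flat.Ram

open scoped IntermediateField

theorem aeval_eq_prod {F0 F : Type*} [Field F0] [Field F] [Algebra F0 F] [FiniteDimensional F0 F]
    [IsGalois F0 F] (π : F) (hgen : F0⟮π⟯ = ⊤) (P : Polynomial F0) (hP : P.Monic)
    (hPd : P.natDegree = Module.finrank F0 F) (hPπ : Polynomial.aeval π P = 0) (x : F) :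
    Polynomial.aeval x P = ∏ s : F ≃ₐ[F0] F, (x - s • π) := by
  classical
  have hadj : Algebra.adjoin F0 {π} = ⊤ := by
    have h1 := IntermediateField.adjoin_simple_toSubalgebra_of_isAlgebraic
      (Algebra.IsAlgebraic.isAlgebraic (R := F0) π)
    rw [← h1, hgen, IntermediateField.top_toSubalgebra]
  have hinj : Function.Injective (fun s : F ≃ₐ[F0] F => s π) := by
    intro s t hst
    have h2 : (s : F →ₐ[F0] F) = (t : F →ₐ[F0] F) := by
      refine AlgHom.ext_of_adjoin_eq_top hadj ?_
      intro y hy
      rw [Set.mem_singleton_iff] at hy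
      rw [hy]
      exact hst
    ext y
    exact DFunLike.congr_fun h2 y
  have hcard : Fintype.card (F ≃ₐ[F0] F) = Module.finrank F0 F := by
    rw [← Nat.card_eq_fintype_card, IsGalois.card_aut_eq_finrank]
  set Q : Polynomial F := ∏ s : F ≃ₐ[F0] F, (Polynomial.X - Polynomial.C (s π)) with hQ
  have hQm : Q.Monic := Polynomial.monic_prod_of_monic _ _ fun s _ => Polynomial.monic_X_sub_C _
  have hQd : Q.natDegree = Module.finrank F0 F := by
    rw [hQ, Polynomial.natDegree_prod_of_monic _ _ fun s _ => Polynomial.monic_X_sub_C _]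
    simp [hcard]
  set R : Polynomial F := P.map (algebraMap F0 F) with hR
  have hRm : R.Monic := hP.map _
  have hRd : R.natDegree = Module.finrank F0 F := by rw [hR, hP.natDegree_map, hPd]
  have hpos : 0 < Module.finrank F0 F := Module.finrank_pos
  have hRQ : R - Q = 0 := by
    refine Polynomial.eq_zero_of_natDegree_lt_card_of_eval_eq_zero (R - Q) hinj ?_ ?_
    · intro s
      rw [Polynomial.eval_sub]
      have h1 : Polynomial.eval (s π) R = 0 := by
        rw [hR, Polynomial.eval_map_algebraMap, Polynomial.aeval_algHom_apply, hPπ, map_zero]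
      have h2 : Polynomial.eval (s π) Q = 0 := by
        rw [hQ, Polynomial.eval_prod]
        exact Finset.prod_eq_zero (Finset.mem_univ s) (by simp)
      rw [h1, h2, sub_zero]
    · rw [hcard]
      exact Polynomial.IsMonicOfDegree.natDegree_sub_lt hpos.ne' ⟨hRd, hRm⟩ ⟨hQd, hQm⟩
  have hRQ' : R = Q := sub_eq_zero.1 hRQ
  rw [← Polynomial.eval_map_algebraMap, ← hR, hRQ', hQ, Polynomial.eval_prod]
  refine Finset.prod_congr rfl fun s _ => ?_
  simp

end Fermat.Agent.S56.Flat.Ram
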