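/-
S56 / FLAT / RAM (architect helper18), node FON: Fontaine's bound from property (P_m) (`hstab`).
Proof: helper14.

Let `n = finrank`, `s1`, `hmax` as in `FonBound`, `D := ∑ s, ii v π s + ii v π s1 - 1` and suppose
`(p - 1) D > p n`; so `D > n > 0`.  Write `D = n a + j`; a root `x` of the perturbed Eisenstein
polynomial `P + p^a X^j` has `v (P x) = v π ^ D`, lies in `L` by property (P_m), and
`P x = ∏ s, (x - s π)`, contradicting `not_value`.
-/
import Fermat.Agent.S56.Flat.Ram.Root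
import Fermat.Agent.S56.Flat.Ram.MemL
import Fermat.Agent.S56.Flat.Ram.Prod
import Fermat.Agent.S56.Flat.Ram.NotValue
import Fermat.Agent.S56.Flat.Ram.FieldK

set_option autoImplicit false

namespace Fermat.Agent.S56.Flat.Ram

open Fermat.Agent.Lib.InertiaField

variable {A : ValuationSubring Qb} {p : ℕ}

/-- The Eisenstein polynomial. -/
private noncomputable def fonPoly {n : ℕ} (c : Fin n → Qb) (hc : ∀ i, InA0 A (c i)) :
    Polynomial (K0 A) :=
  Polynomial.X ^ n - ∑ i : Fin n, Polynomial.C (⟨c i, (hc i).1⟩ : K0 A) * Polynomial.X ^ (i : ℕ)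

private theorem fonPoly_monic {n : ℕ} (c : Fin n → Qb) (hc : ∀ i, InA0 A (c i)) :
    (fonPoly c hc).Monic :=
  Polynomial.monic_X_pow_sub (Polynomial.degree_sum_fin_lt _)

private theorem fonPoly_natDegree {n : ℕ} (c : Fin n → Qb) (hc : ∀ i, InA0 A (c i)) :
    (fonPoly c hc).natDegree = n := by
  have h : (fonPoly c hc).degree = n := by
    unfold fonPoly
    rw [Polynomial.degree_sub_eq_left_of_degree_lt, Polynomial.degree_X_pow]
    rw [Polynomial.degree_X_pow]
    exact Polynomial.degree_sum_fin_lt _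
  exact Polynomial.natDegree_eq_of_degree_eq_some h

private theorem fonPoly_aeval {n : ℕ} (c : Fin n → Qb) (hc : ∀ i, InA0 A (c i)) (y : Qb) :
    Polynomial.aeval y (fonPoly c hc) = eis c y := by
  unfold fonPoly eis
  rw [map_sub, map_pow, Polynomial.aeval_X, map_sum]
  congr 1
  refine Finset.sum_congr rfl fun i _ => ?_
  rw [map_mul, map_pow, Polynomial.aeval_X, Polynomial.aeval_C]
  rfl

theorem fonBound_of_stab (hp : p.Prime) (hA : A.LiesOverPrime p)
    (L : IntermediateField (K0 A) Qb) [FiniteDimensional (K0 A) L] [IsGalois (K0 A) L]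
    (hT : TotRam (K0 A) (valOn A L) p) (π : L) (hπ : IsUnif (valOn A L) π)
    (hπn : valOn A L π ^ Module.finrank (K0 A) L = valOn A L (p : L))
    (hexp : ∀ z : L, (z : Qb) ∈ A → InSpan A (Module.finrank (K0 A) L) (π : Qb) (z : Qb))
    (hstab : ∀ (c : Fin (Module.finrank (K0 A) L) → Qb) (x : Qb),
      EisData A p (Module.finrank (K0 A) L) (π : Qb) c → A.valuation x = A.valuation (π : Qb) →
      A.valuation (eis c x) ^ (p - 1) < A.valuation (p : Qb) ^ p →
      ∀ σ : ↥(Iner A), σ.1 x = x → ∀ z ∈ L, σ.1 z = z) :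
    FonBound (K0 A) (valOn A L) p π := by
  intro s1 hs1 hmax
  by_contra hcon
  rw [not_le] at hcon
  obtain ⟨D, hD⟩ : ∃ D : ℤ, D = (∑ s : L ≃ₐ[K0 A] L, ii (valOn A L) π s) +
      ii (valOn A L) π s1 - 1 := ⟨_, rfl⟩
  rw [← hD] at hcon
  have hnpos : 0 < Module.finrank (K0 A) L := Module.finrank_pos
  have hval : ∀ z : L, valOn A L z = A.valuation (z : Qb) := fun _ => rfl
  have hπ0 : 0 < A.valuation (π : Qb) := hπ.val_pos
  have hπ1 : A.valuation (π : Qb) < 1 := hπ.lt_one
  have hπn' : A.valuation (π : Qb) ^ Module.finrank (K0 A) L = A.valuation (p : Qb) := by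
    have := hπn
    rw [hval, hval] at this
    rw [this]
    congr 1
  -- arithmetic
  have hp2 : (2 : ℤ) ≤ p := by exact_mod_cast hp.two_le
  have hn0 : (0 : ℤ) < (Module.finrank (K0 A) L : ℤ) := by exact_mod_cast hnpos
  have hDn : (Module.finrank (K0 A) L : ℤ) < D := by
    by_contra h
    rw [not_lt] at h
    nlinarith
  -- the Eisenstein equation
  have hmemA : (((π ^ Module.finrank (K0 A) L : L)) : Qb) ∈ A := by
    rw [← A.valuation_le_one_iff]
    have : (((π ^ Module.finrank (K0 A) L : L)) : Qb) = (π : Qb) ^ Module.finrank (K0 A) L := rfl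
    rw [this, map_pow]
    exact pow_le_one₀ zero_le' hπ1.le
  obtain ⟨c, hc, hrel⟩ := hexp _ hmemA
  have hE : EisData A p (Module.finrank (K0 A) L) (π : Qb) c := ⟨hnpos, hπn', hc, hrel⟩
  -- division with remainder
  obtain ⟨a, ha⟩ : ∃ a : ℕ, (a : ℤ) = D / (Module.finrank (K0 A) L : ℤ) :=
    ⟨(D / (Module.finrank (K0 A) L : ℤ)).toNat,
      Int.toNat_of_nonneg (Int.ediv_nonneg (by omega) hn0.le)⟩
  obtain ⟨j, hj⟩ : ∃ j : ℕ, (j : ℤ) = D % (Module.finrank (K0 A) L : ℤ) :=
    ⟨(D % (Module.finrank (K0 A) L : ℤ)).toNat,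
      Int.toNat_of_nonneg (Int.emod_nonneg _ hn0.ne')⟩
  have hdiv : (Module.finrank (K0 A) L : ℤ) * a + j = D := by
    rw [ha, hj]
    exact Int.mul_ediv_add_emod D _
  have hjn : j < Module.finrank (K0 A) L := by
    have := Int.emod_lt_of_pos D hn0
    rw [← hj] at this
    exact_mod_cast this
  have hjn' : (j : ℤ) < (Module.finrank (K0 A) L : ℤ) := by exact_mod_cast hjn
  have ha1 : 1 ≤ a := by
    by_contra h
    have h0 : a = 0 := by omega
    rw [h0] at hdiv
    simp only [Nat.cast_zero, mul_zero, zero_add] at hdiv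
    omega
  have haj : ¬ (a = 1 ∧ j = 0) := by
    rintro ⟨h1, h0⟩
    rw [h1, h0] at hdiv
    simp only [Nat.cast_one, mul_one, Nat.cast_zero, add_zero] at hdiv
    omega
  obtain ⟨x, hvx, heis, Q, hQ, hQd, hQx⟩ := exists_root hp hA hE a j ha1 hjn haj
  have hveis : A.valuation (eis c x) =
      A.valuation (π : Qb) ^ (Module.finrank (K0 A) L * a + j) := by
    rw [heis, Valuation.map_neg, map_mul, map_pow, map_pow, hvx, ← hπn', ← pow_mul, ← pow_add]
  have hsmall : A.valuation (eis c x) ^ (p - 1) < A.valuation (p : Qb) ^ p := by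
    rw [hveis, ← hπn', ← pow_mul, ← pow_mul]
    apply pow_lt_pow_right_of_lt_one₀ hπ0 hπ1
    have h1 : ((Module.finrank (K0 A) L * p : ℕ) : ℤ) <
        (((Module.finrank (K0 A) L * a + j) * (p - 1) : ℕ) : ℤ) := by
      have hp1 : ((p - 1 : ℕ) : ℤ) = (p : ℤ) - 1 := by
        have := hp.one_le
        push_cast [Nat.cast_sub this]
        ring
      push_cast
      rw [hp1, hdiv]
      linarith
    exact_mod_cast h1
  have hxL : x ∈ L := mem_of_stab L x Q hQ hQd hQx (hstab c x hE hvx hsmall)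
  -- the product formula
  have hPπ : Polynomial.aeval π (fonPoly c hc) = 0 := by
    apply (algebraMap L Qb).injective
    rw [← Polynomial.aeval_algebraMap_apply, map_zero]
    have : algebraMap L Qb π = (π : Qb) := rfl
    rw [this, fonPoly_aeval, eis, ← hrel]
    exact sub_self _
  have hprod := aeval_eq_prod π (hT.adjoin_unif_eq_top π hπ hπn) (fonPoly c hc)
    (fonPoly_monic c hc) (fonPoly_natDegree c hc) hPπ ⟨x, hxL⟩
  have hvprod : valOn A L (∏ s : L ≃ₐ[K0 A] L, ((⟨x, hxL⟩ : L) - s • π)) =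
      valOn A L π ^ D := by
    rw [← hprod, hval, hval]
    have h1 : ((Polynomial.aeval (⟨x, hxL⟩ : L) (fonPoly c hc) : L) : Qb) = eis c x := by
      rw [← fonPoly_aeval c hc x]
      exact (Polynomial.aeval_algebraMap_apply Qb (⟨x, hxL⟩ : L) (fonPoly c hc)).symm
    rw [h1, hveis, ← hdiv, ← zpow_natCast]
    push_cast
    rfl
  rw [hD] at hvprod
  exact not_value (valOn A L) π hπ hT.inv (hT.smul_unif_ne π hπ hπn) s1 hs1 hmax ⟨x, hxL⟩ hvprod

end Fermat.Agent.S56.Flat.Ram
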