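/-
S56 / FLAT / RAM (architect helper18), node INST (helper234): `L / K0 A` is totally ramified in the sense of
`TotRam`, and has a uniformiser with integral expansions.
-/
import Fermat.Agent.S56.Flat.Ram.CDefs
import Fermat.Agent.Lib.InertiaField.TotRam.Field
import Fermat.Agent.S44.ES.Tame

set_option autoImplicit false

namespace Fermat.Agent.S56.Flat.Ram

open Fermat.Agent.Lib.InertiaField

variable {A : ValuationSubring Qb} {p : ℕ}

theorem Inst_valOn_apply (L : IntermediateField (K0 A) Qb) (x : L) :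
    valOn A L x = A.valuation (x : Qb) := rfl

theorem Inst_mul_mem_nonunits {a b : Qb} (ha : a ∈ A) (hb : b ∈ A.nonunits) :
    a * b ∈ A.nonunits := by
  change A.valuation (a * b) < 1
  rw [map_mul]
  exact lt_of_le_of_lt (mul_le_of_le_one_left' ((A.valuation_le_one_iff a).2 ha)) hb

theorem Inst_val_natCast_ne_zero (hp : p.Prime) : A.valuation (p : Qb) ≠ 0 :=
  (A.valuation.ne_zero_iff).2 (Nat.cast_ne_zero.2 hp.ne_zero)

theorem totRam_valOn (hp : p.Prime) (hA : A.LiesOverPrime p) (L : IntermediateField (K0 A) Qb)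
    [FiniteDimensional (K0 A) L] : TotRam (K0 A) (valOn A L) p where
  inv s x := by
    rw [Inst_valOn_apply, Inst_valOn_apply]
    have h1 : ((s x : L) : Qb) = s.liftNormal Qb (x : Qb) :=
      (AlgEquiv.liftNormal_commutes s Qb x).symm
    rw [h1, ← inertiaEquiv_symm_apply A (s.liftNormal Qb) (x : Qb)]
    exact S44.ES.val_apply_eq A ((inertiaEquiv A).symm (s.liftNormal Qb)).2 _
  p_ne := by
    intro h
    have h1 := congrArg (algebraMap L Qb) h
    rw [map_natCast, map_zero] at h1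
    exact Nat.cast_ne_zero.2 hp.ne_zero h1
  p_lt := by
    rw [Inst_valOn_apply]
    have h1 : (((p : ℕ) : L) : Qb) = (p : Qb) := map_natCast (algebraMap L Qb) p
    rw [h1]
    exact hA
  unif E := by
    have hfd : FiniteDimensional (K0 A) (IntermediateField.lift E) :=
      (IntermediateField.liftAlgEquiv E).toLinearEquiv.finiteDimensional
    obtain ⟨ϖ, hϖ, hpow, hdisc, -⟩ := exists_uniformizer hp hA (IntermediateField.lift E)
    have hϖL : ϖ ∈ L := IntermediateField.lift_le E hϖ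
    refine ⟨⟨ϖ, hϖL⟩, (IntermediateField.mem_lift (⟨ϖ, hϖL⟩ : L)).1 hϖ, ?_, ?_⟩
    · rw [Inst_valOn_apply, Inst_valOn_apply,
        (IntermediateField.liftAlgEquiv E).toLinearEquiv.finrank_eq]
      have h1 : (((p : ℕ) : L) : Qb) = (p : Qb) := map_natCast (algebraMap L Qb) p
      rw [h1]
      exact hpow
    · intro x hx hx0
      exact hdisc (x : Qb) ((IntermediateField.mem_lift x).2 hx)
        (fun h => hx0 (Subtype.ext h))
  res x hx := by
    rw [Inst_valOn_apply] at hx
    obtain ⟨b, hbK, -, hb⟩ := exists_mem_K0_sub_mem A p hp hA ((A.valuation_le_one_iff _).1 hx)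
    exact ⟨⟨b, hbK⟩, hb⟩
  root b hb := by
    rw [Inst_valOn_apply] at hb
    obtain ⟨w', hw'⟩ := IsAlgClosed.exists_pow_nat_eq ((b : Qb)) hp.pos
    have hb' : A.valuation (b : Qb) = 1 := hb
    have hv : A.valuation w' = 1 := by
      have h1 : A.valuation w' ^ p = 1 := by rw [← map_pow, hw', hb']
      exact (pow_eq_one_iff.mp h1).resolve_right hp.ne_zero
    have hw'A : w' ∈ A := (A.valuation_le_one_iff _).1 hv.le
    obtain ⟨w, hwK, hwA, hw⟩ := exists_mem_K0_sub_mem A p hp hA hw'A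
    refine ⟨⟨w, hwK⟩, ?_⟩
    change w ^ p - (b : Qb) ∈ A.nonunits
    have h2 : w ^ p - (b : Qb) =
        (-∑ i ∈ Finset.range p, w' ^ i * w ^ (p - 1 - i)) * (w' - w) := by
      rw [neg_mul, (Commute.all w' w).geom_sum₂_mul, hw']
      ring
    rw [h2]
    exact Inst_mul_mem_nonunits
      (neg_mem (sum_mem fun i _ => mul_mem (pow_mem hw'A _) (pow_mem hwA _))) hw

theorem exists_unif (hp : p.Prime) (hA : A.LiesOverPrime p) (L : IntermediateField (K0 A) Qb)
    [FiniteDimensional (K0 A) L] :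
    ∃ π : L, IsUnif (valOn A L) π ∧
      valOn A L π ^ Module.finrank (K0 A) L = valOn A L (p : L) ∧
      ∀ z : L, (z : Qb) ∈ A → InSpan A (Module.finrank (K0 A) L) (π : Qb) (z : Qb) := by
  obtain ⟨ϖ, hϖ, hpow, hdisc, hexp⟩ := exists_uniformizer hp hA L
  have hn : Module.finrank (K0 A) L ≠ 0 := Module.finrank_pos.ne'
  have hplt : A.valuation (p : Qb) < 1 := hA
  refine ⟨⟨ϖ, hϖ⟩, ⟨?_, ?_, ?_⟩, ?_, ?_⟩
  · intro h
    have h0 : ϖ = 0 := congrArg Subtype.val h
    rw [h0, map_zero, zero_pow hn] at hpow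
    exact Inst_val_natCast_ne_zero hp hpow.symm
  · rw [Inst_valOn_apply]
    by_contra hcon
    rw [not_lt] at hcon
    have h1 : 1 ≤ A.valuation ϖ ^ Module.finrank (K0 A) L := one_le_pow_of_one_le' hcon _
    rw [hpow] at h1
    exact absurd hplt (not_lt.2 h1)
  · intro x hx0
    exact hdisc (x : Qb) x.2 (fun h => hx0 (Subtype.ext h))
  · rw [Inst_valOn_apply, Inst_valOn_apply]
    have h1 : (((p : ℕ) : L) : Qb) = (p : Qb) := map_natCast (algebraMap L Qb) p
    rw [h1]
    exact hpow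
  · intro z hz
    exact hexp (z : Qb) z.2 hz

end Fermat.Agent.S56.Flat.Ram
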