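/-
S56 / FLAT / RAM (architect helper18, proofs helper40), leaf DISTINCT (Mathlib only): a sum of terms
with pairwise distinct valuations has the valuation of its largest term.
-/
import Mathlib

set_option autoImplicit false

namespace Fermat.Agent.S56.Flat.Ram

variable {F : Type*} [Field F] {Γ : Type*} [LinearOrderedCommGroupWithZero Γ]

/-- the sum has the valuation of its largest term -/
theorem Distinct_exists_max {ι : Type*} (v : Valuation F Γ) (s : Finset ι) (hs : s.Nonempty)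
    (x : ι → F) (hd : ∀ a ∈ s, ∀ b ∈ s, a ≠ b → x a ≠ 0 → v (x a) ≠ v (x b)) :
    ∃ a0 ∈ s, (∀ a ∈ s, v (x a) ≤ v (x a0)) ∧ v (∑ b ∈ s, x b) = v (x a0) := by
  classical
  obtain ⟨a0, ha0, hmax⟩ := Finset.exists_max_image s (fun a => v (x a)) hs
  refine ⟨a0, ha0, hmax, ?_⟩
  by_cases h0 : x a0 = 0
  · have hall : ∀ a ∈ s, x a = 0 := by
      intro a ha
      have h1 := hmax a ha
      simp only [h0, map_zero, le_zero_iff, map_eq_zero] at h1
      exact h1
    rw [Finset.sum_eq_zero hall, h0]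
  · have hv0 : v (x a0) ≠ 0 := (map_ne_zero v).2 h0
    have hlt : v (∑ b ∈ s.erase a0, x b) < v (x a0) := by
      refine Valuation.map_sum_lt v hv0 fun b hb => ?_
      have hb' := Finset.mem_erase.1 hb
      exact lt_of_le_of_ne (hmax b hb'.2) (fun h => hd a0 ha0 b hb'.2 hb'.1.symm h0 h.symm)
    rw [← Finset.add_sum_erase s x ha0]
    exact Valuation.map_add_eq_of_lt_left v hlt

theorem val_le_val_sum {ι : Type*} (v : Valuation F Γ) (s : Finset ι) (x : ι → F)
    (hd : ∀ a ∈ s, ∀ b ∈ s, a ≠ b → x a ≠ 0 → v (x a) ≠ v (x b)) :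
    ∀ a ∈ s, v (x a) ≤ v (∑ b ∈ s, x b) := by
  intro a ha
  obtain ⟨a0, _, hmax, he⟩ := Distinct_exists_max v s ⟨a, ha⟩ x hd
  rw [he]
  exact hmax a ha

theorem val_sum_eq_val_sum {ι : Type*} (v : Valuation F Γ) (s : Finset ι) (x y : ι → F)
    (hxy : ∀ a ∈ s, v (x a) = v (y a))
    (hd : ∀ a ∈ s, ∀ b ∈ s, a ≠ b → x a ≠ 0 → v (x a) ≠ v (x b)) :
    v (∑ b ∈ s, x b) = v (∑ b ∈ s, y b) := by
  rcases s.eq_empty_or_nonempty with rfl | hs
  · simp
  have hd' : ∀ a ∈ s, ∀ b ∈ s, a ≠ b → y a ≠ 0 → v (y a) ≠ v (y b) := by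
    intro a ha b hb hab hya
    rw [← hxy a ha, ← hxy b hb]
    refine hd a ha b hb hab ?_
    rw [← map_ne_zero v, hxy a ha]
    exact (map_ne_zero v).2 hya
  obtain ⟨a0, ha0, hmax, he⟩ := Distinct_exists_max v s hs x hd
  obtain ⟨b0, hb0, hmax', he'⟩ := Distinct_exists_max v s hs y hd'
  rw [he, he']
  apply le_antisymm
  · rw [hxy a0 ha0]
    exact hmax' a0 ha0
  · rw [← hxy b0 hb0]
    exact hmax b0 hb0

/-- in particular such a sum vanishes only if all its terms do. -/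
theorem eq_zero_of_sum_eq_zero {ι : Type*} (v : Valuation F Γ) (s : Finset ι) (x : ι → F)
    (hd : ∀ a ∈ s, ∀ b ∈ s, a ≠ b → x a ≠ 0 → v (x a) ≠ v (x b))
    (h0 : ∑ b ∈ s, x b = 0) : ∀ a ∈ s, x a = 0 := by
  intro a ha
  have h1 := val_le_val_sum v s x hd a ha
  rw [h0, map_zero, le_zero_iff, map_eq_zero] at h1
  exact h1

end Fermat.Agent.S56.Flat.Ram
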