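/-
S56 / FLAT / RAM (architect helper18), leaf EXPAND (this file: helper267).

Expansions `∑_{i<n} a_i x^i`, `a_i ∈ K0 A`, `v x ^ n = v p`: the non zero terms have pairwise distinct
valuations, because `v a_i = v p ^ k_i = v x ^ (n k_i)` and `n k + i = n k' + i'` with `i, i' < n` forces
`i = i'`.
-/
import Fermat.Agent.S56.Flat.Ram.CDefs
import Fermat.Agent.S56.Flat.Ram.Distinct

set_option autoImplicit false

namespace Fermat.Agent.S56.Flat.Ram

open Fermat.Agent.Lib.InertiaField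

variable {A : ValuationSubring Qb} {p n : ℕ}

theorem Expand_val_p_lt (hA : A.LiesOverPrime p) : A.valuation (p : Qb) < 1 :=
  A.mem_nonunits_iff.mp hA

theorem Expand_val_p_pos (hp : p.Prime) : 0 < A.valuation (p : Qb) :=
  zero_lt_iff.2 ((Valuation.ne_zero_iff _).2 (Nat.cast_ne_zero.2 hp.ne_zero))

theorem Expand_val_pos (hp : p.Prime) (hn : 0 < n) {x : Qb}
    (hx : A.valuation x ^ n = A.valuation (p : Qb)) : 0 < A.valuation x := by
  rw [zero_lt_iff]
  intro h0
  have h1 := Expand_val_p_pos (A := A) hp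
  rw [← hx, h0, zero_pow hn.ne'] at h1
  exact lt_irrefl _ h1

theorem Expand_val_lt (hA : A.LiesOverPrime p) {x : Qb}
    (hx : A.valuation x ^ n = A.valuation (p : Qb)) : A.valuation x < 1 := by
  by_contra hcon
  have h1 : 1 ≤ A.valuation x := not_lt.1 hcon
  have h2 : 1 ≤ A.valuation x ^ n := one_le_pow₀ h1
  rw [hx] at h2
  exact absurd (Expand_val_p_lt hA) (not_lt.2 h2)

/-- the valuation of a non zero element of `K0 A` is an integral power of `v p`. -/
theorem Expand_val_K0 (hp : p.Prime) (hA : A.LiesOverPrime p) {a : Qb} (ha : a ∈ K0 A)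
    (h0 : a ≠ 0) : ∃ k : ℤ, A.valuation a = A.valuation (p : Qb) ^ k := by
  obtain ⟨k, u, _, hu, hu', rfl⟩ := exists_zpow_mul_unit A p hp hA ha h0
  refine ⟨k, ?_⟩
  have h1 : A.valuation u ≤ 1 := (A.valuation_le_one_iff u).2 hu
  have h2 : A.valuation u⁻¹ ≤ 1 := (A.valuation_le_one_iff _).2 hu'
  have hu0 : u ≠ 0 := right_ne_zero_of_mul h0
  have hv0 : 0 < A.valuation u := zero_lt_iff.2 ((Valuation.ne_zero_iff _).2 hu0)
  rw [map_inv₀, inv_le_one₀ hv0] at h2
  rw [map_mul, map_zpow₀, le_antisymm h1 h2, mul_one]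

/-- the valuation of a non zero term. -/
theorem Expand_val_term (hp : p.Prime) (hA : A.LiesOverPrime p) (hn : 0 < n) {x : Qb}
    (hx : A.valuation x ^ n = A.valuation (p : Qb)) {a : Qb} (ha : a ∈ K0 A) (h0 : a ≠ 0) (i : ℕ) :
    ∃ k : ℤ, A.valuation (a * x ^ i) = A.valuation x ^ ((n : ℤ) * k + i) := by
  obtain ⟨k, hk⟩ := Expand_val_K0 hp hA ha h0
  refine ⟨k, ?_⟩
  have hg : A.valuation x ≠ 0 := (Expand_val_pos hp hn hx).ne'
  rw [map_mul, map_pow, hk, ← hx, zpow_add₀ hg, zpow_mul, zpow_natCast, zpow_natCast]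

/-- injectivity of `m ↦ g ^ m`. -/
theorem Expand_zpow_inj (hp : p.Prime) (hA : A.LiesOverPrime p) (hn : 0 < n) {x : Qb}
    (hx : A.valuation x ^ n = A.valuation (p : Qb)) {m m' : ℤ}
    (h : A.valuation x ^ m = A.valuation x ^ m') : m = m' :=
  zpow_right_injective₀ (Expand_val_pos hp hn hx) (Expand_val_lt hA hx).ne h

theorem Expand_index_eq {i k : ℕ} (hi : i < n) (hk : k < n) {s t : ℤ}
    (h : (n : ℤ) * s + i = (n : ℤ) * t + k) : i = k := by
  have h1 : ((n : ℤ) * s + i) % n = ((n : ℤ) * t + k) % n := by rw [h]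
  rw [add_comm, Int.add_mul_emod_self_left, add_comm ((n : ℤ) * t), Int.add_mul_emod_self_left,
    Int.emod_eq_of_lt (by positivity) (by exact_mod_cast hi),
    Int.emod_eq_of_lt (by positivity) (by exact_mod_cast hk)] at h1
  exact_mod_cast h1

theorem expansion_distinct (hp : p.Prime) (hA : A.LiesOverPrime p) (hn : 0 < n) (x : Qb)
    (hx : A.valuation x ^ n = A.valuation (p : Qb)) (a : Fin n → Qb) (ha : ∀ i, a i ∈ K0 A) :
    ∀ i ∈ (Finset.univ : Finset (Fin n)), ∀ k ∈ (Finset.univ : Finset (Fin n)), i ≠ k →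
      a i * x ^ (i : ℕ) ≠ 0 → A.valuation (a i * x ^ (i : ℕ)) ≠ A.valuation (a k * x ^ (k : ℕ)) := by
  intro i _ k _ hik h0 heq
  have hk0 : a k * x ^ (k : ℕ) ≠ 0 := by
    rw [← map_ne_zero A.valuation, ← heq]
    exact (map_ne_zero A.valuation).2 h0
  obtain ⟨s, hs⟩ := Expand_val_term hp hA hn hx (ha i) (left_ne_zero_of_mul h0) (i : ℕ)
  obtain ⟨t, ht⟩ := Expand_val_term hp hA hn hx (ha k) (left_ne_zero_of_mul hk0) (k : ℕ)
  rw [hs, ht] at heq
  exact hik (Fin.ext (Expand_index_eq i.2 k.2 (Expand_zpow_inj hp hA hn hx heq)))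

theorem val_expansion_eq (hp : p.Prime) (hA : A.LiesOverPrime p) (hn : 0 < n) (π x : Qb)
    (hπ : A.valuation π ^ n = A.valuation (p : Qb)) (hx : A.valuation x = A.valuation π)
    (a : Fin n → Qb) (ha : ∀ i, a i ∈ K0 A) :
    A.valuation (∑ i, a i * x ^ (i : ℕ)) = A.valuation (∑ i, a i * π ^ (i : ℕ)) := by
  refine val_sum_eq_val_sum A.valuation Finset.univ _ _ (fun i _ => ?_)
    (expansion_distinct hp hA hn x (by rw [hx]; exact hπ) a ha)
  rw [map_mul, map_mul, map_pow, map_pow, hx]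

theorem expansion_unique (hp : p.Prime) (hA : A.LiesOverPrime p) (hn : 0 < n) (π : Qb)
    (hπ : A.valuation π ^ n = A.valuation (p : Qb)) (a b : Fin n → Qb) (ha : ∀ i, a i ∈ K0 A)
    (hb : ∀ i, b i ∈ K0 A) (hab : ∑ i, a i * π ^ (i : ℕ) = ∑ i, b i * π ^ (i : ℕ)) : a = b := by
  have hπ0 : π ≠ 0 := (map_ne_zero A.valuation).1 (Expand_val_pos hp hn hπ).ne'
  have hsum : ∑ i, (a i - b i) * π ^ (i : ℕ) = 0 := by
    simp only [sub_mul, Finset.sum_sub_distrib]
    rw [hab, sub_self]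
  have h := eq_zero_of_sum_eq_zero A.valuation Finset.univ _
    (expansion_distinct hp hA hn π hπ (fun i => a i - b i) (fun i => sub_mem (ha i) (hb i))) hsum
  funext i
  have hi := h i (Finset.mem_univ i)
  rcases mul_eq_zero.1 hi with h1 | h1
  · exact sub_eq_zero.1 h1
  · exact absurd h1 (pow_ne_zero _ hπ0)

/-- the maximal term of the Eisenstein relation is the constant one. -/
theorem EisData.Expand_max (hp : p.Prime) (hA : A.LiesOverPrime p) {π : Qb} {c : Fin n → Qb}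
    (h : EisData A p n π c) :
    (∀ i, A.valuation (c i * π ^ (i : ℕ)) ≤ A.valuation (p : Qb)) ∧
      A.valuation (c ⟨0, h.npos⟩) = A.valuation (p : Qb) := by
  have hn := h.npos
  have : Nonempty (Fin n) := ⟨⟨0, hn⟩⟩
  obtain ⟨i0, _, hmax, he⟩ := Distinct_exists_max A.valuation Finset.univ Finset.univ_nonempty _
    (expansion_distinct hp hA hn π h.val c (fun i => (h.cA0 i).1))
  rw [← h.rel, map_pow] at he
  have hg : A.valuation π ≠ 0 := (Expand_val_pos hp hn h.val).ne'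
  have h0 : c i0 * π ^ (i0 : ℕ) ≠ 0 := by
    rw [← map_ne_zero A.valuation, ← he]
    exact pow_ne_zero _ hg
  obtain ⟨s, hs⟩ := Expand_val_term hp hA hn h.val (h.cA0 i0).1 (left_ne_zero_of_mul h0) (i0 : ℕ)
  have h1 : A.valuation π ^ ((n : ℤ) * 1 + (0 : ℕ)) = A.valuation π ^ ((n : ℤ) * s + (i0 : ℕ)) := by
    rw [← hs, ← he, mul_one, Nat.cast_zero, add_zero, zpow_natCast]
  have h2 : 0 = (i0 : ℕ) := Expand_index_eq hn i0.2 (Expand_zpow_inj hp hA hn h.val h1)
  have h3 : i0 = ⟨0, hn⟩ := Fin.ext h2.symm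
  subst h3
  refine ⟨fun i => ?_, ?_⟩
  · rw [← h.val, he]
    exact hmax i (Finset.mem_univ i)
  · rw [← h.val, he]
    simp

theorem EisData.val_c_zero (hp : p.Prime) (hA : A.LiesOverPrime p) {π : Qb} {c : Fin n → Qb}
    (h : EisData A p n π c) : A.valuation (c ⟨0, h.npos⟩) = A.valuation (p : Qb) :=
  (h.Expand_max hp hA).2

theorem EisData.val_c_le (hp : p.Prime) (hA : A.LiesOverPrime p) {π : Qb} {c : Fin n → Qb}
    (h : EisData A p n π c) (i : Fin n) : A.valuation (c i) ≤ A.valuation (p : Qb) := by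
  have hn := h.npos
  have hgpos : 0 < A.valuation π := Expand_val_pos hp hn h.val
  have hglt : A.valuation π < 1 := Expand_val_lt hA h.val
  have hle := (h.Expand_max hp hA).1 i
  -- `v (c i) < 1`
  have hlt : A.valuation (c i) < 1 := by
    by_contra hcon
    have h1 : 1 ≤ A.valuation (c i) := not_lt.1 hcon
    rw [map_mul, map_pow, ← h.val] at hle
    have h2 : A.valuation π ^ (i : ℕ) ≤ A.valuation π ^ n :=
      le_trans (le_mul_of_one_le_left zero_le h1) hle
    exact absurd h2 (not_le.2 (pow_lt_pow_right_of_lt_one₀ hgpos hglt i.2))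
  have hmem : c i ∈ A.nonunits := A.mem_nonunits_iff.2 hlt
  have hdiv := Fermat.Agent.Lib.InertiaField.div_mem A p hp hA (h.cA0 i).1 hmem
  rw [← A.valuation_le_one_iff, map_div₀, div_le_one₀ (Expand_val_p_pos hp)] at hdiv
  exact hdiv

end Fermat.Agent.S56.Flat.Ram
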