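/-
S56 / FLAT / RAM (architect helper18), leaf TRANSPORT (Lib/InertiaField + EXPAND): linear properties of the transport map.
-/
import Fermat.Agent.S56.Flat.Ram.Expand

set_option autoImplicit false

namespace Fermat.Agent.S56.Flat.Ram

open Fermat.Agent.Lib.InertiaField

variable {A : ValuationSubring Qb} {p n : ℕ} {π : Qb}

private theorem Transport.inA0_add {a b : Qb} (ha : InA0 A a) (hb : InA0 A b) : InA0 A (a + b) :=
  ⟨add_mem ha.1 hb.1, add_mem ha.2 hb.2⟩

private theorem Transport.inA0_sub {a b : Qb} (ha : InA0 A a) (hb : InA0 A b) : InA0 A (a - b) :=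
  ⟨sub_mem ha.1 hb.1, sub_mem ha.2 hb.2⟩

private theorem Transport.inA0_mul {a b : Qb} (ha : InA0 A a) (hb : InA0 A b) : InA0 A (a * b) :=
  ⟨mul_mem ha.1 hb.1, mul_mem ha.2 hb.2⟩

private theorem Transport.inA0_one : InA0 A 1 := ⟨one_mem _, one_mem _⟩

private theorem Transport.inA0_zero : InA0 A 0 := ⟨zero_mem _, zero_mem _⟩

theorem transport_eq (hp : p.Prime) (hA : A.LiesOverPrime p) (hn : 0 < n)
    (hπ : A.valuation π ^ n = A.valuation (p : Qb)) (x : Qb) (a : Fin n → Qb)
    (ha : ∀ i, InA0 A (a i)) :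
    transport A n π x (∑ i, a i * π ^ (i : ℕ)) = ∑ i, a i * x ^ (i : ℕ) := by
  have h : InSpan A n π (∑ i, a i * π ^ (i : ℕ)) := ⟨a, ha, rfl⟩
  have h1 : h.choose = a :=
    expansion_unique hp hA hn π hπ _ _ (fun i => (h.choose_spec.1 i).1) (fun i => (ha i).1)
      h.choose_spec.2.symm
  unfold transport
  rw [dif_pos h, h1]

theorem InSpan.add {z z' : Qb} (hz : InSpan A n π z) (hz' : InSpan A n π z') :
    InSpan A n π (z + z') := by
  obtain ⟨a, ha, rfl⟩ := hz
  obtain ⟨b, hb, rfl⟩ := hz'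
  refine ⟨fun i => a i + b i, fun i => Transport.inA0_add (ha i) (hb i), ?_⟩
  rw [← Finset.sum_add_distrib]
  exact Finset.sum_congr rfl fun i _ => by ring

theorem InSpan.sub {z z' : Qb} (hz : InSpan A n π z) (hz' : InSpan A n π z') :
    InSpan A n π (z - z') := by
  obtain ⟨a, ha, rfl⟩ := hz
  obtain ⟨b, hb, rfl⟩ := hz'
  refine ⟨fun i => a i - b i, fun i => Transport.inA0_sub (ha i) (hb i), ?_⟩
  rw [← Finset.sum_sub_distrib]
  exact Finset.sum_congr rfl fun i _ => by ring

theorem InSpan.smul {a z : Qb} (ha : InA0 A a) (hz : InSpan A n π z) : InSpan A n π (a * z) := by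
  obtain ⟨b, hb, rfl⟩ := hz
  refine ⟨fun i => a * b i, fun i => Transport.inA0_mul ha (hb i), ?_⟩
  rw [Finset.mul_sum]
  exact Finset.sum_congr rfl fun i _ => by ring

private theorem Transport.sum_single (hn : 0 < n) (y : Qb) :
    ∑ i : Fin n, (if (i : ℕ) = 0 then (1 : Qb) else 0) * y ^ (i : ℕ) = 1 := by
  rw [Finset.sum_eq_single (⟨0, hn⟩ : Fin n)]
  · simp
  · intro b _ hb
    have : (b : ℕ) ≠ 0 := fun h => hb (Fin.ext h)
    simp [this]
  · intro h
    exact absurd (Finset.mem_univ _) h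

private theorem Transport.inA0_single (i : Fin n) :
    InA0 A (if (i : ℕ) = 0 then (1 : Qb) else 0) := by
  split_ifs
  · exact Transport.inA0_one
  · exact Transport.inA0_zero

theorem InSpan.one (hn : 0 < n) : InSpan A n π 1 :=
  ⟨fun i => if (i : ℕ) = 0 then 1 else 0, Transport.inA0_single, (Transport.sum_single hn π).symm⟩

theorem transport_add (hp : p.Prime) (hA : A.LiesOverPrime p) (hn : 0 < n)
    (hπ : A.valuation π ^ n = A.valuation (p : Qb)) (x : Qb) {z z' : Qb} (hz : InSpan A n π z)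
    (hz' : InSpan A n π z') :
    transport A n π x (z + z') = transport A n π x z + transport A n π x z' := by
  obtain ⟨a, ha, rfl⟩ := hz
  obtain ⟨b, hb, rfl⟩ := hz'
  have h1 : ∑ i, a i * π ^ (i : ℕ) + ∑ i, b i * π ^ (i : ℕ) = ∑ i, (a i + b i) * π ^ (i : ℕ) := by
    rw [← Finset.sum_add_distrib]
    exact Finset.sum_congr rfl fun i _ => by ring
  rw [h1, transport_eq hp hA hn hπ x _ fun i => Transport.inA0_add (ha i) (hb i),
    transport_eq hp hA hn hπ x a ha, transport_eq hp hA hn hπ x b hb, ← Finset.sum_add_distrib]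
  exact Finset.sum_congr rfl fun i _ => by ring

theorem transport_sub (hp : p.Prime) (hA : A.LiesOverPrime p) (hn : 0 < n)
    (hπ : A.valuation π ^ n = A.valuation (p : Qb)) (x : Qb) {z z' : Qb} (hz : InSpan A n π z)
    (hz' : InSpan A n π z') :
    transport A n π x (z - z') = transport A n π x z - transport A n π x z' := by
  obtain ⟨a, ha, rfl⟩ := hz
  obtain ⟨b, hb, rfl⟩ := hz'
  have h1 : ∑ i, a i * π ^ (i : ℕ) - ∑ i, b i * π ^ (i : ℕ) = ∑ i, (a i - b i) * π ^ (i : ℕ) := by
    rw [← Finset.sum_sub_distrib]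
    exact Finset.sum_congr rfl fun i _ => by ring
  rw [h1, transport_eq hp hA hn hπ x _ fun i => Transport.inA0_sub (ha i) (hb i),
    transport_eq hp hA hn hπ x a ha, transport_eq hp hA hn hπ x b hb, ← Finset.sum_sub_distrib]
  exact Finset.sum_congr rfl fun i _ => by ring

theorem transport_smul (hp : p.Prime) (hA : A.LiesOverPrime p) (hn : 0 < n)
    (hπ : A.valuation π ^ n = A.valuation (p : Qb)) (x : Qb) {a z : Qb} (ha : InA0 A a)
    (hz : InSpan A n π z) : transport A n π x (a * z) = a * transport A n π x z := by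
  obtain ⟨b, hb, rfl⟩ := hz
  have h1 : a * ∑ i, b i * π ^ (i : ℕ) = ∑ i, (a * b i) * π ^ (i : ℕ) := by
    rw [Finset.mul_sum]
    exact Finset.sum_congr rfl fun i _ => by ring
  rw [h1, transport_eq hp hA hn hπ x _ fun i => Transport.inA0_mul ha (hb i),
    transport_eq hp hA hn hπ x b hb, Finset.mul_sum]
  exact Finset.sum_congr rfl fun i _ => by ring

theorem transport_one (hp : p.Prime) (hA : A.LiesOverPrime p) (hn : 0 < n)
    (hπ : A.valuation π ^ n = A.valuation (p : Qb)) (x : Qb) : transport A n π x 1 = 1 := by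
  conv_lhs => rw [← Transport.sum_single hn π]
  rw [transport_eq hp hA hn hπ x _ Transport.inA0_single, Transport.sum_single hn x]

theorem transport_val (hp : p.Prime) (hA : A.LiesOverPrime p) (hn : 0 < n)
    (hπ : A.valuation π ^ n = A.valuation (p : Qb)) (x : Qb) (hx : A.valuation x = A.valuation π)
    {z : Qb} (hz : InSpan A n π z) : A.valuation (transport A n π x z) = A.valuation z := by
  obtain ⟨a, ha, rfl⟩ := hz
  rw [transport_eq hp hA hn hπ x a ha]
  exact val_expansion_eq hp hA hn π x hπ hx a fun i => (ha i).1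

theorem transport_mem (hp : p.Prime) (hA : A.LiesOverPrime p) (hn : 0 < n)
    (hπ : A.valuation π ^ n = A.valuation (p : Qb)) (x : Qb) (hx : A.valuation x = A.valuation π)
    {z : Qb} (hz : InSpan A n π z) : transport A n π x z ∈ A := by
  have hp1 : A.valuation (p : Qb) ≤ 1 := by
    rw [ValuationSubring.valuation_le_one_iff]
    exact natCast_mem A p
  have hπ1 : A.valuation π ≤ 1 := by
    by_contra hlt
    rw [not_le] at hlt
    have := one_lt_pow₀ hlt hn.ne'
    rw [hπ] at this
    exact absurd hp1 (not_le.mpr this)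
  have hxA : x ∈ A := by
    rw [← ValuationSubring.valuation_le_one_iff, hx]
    exact hπ1
  obtain ⟨a, ha, rfl⟩ := hz
  rw [transport_eq hp hA hn hπ x a ha]
  exact sum_mem fun i _ => mul_mem (ha i).2 (pow_mem hxA _)

theorem transport_fixed (hp : p.Prime) (hA : A.LiesOverPrime p) (hn : 0 < n)
    (hπ : A.valuation π ^ n = A.valuation (p : Qb)) (x : Qb) (σ : ↥(Iner A)) (hσ : σ.1 x = x)
    {z : Qb} (hz : InSpan A n π z) : σ.1 (transport A n π x z) = transport A n π x z := by
  obtain ⟨a, ha, rfl⟩ := hz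
  rw [transport_eq hp hA hn hπ x a ha, map_sum]
  refine Finset.sum_congr rfl fun i _ => ?_
  rw [map_mul, map_pow, hσ, (mem_K0_iff A (a i)).mp (ha i).1 σ.1 σ.2]

end Fermat.Agent.S56.Flat.Ram
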