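/-
S56 / FLAT / RAM (architect helper18), leaf TRANSPORTMUL (Lib/InertiaField + TRANSPORT): the transport map is multiplicative modulo `eis c x`.

Proof.  `R0 : Subring Qb := (K0 A).toSubring ⊓ A.toSubring` (`InA0 A a ↔ a ∈ R0`).  In `R0[X]`: `P0 := X ^ n - ∑ i, C ⟨c i, _⟩ * X ^ i` is monic of degree `n`,
`f := ∑ C a_i X^i`, `g := ∑ C b_i X^i`.  `f * g = r + P0 * q` with `r = (f * g) %ₘ P0` of degree `< n`, `q = (f * g) /ₘ P0`.
Evaluate with `Polynomial.eval₂ R0.subtype`: at `π`: `P0(π) = 0` by `h.rel`, so `z z' = r(π) = ∑_{i<n} r_i π^i`: this is `InSpan.mul`, and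
`transport (z z') = r(x)` by `transport_eq`;  at `x`: `transport z * transport z' = f(x) g(x) = r(x) + eis c x * q(x)`, and `q(x) ∈ A` because `x ∈ A`
(`v x = v π ≤ 1`) and the coefficients are in `A`.
-/
import Fermat.Agent.S56.Flat.Ram.Transport

set_option autoImplicit false

namespace Fermat.Agent.S56.Flat.Ram

open Fermat.Agent.Lib.InertiaField

/-- Division with remainder by the monic polynomial `X ^ n - ∑ c_i X^i`, with coefficients in a subring. -/
theorem exists_divMod_expansion {K : Type*} [CommRing K] [Nontrivial K] (R0 : Subring K) {n : ℕ}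
    (hn : 0 < n) (c a b : Fin n → K) (hc : ∀ i, c i ∈ R0) (ha : ∀ i, a i ∈ R0)
    (hb : ∀ i, b i ∈ R0) :
    ∃ (r : Fin n → K) (q : Polynomial R0), (∀ i, r i ∈ R0) ∧ ∀ y : K,
      (∑ i, a i * y ^ (i : ℕ)) * (∑ i, b i * y ^ (i : ℕ)) =
        ∑ i, r i * y ^ (i : ℕ) +
          (y ^ n - ∑ i, c i * y ^ (i : ℕ)) * Polynomial.eval₂ R0.subtype y q := by
  classical
  have key : ∀ (d : Fin n → K) (hd : ∀ i, d i ∈ R0) (y : K),
      Polynomial.eval₂ R0.subtype y
        (∑ i : Fin n, Polynomial.C (⟨d i, hd i⟩ : R0) * Polynomial.X ^ (i : ℕ)) =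
        ∑ i, d i * y ^ (i : ℕ) := by
    intro d hd y
    simp [Polynomial.eval₂_finsetSum]
  set C0 : Polynomial R0 :=
    ∑ i : Fin n, Polynomial.C (⟨c i, hc i⟩ : R0) * Polynomial.X ^ (i : ℕ) with hC0
  set f : Polynomial R0 :=
    ∑ i : Fin n, Polynomial.C (⟨a i, ha i⟩ : R0) * Polynomial.X ^ (i : ℕ) with hf
  set g : Polynomial R0 :=
    ∑ i : Fin n, Polynomial.C (⟨b i, hb i⟩ : R0) * Polynomial.X ^ (i : ℕ) with hg
  have hdeg : C0.degree < n := Polynomial.degree_sum_fin_lt _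
  have hmon : (Polynomial.X ^ n - C0).Monic := Polynomial.monic_X_pow_sub hdeg
  have hdegP : (Polynomial.X ^ n - C0).degree = (n : WithBot ℕ) := by
    rw [Polynomial.degree_sub_eq_left_of_degree_lt (by rwa [Polynomial.degree_X_pow]),
      Polynomial.degree_X_pow]
  have hr : ((f * g) %ₘ (Polynomial.X ^ n - C0)).degree < n := by
    have := Polynomial.degree_modByMonic_lt (f * g) hmon
    rwa [hdegP] at this
  have hrn : ((f * g) %ₘ (Polynomial.X ^ n - C0)).natDegree < n := by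
    by_cases h0 : (f * g) %ₘ (Polynomial.X ^ n - C0) = 0
    · rw [h0]; simpa using hn
    · exact (Polynomial.natDegree_lt_iff_degree_lt h0).2 hr
  refine ⟨fun i => (((f * g) %ₘ (Polynomial.X ^ n - C0)).coeff i : R0),
    (f * g) /ₘ (Polynomial.X ^ n - C0), fun i => Subtype.property _, fun y => ?_⟩
  have h1 := congrArg (Polynomial.eval₂ R0.subtype y)
    (Polynomial.modByMonic_add_div (f * g) (Polynomial.X ^ n - C0))
  rw [Polynomial.eval₂_add, Polynomial.eval₂_mul, Polynomial.eval₂_mul, Polynomial.eval₂_sub,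
    Polynomial.eval₂_pow, Polynomial.eval₂_X, hC0, hf, hg, key, key, key, ← hC0, ← hf, ← hg,
    Polynomial.eval₂_eq_sum_range' _ hrn, ← Fin.sum_univ_eq_sum_range
      (fun i => R0.subtype (((f * g) %ₘ (Polynomial.X ^ n - C0)).coeff i) * y ^ i)] at h1
  exact h1.symm

/-- The subring `A0 = K0 ∩ A`. -/
noncomputable def subringA0 (A : ValuationSubring Qb) : Subring Qb :=
  (K0 A).toSubring ⊓ A.toSubring

theorem mem_subringA0 {A : ValuationSubring Qb} {a : Qb} : a ∈ subringA0 A ↔ InA0 A a := Iff.rfl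

variable {A : ValuationSubring Qb} {p n : ℕ} {π : Qb} {c : Fin n → Qb}

theorem InSpan.mul (h : EisData A p n π c) {z z' : Qb} (hz : InSpan A n π z)
    (hz' : InSpan A n π z') : InSpan A n π (z * z') := by
  obtain ⟨a, ha, rfl⟩ := hz
  obtain ⟨b, hb, rfl⟩ := hz'
  obtain ⟨r, q, hr, hq⟩ := exists_divMod_expansion (subringA0 A) h.npos c a b h.cA0 ha hb
  refine ⟨r, hr, ?_⟩
  rw [hq π, h.rel, sub_self, zero_mul, add_zero]

theorem transport_mul (hp : p.Prime) (hA : A.LiesOverPrime p) (h : EisData A p n π c) (x : Qb)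
    (hx : A.valuation x = A.valuation π) {z z' : Qb} (hz : InSpan A n π z)
    (hz' : InSpan A n π z') :
    A.valuation (transport A n π x (z * z') - transport A n π x z * transport A n π x z') ≤
      A.valuation (eis c x) := by
  obtain ⟨a, ha, rfl⟩ := hz
  obtain ⟨b, hb, rfl⟩ := hz'
  obtain ⟨r, q, hr, hq⟩ := exists_divMod_expansion (subringA0 A) h.npos c a b h.cA0 ha hb
  have hπ : (∑ i, a i * π ^ (i : ℕ)) * (∑ i, b i * π ^ (i : ℕ)) = ∑ i, r i * π ^ (i : ℕ) := by
    rw [hq π, h.rel, sub_self, zero_mul, add_zero]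
  rw [hπ, transport_eq hp hA h.npos h.val x r hr, transport_eq hp hA h.npos h.val x a ha,
    transport_eq hp hA h.npos h.val x b hb, hq x, sub_add_cancel_left, Valuation.map_neg,
    Valuation.map_mul]
  have hπ1 : A.valuation π ≤ 1 := by
    by_contra hcon
    have h1 : 1 < A.valuation π := not_le.1 hcon
    have h2 : 1 < A.valuation π ^ n := one_lt_pow₀ h1 h.npos.ne'
    rw [h.val] at h2
    have h3 : (p : Qb) ∈ A := natCast_mem A p
    exact absurd ((A.valuation_le_one_iff _).2 h3) (not_le.2 h2)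
  have hxA : x ∈ A := (A.valuation_le_one_iff _).1 (hx ▸ hπ1)
  have hqA : Polynomial.eval₂ (subringA0 A).subtype x q ∈ A := by
    rw [Polynomial.eval₂_eq_sum_range]
    exact sum_mem fun i _ => mul_mem (q.coeff i).2.2 (pow_mem hxA i)
  exact mul_le_of_le_one_right' ((A.valuation_le_one_iff _).2 hqA)

end Fermat.Agent.S56.Flat.Ram
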