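/-
S56 / FLAT / RAM (architect helper18), node STAB = Fontaine's property (P_m) (uses F1: `Model.lift_point`, `Model.eq_of_cong`, and TRANSPORT(MUL)).

Let `T = transport A n π x`, `c' := eis c x / p`  (so `p * c' = eis c x`, and `Small A p c'` ⟺ `hsmall`).
1. For `w : W`, `φ_w f := T (f w)` satisfies the hypotheses of `M.lift_point`.  So `∃ w'`, `∀ f ∈ M.carrier, v (T (f w) - f w') ≤ v c'`.
   Choose `ψ : W → W`.
2. `ψ` is injective, hence surjective (`W` finite).
3. Let `σ x = x`, `w' = ψ w`: `M.Cong c' (σ • w') w'`, hence `σ • w' = w'`.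
-/
import Fermat.Agent.S56.Flat.Fon.LiftPoint
import Fermat.Agent.S56.Flat.Ram.TransportMul
import Fermat.Agent.S44.ES.Tame

set_option autoImplicit false

namespace Fermat.Agent.S56.Flat.Ram

open Fermat.Agent.Lib.InertiaField

variable {A : ValuationSubring Qb} {p n : ℕ} {π : Qb} {c : Fin n → Qb}
variable {W : Type} [AddCommGroup W] [DistribMulAction ↥(Iner A) W]

private theorem stab_small (hp : p.Prime) (e : Qb)
    (hsmall : A.valuation e ^ (p - 1) < A.valuation (p : Qb) ^ p) :
    Small A p (e / (p : Qb)) := by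
  have hp0 : (p : Qb) ≠ 0 := Nat.cast_ne_zero.mpr hp.ne_zero
  have hv0 : A.valuation (p : Qb) ≠ 0 := (Valuation.ne_zero_iff _).mpr hp0
  unfold Small
  rw [map_div₀, div_pow]
  have hpp : A.valuation (p : Qb) ^ p = A.valuation (p : Qb) * A.valuation (p : Qb) ^ (p - 1) := by
    rw [← pow_succ']
    congr 1
    have := hp.one_lt
    omega
  rw [hpp] at hsmall
  exact (div_lt_iff₀ (zero_lt_iff.mpr (pow_ne_zero _ hv0))).mpr hsmall

theorem actsTriv_of_fix (hp : p.Prime) (hA : A.LiesOverPrime p) [Finite W] (M : Model A W)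
    (hpW : ∀ w : W, p • w = 0) (h : EisData A p n π c)
    (hspan : ∀ f ∈ M.carrier, ∀ w, InSpan A n π (f w)) (x : Qb)
    (hx : A.valuation x = A.valuation π)
    (hsmall : A.valuation (eis c x) ^ (p - 1) < A.valuation (p : Qb) ^ p) :
    ∀ σ : ↥(Iner A), σ.1 x = x → ActsTriv W σ := by
  have hp0 : (p : Qb) ≠ 0 := Nat.cast_ne_zero.mpr hp.ne_zero
  have hc' : Small A p (eis c x / (p : Qb)) := stab_small hp _ hsmall
  have hpc : (p : Qb) * (eis c x / (p : Qb)) = eis c x := mul_div_cancel₀ _ hp0
  -- step 1
  have h1 : ∀ w : W, ∃ w' : W, ∀ f ∈ M.carrier,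
      A.valuation (transport A n π x (f w) - f w') ≤ A.valuation (eis c x / (p : Qb)) := by
    intro w
    refine M.lift_point hp hA hpW hc' (fun f => transport A n π x (f w)) ?_ ?_ ?_ ?_ ?_
    · intro f hf g hg
      exact transport_add hp hA h.npos h.val x (hspan f hf w) (hspan g hg w)
    · intro a ha f hf
      exact transport_smul hp hA h.npos h.val x ha (hspan f hf w)
    · intro f hf
      exact transport_mem hp hA h.npos h.val x hx (hspan f hf w)
    · have : transport A n π x ((1 : W → Qb) w) - 1 = 0 := by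
        rw [Pi.one_apply, transport_one hp hA h.npos h.val x, sub_self]
      show A.valuation (transport A n π x ((1 : W → Qb) w) - 1) ≤ _
      rw [this, map_zero]
      exact zero_le
    · intro f hf g hg
      rw [hpc]
      exact transport_mul hp hA h x hx (hspan f hf w) (hspan g hg w)
  choose ψ hψ using h1
  -- step 2
  have hinj : Function.Injective ψ := by
    intro w1 w2 h12
    refine M.eq_of_cong hp hA hpW hc' ?_
    intro f hf
    have e1 := hψ w1 f hf
    have e2 := hψ w2 f hf
    rw [h12] at e1
    have e3 : A.valuation (transport A n π x (f w1) - transport A n π x (f w2)) ≤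
        A.valuation (eis c x / (p : Qb)) := by
      have : transport A n π x (f w1) - transport A n π x (f w2) =
          (transport A n π x (f w1) - f (ψ w2)) - (transport A n π x (f w2) - f (ψ w2)) := by
        ring
      rw [this]
      exact (Valuation.map_sub _ _ _).trans (max_le e1 e2)
    rw [← transport_sub hp hA h.npos h.val x (hspan f hf w1) (hspan f hf w2),
      transport_val hp hA h.npos h.val x hx ((hspan f hf w1).sub (hspan f hf w2))] at e3
    exact e3
  have hsurj : Function.Surjective ψ := Finite.surjective_of_injective hinj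
  -- step 3
  intro σ hσ w'
  obtain ⟨w, rfl⟩ := hsurj w'
  refine M.eq_of_cong hp hA hpW hc' ?_
  intro f hf
  have e1 := hψ w f hf
  have e2 : A.valuation (σ.1 (transport A n π x (f w) - f (ψ w))) ≤
      A.valuation (eis c x / (p : Qb)) := by
    rw [S44.ES.val_apply_eq A σ.2]
    exact e1
  rw [map_sub, transport_fixed hp hA h.npos h.val x σ hσ (hspan f hf w), ← M.equiv f hf σ (ψ w)]
    at e2
  have : f (σ • ψ w) - f (ψ w) =
      (transport A n π x (f w) - f (ψ w)) - (transport A n π x (f w) - f (σ • ψ w)) := by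
    ring
  rw [this]
  exact (Valuation.map_sub _ _ _).trans (max_le e1 e2)

end Fermat.Agent.S56.Flat.Ram
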