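/-
S56 / FLAT / RAM (architect helper18): ASSEMBLY of `FlatLoc.kummer_level` (statement of Flat/WIP/Interface.lean with `InAdj` unfolded).
-/
import Fermat.Agent.S56.Flat.Ram.AbsMain
import Fermat.Agent.S56.Flat.Ram.Fon
import Fermat.Agent.S56.Flat.Ram.Stab
import Fermat.Agent.S56.Flat.Ram.Field
import Fermat.Agent.S56.Flat.Ram.Inst
import Fermat.Agent.S56.Flat.InAdj

set_option autoImplicit false

namespace Fermat.Agent.S56.Flat.Ram

open Fermat.Agent.Lib.InertiaField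
open scoped IntermediateField

variable {A : ValuationSubring Qb} {p : ℕ}
variable {W : Type} [AddCommGroup W] [DistribMulAction ↥(Iner A) W]

/-- (RAM) Fontaine's bound in Kummer form. -/
theorem kummer_level (hp : p.Prime) (hA : A.LiesOverPrime p)
    [Finite W] (hpW : ∀ w : W, p • w = 0) (h : FlatLoc A W)
    (e : ℕ) (he : ¬ p ∣ e) (hpe : (p - 1) ∣ e) (ϖ : Qb) (hϖ : ϖ ^ e = (p : Qb))
    (a α : Qb) (ha0 : a ≠ 0) (ha : ∀ σ : ↥(Iner A), σ.1 ϖ = ϖ → σ.1 a = a) (hα : α ^ p = a)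
    (hfixϖ : ∀ σ : ↥(Iner A), ActsTriv W σ → σ.1 ϖ = ϖ)
    (hfixα : ∀ σ : ↥(Iner A), ActsTriv W σ → σ.1 α = α) :
    ∃ b : Qb, b ≠ 0 ∧ (∀ σ : ↥(Iner A), σ.1 ϖ = ϖ → σ.1 b = b) ∧
      A.valuation (a * b ^ p - 1) ≤ A.valuation (p : Qb) := by
  obtain ⟨M⟩ := h
  haveI := fieldOf_finite M
  haveI := fieldOf_isGalois M
  have hT := totRam_valOn hp hA (fieldOf M)
  obtain ⟨π, hπ, hπn, hexp⟩ := exists_unif hp hA (fieldOf M)
  have hFon : FonBound (K0 A) (valOn A (fieldOf M)) p π := by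
    refine fonBound_of_stab hp hA (fieldOf M) hT π hπ hπn hexp ?_
    intro c x hc hx hsmall σ hσ
    refine (actsTriv_iff M σ).1 (actsTriv_of_fix hp hA M hpW hc ?_ x hx hsmall σ hσ)
    intro f hf w
    exact hexp ⟨f w, apply_mem_fieldOf M hf w⟩ (M.int f hf w)
  have hϖL : ϖ ∈ fieldOf M := mem_fieldOf_of_fixed M ϖ hfixϖ
  have hαL : α ∈ fieldOf M := mem_fieldOf_of_fixed M α hfixα
  have haL : a ∈ fieldOf M := hα ▸ pow_mem hαL p
  obtain ⟨b, hb0, hb, hv⟩ := abs_kummer_level hT hp π hπ hπn hFon e he hpe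
    (⟨ϖ, hϖL⟩ : fieldOf M) (by ext; simpa using hϖ) (⟨a, haL⟩ : fieldOf M) (⟨α, hαL⟩ : fieldOf M)
    (fun h0 => ha0 (congrArg Subtype.val h0))
    ((mem_adjoin_simple_iff (fieldOf M) _ _).2 ha) (by ext; simpa using hα)
  refine ⟨(b : Qb), fun h0 => hb0 (Subtype.ext h0), (mem_adjoin_simple_iff (fieldOf M) _ _).1 hb, ?_⟩
  simpa [valOn] using hv

end Fermat.Agent.S56.Flat.Ram

namespace Fermat.Agent.S56.Flat

open Fermat.Agent.Lib.InertiaField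

variable {A : ValuationSubring Qb} {p : ℕ}
variable {W : Type} [AddCommGroup W] [DistribMulAction ↥(Iner A) W]

/-- (RAM) Fontaine's bound in Kummer form: a Kummer generator over the tame field `K0(ϖ)`,
`ϖ ^ e = p`, of a subextension of `K0(W)` is congruent to `1` modulo `p` up to `p`-th powers. -/
theorem FlatLoc.kummer_level (hp : p.Prime) (hp2 : p ≠ 2) (hA : A.LiesOverPrime p)
    [Finite W] (hpW : ∀ w : W, p • w = 0) (h : FlatLoc A W)
    (e : ℕ) (he : ¬ p ∣ e) (hpe : (p - 1) ∣ e) (ϖ : Qb) (hϖ : ϖ ^ e = (p : Qb))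
    (a α : Qb) (ha0 : a ≠ 0) (ha : InAdj A ϖ a) (hα : α ^ p = a)
    (hfixϖ : ∀ σ : ↥(Iner A), ActsTriv W σ → σ.1 ϖ = ϖ)
    (hfixα : ∀ σ : ↥(Iner A), ActsTriv W σ → σ.1 α = α) :
    ∃ b : Qb, b ≠ 0 ∧ InAdj A ϖ b ∧ A.valuation (a * b ^ p - 1) ≤ A.valuation (p : Qb) :=
  Ram.kummer_level hp hA hpW h e he hpe ϖ hϖ a α ha0 ha hα hfixϖ hfixα

end Fermat.Agent.S56.Flat
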