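/-
S56 / FLAT / RAM (architect helper18), leaf COMB (task RAM-COMB, helper250).

`∑_{h ∈ H} i(τ h) ≤ ∑_{h ∈ H, h ≠ 1} i(h) + i_max`   for `τ ∉ H`.

Proof.  Let `h0 ∈ H` maximise `i(τ h)`.  For `h ≠ h0`:  `h0⁻¹ h = (τ h0)⁻¹ (τ h)`, so by `min_le_ii`
`i(h0⁻¹ h) ≥ min (i(τ h0), i(τ h)) = i(τ h)`.  Reindex `h ↦ h0⁻¹ h` (a bijection `H \ {h0} → H \ {1}`),
and `i(τ h0) ≤ i(s1)` by `hmax` (`ordOf_le_ordOf_iff`).  Recall `ii v π 1 = 0`.
-/
import Fermat.Agent.S56.Flat.Ram.Ord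

set_option autoImplicit false

namespace Fermat.Agent.S56.Flat.Ram

variable {F : Type*} [Field F] {Γ : Type*} [LinearOrderedCommGroupWithZero Γ]
variable {G : Type*} [Group G] [Fintype G] [MulSemiringAction G F]

theorem coset_sum_le (v : Valuation F Γ) (π : F) (hπ : IsUnif v π)
    (hinv : ∀ (s : G) (x : F), v (s • x) = v x) (hgen : ∀ s : G, s ≠ 1 → s • π ≠ π)
    (s1 : G) (hs1 : s1 ≠ 1) (hmax : ∀ s : G, s ≠ 1 → v (s1 • π - π) ≤ v (s • π - π))
    (H : Subgroup G) [Fintype H] (τ : G) (hτ : τ ∉ H) :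
    ∑ h : H, ii v π (τ * (h : G)) ≤ (∑ h : H, ii v π (h : G)) + ii v π s1 := by
  classical
  set f : H → ℤ := fun h => ii v π (τ * (h : G)) with hf
  set g : H → ℤ := fun h => ii v π (h : G) with hg
  obtain ⟨h0, -, hh0⟩ := Finset.exists_max_image (Finset.univ : Finset H) f ⟨1, Finset.mem_univ _⟩
  have hne1 : ∀ h : H, τ * (h : G) ≠ 1 := by
    intro h he
    apply hτ
    have e : τ = (h : G)⁻¹ := eq_inv_of_mul_eq_one_left he
    rw [e]
    exact H.inv_mem h.2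
  have h1 : f h0 ≤ ii v π s1 := by
    have hx : (τ * (h0 : G)) • π - π ≠ 0 := sub_ne_zero.2 (hgen _ (hne1 h0))
    have hy : s1 • π - π ≠ 0 := sub_ne_zero.2 (hgen _ hs1)
    exact (hπ.ordOf_le_ordOf_iff hx hy).2 (hmax _ (hne1 h0))
  have h2 : ∀ h ∈ (Finset.univ : Finset H).erase h0, f h ≤ g (h0⁻¹ * h) := by
    intro h hh
    have hne : h ≠ h0 := Finset.ne_of_mem_erase hh
    have hab : τ * (h0 : G) ≠ τ * (h : G) := by
      intro he
      exact hne (Subtype.ext (mul_left_cancel he)).symm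
    have key := hπ.min_le_ii hinv hgen (hne1 h0) (hne1 h) hab
    have e : (τ * (h0 : G))⁻¹ * (τ * (h : G)) = ((h0⁻¹ * h : H) : G) := by
      push_cast
      group
    rw [e] at key
    have hmin : min (ii v π (τ * (h0 : G))) (ii v π (τ * (h : G))) = f h :=
      min_eq_right (hh0 h (Finset.mem_univ _))
    rw [hmin] at key
    exact key
  have h3 : ∑ h ∈ (Finset.univ : Finset H).erase h0, g (h0⁻¹ * h) = ∑ h : H, g h := by
    have e1 : ∑ h : H, g (h0⁻¹ * h) = ∑ h : H, g h :=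
      Fintype.sum_equiv (Equiv.mulLeft h0⁻¹) _ _ (fun _ => rfl)
    rw [← e1, ← Finset.add_sum_erase _ _ (Finset.mem_univ h0)]
    have e2 : g (h0⁻¹ * h0) = 0 := by
      rw [inv_mul_cancel]
      exact hπ.ii_one
    rw [e2, zero_add]
  calc ∑ h : H, f h = f h0 + ∑ h ∈ (Finset.univ : Finset H).erase h0, f h :=
        (Finset.add_sum_erase _ _ (Finset.mem_univ h0)).symm
    _ ≤ ii v π s1 + ∑ h ∈ (Finset.univ : Finset H).erase h0, g (h0⁻¹ * h) :=
        add_le_add h1 (Finset.sum_le_sum h2)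
    _ = (∑ h : H, g h) + ii v π s1 := by rw [h3, add_comm]

end Fermat.Agent.S56.Flat.Ram
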