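/-
S56 / FLAT / RAM (architect helper18; proofs helper82), leaf ORD: the API of `ordOf` (Mathlib only).
Everything follows from: `0 < v π < 1`, so `k ↦ v π ^ k` is strictly anti-monotone on `ℤ`.
-/
import Fermat.Agent.S56.Flat.Ram.Defs

set_option autoImplicit false

namespace Fermat.Agent.S56.Flat.Ram

variable {F : Type*} [Field F] {Γ : Type*} [LinearOrderedCommGroupWithZero Γ]
variable {v : Valuation F Γ} {π : F}

theorem IsUnif.val_pos (h : IsUnif v π) : 0 < v π :=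
  zero_lt_iff.2 ((v.ne_zero_iff).2 h.ne_zero)

theorem IsUnif.zpow_le_zpow (h : IsUnif v π) {a b : ℤ} : v π ^ a ≤ v π ^ b ↔ b ≤ a :=
  zpow_le_zpow_iff_right_of_lt_one₀ h.val_pos h.lt_one

theorem IsUnif.zpow_lt_zpow (h : IsUnif v π) {a b : ℤ} : v π ^ a < v π ^ b ↔ b < a :=
  zpow_lt_zpow_iff_right_of_lt_one₀ h.val_pos h.lt_one

theorem IsUnif.zpow_inj (h : IsUnif v π) {a b : ℤ} : v π ^ a = v π ^ b ↔ a = b := by
  constructor
  · intro hab
    exact le_antisymm (h.zpow_le_zpow.1 hab.ge) (h.zpow_le_zpow.1 hab.le)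
  · rintro rfl
    rfl

theorem IsUnif.val_eq (h : IsUnif v π) {x : F} (hx : x ≠ 0) : v x = v π ^ ordOf v π x := by
  rw [ordOf, dif_pos (h.disc x hx)]
  exact (h.disc x hx).choose_spec

theorem IsUnif.ordOf_eq (h : IsUnif v π) {x : F} {k : ℤ} (hk : v x = v π ^ k) :
    ordOf v π x = k := by
  have hex : ∃ k : ℤ, v x = v π ^ k := ⟨k, hk⟩
  rw [ordOf, dif_pos hex]
  exact h.zpow_inj.1 (hex.choose_spec.symm.trans hk)

open Classical in
theorem ordOf_congr {x y : F} (hxy : v x = v y) : ordOf v π x = ordOf v π y := by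
  have key : ∀ γ γ' : Γ, γ = γ' →
      (if h : ∃ k : ℤ, γ = v π ^ k then h.choose else 0) =
        (if h : ∃ k : ℤ, γ' = v π ^ k then h.choose else 0) := by
    rintro γ _ rfl
    rfl
  exact key _ _ hxy

theorem IsUnif.ordOf_zero (h : IsUnif v π) : ordOf v π 0 = 0 := by
  rw [ordOf, dif_neg]
  rintro ⟨k, hk⟩
  rw [map_zero] at hk
  exact (zpow_ne_zero k h.val_pos.ne') hk.symm

theorem IsUnif.ordOf_one (h : IsUnif v π) : ordOf v π 1 = 0 :=
  h.ordOf_eq (by rw [map_one, zpow_zero])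

theorem IsUnif.ordOf_self (h : IsUnif v π) : ordOf v π π = 1 :=
  h.ordOf_eq (by rw [zpow_one])

theorem ordOf_neg (x : F) : ordOf v π (-x) = ordOf v π x :=
  ordOf_congr (v.map_neg x)

theorem ordOf_sub_comm (x y : F) : ordOf v π (x - y) = ordOf v π (y - x) :=
  ordOf_congr (v.map_sub_swap x y)

theorem IsUnif.ordOf_mul (h : IsUnif v π) {x y : F} (hx : x ≠ 0) (hy : y ≠ 0) :
    ordOf v π (x * y) = ordOf v π x + ordOf v π y :=
  h.ordOf_eq (by rw [map_mul, h.val_eq hx, h.val_eq hy, zpow_add₀ h.val_pos.ne'])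

theorem IsUnif.ordOf_pow (h : IsUnif v π) {x : F} (hx : x ≠ 0) (k : ℕ) :
    ordOf v π (x ^ k) = k * ordOf v π x :=
  h.ordOf_eq (by rw [map_pow, h.val_eq hx, ← zpow_natCast, ← zpow_mul, mul_comm])

theorem IsUnif.ordOf_prod (h : IsUnif v π) {ι : Type*} (s : Finset ι) (f : ι → F)
    (hf : ∀ i ∈ s, f i ≠ 0) : ordOf v π (∏ i ∈ s, f i) = ∑ i ∈ s, ordOf v π (f i) := by
  classical
  induction s using Finset.induction_on with
  | empty => rw [Finset.prod_empty, Finset.sum_empty, h.ordOf_one]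
  | insert a s ha ih =>
    rw [Finset.prod_insert ha, Finset.sum_insert ha,
      h.ordOf_mul (hf a (Finset.mem_insert_self a s))
        (Finset.prod_ne_zero_iff.2 fun i hi => hf i (Finset.mem_insert_of_mem hi)),
      ih fun i hi => hf i (Finset.mem_insert_of_mem hi)]

theorem IsUnif.le_ordOf_iff (h : IsUnif v π) {x : F} (hx : x ≠ 0) {k : ℤ} :
    k ≤ ordOf v π x ↔ v x ≤ v π ^ k := by
  rw [h.val_eq hx, h.zpow_le_zpow]

theorem IsUnif.ordOf_le_ordOf_iff (h : IsUnif v π) {x y : F} (hx : x ≠ 0) (hy : y ≠ 0) :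
    ordOf v π x ≤ ordOf v π y ↔ v y ≤ v x := by
  rw [h.val_eq hx, h.val_eq hy, h.zpow_le_zpow]

theorem IsUnif.min_le_ordOf_add (h : IsUnif v π) {x y : F} (hx : x ≠ 0) (hy : y ≠ 0)
    (hxy : x + y ≠ 0) : min (ordOf v π x) (ordOf v π y) ≤ ordOf v π (x + y) := by
  rw [h.le_ordOf_iff hxy]
  refine (v.map_add x y).trans (max_le ?_ ?_)
  · rw [← h.le_ordOf_iff hx]
    exact min_le_left _ _
  · rw [← h.le_ordOf_iff hy]
    exact min_le_right _ _

theorem IsUnif.ordOf_add_eq_min (h : IsUnif v π) {x y : F} (hx : x ≠ 0) (hy : y ≠ 0)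
    (hne : ordOf v π x ≠ ordOf v π y) :
    x + y ≠ 0 ∧ ordOf v π (x + y) = min (ordOf v π x) (ordOf v π y) := by
  have hv : v x ≠ v y := by
    rw [h.val_eq hx, h.val_eq hy]
    exact fun e => hne (h.zpow_inj.1 e)
  have hmax := v.map_add_of_distinct_val hv
  have h0 : x + y ≠ 0 := by
    intro e
    rw [e, map_zero] at hmax
    have h1 : v x ≤ 0 := hmax ▸ le_max_left _ _
    exact (v.ne_zero_iff.2 hx) (le_antisymm h1 zero_le)
  refine ⟨h0, h.ordOf_eq ?_⟩
  rw [hmax, h.val_eq hx, h.val_eq hy]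
  rcases le_total (ordOf v π x) (ordOf v π y) with hle | hle
  · rw [min_eq_left hle, max_eq_left (h.zpow_le_zpow.2 hle)]
  · rw [min_eq_right hle, max_eq_right (h.zpow_le_zpow.2 hle)]

/-- discreteness: strictly smaller than `v π ^ k` means at most `v π ^ (k + 1)`. -/
theorem IsUnif.le_zpow_succ_of_lt (h : IsUnif v π) {x : F} {k : ℤ} (hx : v x < v π ^ k) :
    v x ≤ v π ^ (k + 1) := by
  by_cases hx0 : x = 0
  · rw [hx0, map_zero]
    exact zero_le
  · rw [h.val_eq hx0] at hx ⊢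
    rw [h.zpow_lt_zpow] at hx
    rw [h.zpow_le_zpow]
    omega

section action

variable {G : Type*} [Group G] [MulSemiringAction G F]

theorem IsUnif.ii_one (h : IsUnif v π) : ii v π (1 : G) = 0 := by
  rw [ii, one_smul, sub_self, h.ordOf_zero]

theorem IsUnif.val_smul_sub (h : IsUnif v π) {s : G} (hs : s • π ≠ π) :
    v (s • π - π) = v π ^ ii v π s :=
  h.val_eq (sub_ne_zero.2 hs)

/-- `i(s) ≥ 1`. -/
theorem IsUnif.one_le_ii (h : IsUnif v π) (hinv : ∀ (s : G) (x : F), v (s • x) = v x) {s : G}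
    (hs : s • π ≠ π) : 1 ≤ ii v π s := by
  rw [ii, h.le_ordOf_iff (sub_ne_zero.2 hs), zpow_one]
  refine (v.map_sub _ _).trans (max_le ?_ le_rfl)
  rw [hinv]

/-- `ord (a π - b π) = i(a⁻¹ b)`. -/
theorem ordOf_smul_sub_smul (hinv : ∀ (s : G) (x : F), v (s • x) = v x) (a b : G) :
    ordOf v π (a • π - b • π) = ii v π (a⁻¹ * b) := by
  rw [ii, ordOf_sub_comm]
  refine ordOf_congr ?_
  have e : b • π - a • π = a • ((a⁻¹ * b) • π - π) := by
    rw [smul_sub, smul_smul, mul_inv_cancel_left]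
  rw [e, hinv]

/-- `i(a⁻¹ b) ≥ min (i(a), i(b))`. -/
theorem IsUnif.min_le_ii (h : IsUnif v π) (hinv : ∀ (s : G) (x : F), v (s • x) = v x)
    (hgen : ∀ s : G, s ≠ 1 → s • π ≠ π) {a b : G} (ha : a ≠ 1) (hb : b ≠ 1) (hab : a ≠ b) :
    min (ii v π a) (ii v π b) ≤ ii v π (a⁻¹ * b) := by
  rw [← ordOf_smul_sub_smul hinv a b]
  have hx : a • π - π ≠ 0 := sub_ne_zero.2 (hgen a ha)
  have hy : π - b • π ≠ 0 := sub_ne_zero.2 (hgen b hb).symm
  have e : a • π - b • π = (a • π - π) + (π - b • π) := by ring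
  have hxy : (a • π - π) + (π - b • π) ≠ 0 := by
    rw [← e, sub_ne_zero]
    intro hcon
    have h1 : (a⁻¹ * b) • π = π := by
      rw [mul_smul, ← hcon, inv_smul_smul]
    refine hgen (a⁻¹ * b) ?_ h1
    intro h2
    exact hab (inv_mul_eq_one.1 h2)
  have h3 := h.min_le_ordOf_add hx hy hxy
  rw [ordOf_sub_comm π (b • π), ← e] at h3
  exact h3

end action

end Fermat.Agent.S56.Flat.Ram
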