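/-
S56 / FLAT / RAM (architect helper18), leaf COSET (Mathlib only + ORD API).
The easy half of Herbrand's theorem (Serre, Local Fields IV §1 Prop. 3).

`g := ∏_{h : H} (X - C (h • π))` has `H`-fixed integral coefficients `c_k`, `g.eval π = 0`, and
`∏_h (π - (τ h) π) = (τ g)(π) - g(π) = ∑_k (τ c_k - c_k) π ^ k`.
-/
import Fermat.Agent.S56.Flat.Ram.Ord

set_option autoImplicit false
set_option linter.unusedSectionVars false

namespace Fermat.Agent.S56.Flat.Ram

open Polynomial

variable {F : Type*} [Field F] {Γ : Type*} [LinearOrderedCommGroupWithZero Γ]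
variable {G : Type*} [Group G] [Fintype G] [MulSemiringAction G F]

/-- a product of `X - C r`, `r` in a subring, has its coefficients in the subring. -/
private theorem Coset_coeff_prod_mem {R ι : Type*} [CommRing R] (B : Subring R) (s : Finset ι)
    (r : ι → R) (hr : ∀ i ∈ s, r i ∈ B) (n : ℕ) : (∏ i ∈ s, (X - C (r i))).coeff n ∈ B := by
  have h1 : (∏ i ∈ s, (X - C (r i))) ∈ Polynomial.liftsRing B.subtype := by
    refine Subring.prod_mem _ fun i hi => ?_
    refine Subring.sub_mem _ ?_ ?_
    · rw [← Polynomial.lifts_iff_liftsRing]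
      exact Polynomial.X_mem_lifts _
    · rw [← Polynomial.lifts_iff_liftsRing]
      exact Polynomial.C_mem_lifts B.subtype ⟨r i, hr i hi⟩
  rw [← Polynomial.lifts_iff_liftsRing, Polynomial.lifts_iff_coeff_lifts] at h1
  obtain ⟨b, hb⟩ := h1 n
  rw [← hb]
  exact b.2

theorem coset_sum_ge (v : Valuation F Γ) (π : F) (hπ : IsUnif v π)
    (hinv : ∀ (s : G) (x : F), v (s • x) = v x) (hgen : ∀ s : G, s ≠ 1 → s • π ≠ π)
    (H : Subgroup G) [Fintype H] (τ : G) (hτ : τ ∉ H) (B : ℤ)
    (hB : ∀ c : F, (∀ h ∈ H, h • c = c) → v c ≤ 1 → v (τ • c - c) ≤ v π ^ B) :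
    B ≤ ∑ h : H, ii v π (τ * (h : G)) := by
  classical
  set g : F[X] := ∏ h : H, (X - C ((h : G) • π)) with hg
  have hmap : ∀ s : G, g.map (MulSemiringAction.toRingHom G F s) =
      ∏ h : H, (X - C ((s * (h : G)) • π)) := by
    intro s
    rw [hg, Polynomial.map_prod]
    refine Finset.prod_congr rfl fun h _ => ?_
    rw [Polynomial.map_sub, Polynomial.map_X, Polynomial.map_C, MulSemiringAction.toRingHom_apply,
      mul_smul]
  -- the coefficients are fixed by `H`
  have hfix : ∀ (k : ℕ), ∀ h' ∈ H, h' • g.coeff k = g.coeff k := by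
    intro k h' hh'
    have h1 : g.map (MulSemiringAction.toRingHom G F h') = g := by
      rw [hmap, hg]
      exact Fintype.prod_equiv (Equiv.mulLeft (⟨h', hh'⟩ : H)) _ _ fun h => rfl
    conv_rhs => rw [← h1]
    rw [Polynomial.coeff_map, MulSemiringAction.toRingHom_apply]
  -- the coefficients are integral
  have hint : ∀ k : ℕ, v (g.coeff k) ≤ 1 := by
    intro k
    have := Coset_coeff_prod_mem v.integer Finset.univ (fun h : H => (h : G) • π)
      (fun h _ => by
        rw [Valuation.mem_integer_iff, hinv]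
        exact hπ.lt_one.le) k
    exact (Valuation.mem_integer_iff _ _).1 this
  -- evaluation at `π`
  have hev0 : g.eval π = 0 := by
    rw [hg, Polynomial.eval_prod]
    refine Finset.prod_eq_zero (Finset.mem_univ (1 : H)) ?_
    simp
  have hev1 : (g.map (MulSemiringAction.toRingHom G F τ)).eval π =
      ∏ h : H, (π - (τ * (h : G)) • π) := by
    rw [hmap, Polynomial.eval_prod]
    refine Finset.prod_congr rfl fun h _ => ?_
    simp
  have hsum : ∏ h : H, (π - (τ * (h : G)) • π) =
      ∑ k ∈ Finset.range (g.natDegree + 1), (τ • g.coeff k - g.coeff k) * π ^ k := by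
    rw [← hev1, ← sub_zero ((g.map (MulSemiringAction.toRingHom G F τ)).eval π), ← hev0,
      Polynomial.eval_eq_sum_range, Polynomial.eval_eq_sum_range, Polynomial.natDegree_map,
      ← Finset.sum_sub_distrib]
    refine Finset.sum_congr rfl fun k _ => ?_
    rw [Polynomial.coeff_map, MulSemiringAction.toRingHom_apply, sub_mul]
  have hval : v (∏ h : H, (π - (τ * (h : G)) • π)) ≤ v π ^ B := by
    rw [hsum]
    refine Valuation.map_sum_le v fun k _ => ?_
    rw [map_mul, map_pow]
    calc v (τ • g.coeff k - g.coeff k) * v π ^ k ≤ v π ^ B * 1 :=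
          mul_le_mul' (hB _ (hfix k) (hint k)) (pow_le_one' hπ.lt_one.le k)
      _ = v π ^ B := mul_one _
  have hne : ∀ h ∈ (Finset.univ : Finset H), π - (τ * (h : G)) • π ≠ 0 := by
    intro h _ h0
    refine hgen (τ * (h : G)) (fun h1 => hτ ?_) (sub_eq_zero.1 h0).symm
    rw [eq_inv_of_mul_eq_one_left h1]
    exact H.inv_mem h.2
  have hprod : ∏ h : H, (π - (τ * (h : G)) • π) ≠ 0 := Finset.prod_ne_zero_iff.2 hne
  have h1 := (hπ.le_ordOf_iff hprod).2 hval
  rw [hπ.ordOf_prod _ _ hne] at h1
  refine h1.trans (le_of_eq (Finset.sum_congr rfl fun h _ => ?_))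
  rw [ordOf_sub_comm]
  rfl

end Fermat.Agent.S56.Flat.Ram
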