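/-
S56 / FLAT / RAM (architect helper18), leaf FIELDM (Mathlib only + FIELDK).

Structure of `M = F0(ϖ, y)`, `y` a root of a monic polynomial `q` of degree `p` over `K = F0(ϖ)`, with
`v y ^ p = v ϖ ^ j`, `p ∤ j`.
-/
import Fermat.Agent.S56.Flat.Ram.FieldK

set_option autoImplicit false

namespace Fermat.Agent.S56.Flat.Ram

open scoped IntermediateField

variable {F0 F : Type*} [Field F0] [Field F] [Algebra F0 F] [FiniteDimensional F0 F]
variable {Γ : Type*} [LinearOrderedCommGroupWithZero Γ] {v : Valuation F Γ} {p : ℕ}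

theorem exists_expansion (ϖ y : F) (q : Polynomial F0⟮ϖ⟯) (hq : q.Monic) (hqd : q.natDegree = p)
    (hqy : Polynomial.aeval y q = 0) (c : F) (hc : c ∈ IntermediateField.adjoin F0 {ϖ, y}) :
    ∃ c' : ℕ → F, (∀ k, c' k ∈ F0⟮ϖ⟯) ∧ c = ∑ k ∈ Finset.range p, c' k * y ^ k := by
  have hint : IsIntegral F0⟮ϖ⟯ y := ⟨q, hq, hqy⟩
  have hle : IntermediateField.adjoin F0 {ϖ, y} ≤ (F0⟮ϖ⟯⟮y⟯).restrictScalars F0 := by
    rw [IntermediateField.adjoin_le_iff]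
    intro x hx
    rcases hx with hx | hx
    · rw [hx]
      show ϖ ∈ F0⟮ϖ⟯⟮y⟯
      exact (F0⟮ϖ⟯⟮y⟯).algebraMap_mem ⟨ϖ, IntermediateField.mem_adjoin_simple_self F0 ϖ⟩
    · rw [Set.mem_singleton_iff.1 hx]
      show y ∈ F0⟮ϖ⟯⟮y⟯
      exact IntermediateField.mem_adjoin_simple_self F0⟮ϖ⟯ y
  have hc2 : c ∈ (F0⟮ϖ⟯⟮y⟯).toSubalgebra := hle hc
  rw [IntermediateField.adjoin_simple_toSubalgebra_of_isAlgebraic hint.isAlgebraic,
    Algebra.adjoin_singleton_eq_range_aeval] at hc2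
  obtain ⟨f, rfl⟩ := hc2
  have hq1 : q ≠ 1 := by
    intro h
    rw [h, map_one] at hqy
    exact one_ne_zero hqy
  have hdeg : (f %ₘ q).natDegree < p := by
    rw [← hqd]
    exact Polynomial.natDegree_modByMonic_lt f hq hq1
  have hval : Polynomial.aeval y f = Polynomial.aeval y (f %ₘ q) := by
    conv_lhs => rw [← Polynomial.modByMonic_add_div f q]
    rw [map_add, map_mul, hqy, zero_mul, add_zero]
  refine ⟨fun k => (((f %ₘ q).coeff k : F0⟮ϖ⟯) : F), fun k => ((f %ₘ q).coeff k).2, ?_⟩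
  show Polynomial.aeval y f = _
  rw [hval, Polynomial.aeval_eq_sum_range' hdeg]
  rfl

theorem TotRam.finrank_adjoin_pair (hT : TotRam F0 v p) (hp : p.Prime) (e : ℕ) (he : ¬ p ∣ e) (ϖ : F)
    (hϖ : ϖ ^ e = (p : F)) (y : F) (q : Polynomial F0⟮ϖ⟯) (hq : q.Monic) (hqd : q.natDegree = p)
    (hqy : Polynomial.aeval y q = 0) (j : ℤ) (hj : ¬ (p : ℤ) ∣ j) (hy : v y ^ p = v ϖ ^ j) :
    Module.finrank F0 (IntermediateField.adjoin F0 {ϖ, y}) = e * p := by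
  have hint : IsIntegral F0⟮ϖ⟯ y := ⟨q, hq, hqy⟩
  have he0 : 0 < e := Nat.pos_of_ne_zero (fun h => he (h ▸ dvd_zero p))
  have hK : Module.finrank F0 F0⟮ϖ⟯ = e := hT.finrank_adjoin_root e he0 ϖ hϖ
  obtain ⟨d, hd⟩ : ∃ d, d = Module.finrank F0⟮ϖ⟯ F0⟮ϖ⟯⟮y⟯ := ⟨_, rfl⟩
  have hM : Module.finrank F0 (IntermediateField.adjoin F0 {ϖ, y}) = e * d := by
    rw [← IntermediateField.adjoin_simple_adjoin_simple, ← hK, hd]
    exact (Module.finrank_mul_finrank F0 F0⟮ϖ⟯ F0⟮ϖ⟯⟮y⟯).symm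
  have hdle : d ≤ p := by
    rw [hd, IntermediateField.adjoin.finrank hint, ← hqd]
    exact Polynomial.natDegree_le_of_dvd (minpoly.dvd _ y hqy) hq.ne_zero
  have hdpos : 0 < d := by
    rw [hd, IntermediateField.adjoin.finrank hint]
    exact minpoly.natDegree_pos hint
  -- the valuation argument
  obtain ⟨πM, -, hπn, hπ⟩ := hT.unif (IntermediateField.adjoin F0 {ϖ, y})
  rw [hM] at hπn
  have hvp0 : v (p : F) ≠ 0 := (Valuation.ne_zero_iff v).2 hT.p_ne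
  have ha0 : v πM ≠ 0 := by
    intro h
    rw [h, zero_pow (Nat.mul_pos he0 hdpos).ne'] at hπn
    exact hvp0 hπn.symm
  have ha1 : v πM ≠ 1 := by
    intro h
    rw [h, one_pow] at hπn
    exact hT.p_lt.ne hπn.symm
  have hϖ0 : ϖ ≠ 0 := by
    intro h
    rw [h, zero_pow he0.ne'] at hϖ
    exact hT.p_ne hϖ.symm
  have hvϖ0 : v ϖ ≠ 0 := (Valuation.ne_zero_iff v).2 hϖ0
  have hy0 : y ≠ 0 := by
    intro h
    rw [h, map_zero, zero_pow hp.ne_zero] at hy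
    exact zpow_ne_zero j hvϖ0 hy.symm
  have hyM : y ∈ IntermediateField.adjoin F0 {ϖ, y} :=
    IntermediateField.subset_adjoin F0 _ (by simp)
  obtain ⟨k, hk⟩ := hπ y hyM hy0
  have hve : v ϖ ^ e = v πM ^ (e * d) := by rw [hπn, ← map_pow, hϖ]
  have hpow : v πM ^ (k * (p : ℤ) * (e : ℤ)) = v πM ^ (((e * d : ℕ) : ℤ) * j) := by
    calc v πM ^ (k * (p : ℤ) * (e : ℤ)) = ((v πM ^ k) ^ p) ^ e := by
          rw [zpow_mul, zpow_mul, zpow_natCast, zpow_natCast]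
      _ = (v ϖ ^ j) ^ e := by rw [← hk, hy]
      _ = (v ϖ ^ e) ^ j := by
          rw [← zpow_natCast (v ϖ ^ j) e, ← zpow_mul, mul_comm, zpow_mul, zpow_natCast]
      _ = v πM ^ (((e * d : ℕ) : ℤ) * j) := by rw [hve, zpow_mul, zpow_natCast]
  have heq : k * (p : ℤ) * (e : ℤ) = ((e * d : ℕ) : ℤ) * j :=
    zpow_right_injective₀ (zero_lt_iff.2 ha0) ha1 hpow
  have hdvd : (p : ℤ) ∣ ((e * d : ℕ) : ℤ) * j := ⟨k * e, by rw [← heq]; ring⟩
  have hdvd2 : (p : ℤ) ∣ ((e * d : ℕ) : ℤ) :=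
    ((Nat.prime_iff_prime_int.1 hp).dvd_or_dvd hdvd).resolve_right hj
  have hdvd3 : p ∣ e * d := Int.natCast_dvd_natCast.1 hdvd2
  have hdvd4 : p ∣ d := (hp.dvd_mul.1 hdvd3).resolve_left he
  have : d = p := le_antisymm hdle (Nat.le_of_dvd hdpos hdvd4)
  rw [hM, this]

end Fermat.Agent.S56.Flat.Ram
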