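/-
S56 / FLAT / RAM (architect helper18; proof helper204, task 2984), node KUMBOUND, part `kummer_cards`.

`K = F0(ϖ)`, `M = F0(ϖ, y)`: with `m := finrank M F` the groups `Gal(F/F0)`, `Gal(F/K)`, `Gal(F/M)` have
`e p m`, `p m`, `m` elements.
-/
import Fermat.Agent.S56.Flat.Ram.FieldM

set_option autoImplicit false

namespace Fermat.Agent.S56.Flat.Ram

open scoped IntermediateField

variable {F0 F : Type*} [Field F0] [Field F] [Algebra F0 F] [FiniteDimensional F0 F] [IsGalois F0 F]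
variable {Γ : Type*} [LinearOrderedCommGroupWithZero Γ] {v : Valuation F Γ} {p : ℕ}

theorem kummer_cards (hT : TotRam F0 v p) (hp : p.Prime) (e : ℕ) (he : ¬ p ∣ e) (ϖ : F)
    (hϖ : ϖ ^ e = (p : F)) (y : F) (q : Polynomial F0⟮ϖ⟯) (hq : q.Monic) (hqd : q.natDegree = p)
    (hqy : Polynomial.aeval y q = 0) (j : ℤ) (hj : ¬ (p : ℤ) ∣ j) (hy : v y ^ p = v ϖ ^ j) :
    ∃ m : ℕ, 0 < m ∧ Module.finrank F0 F = e * p * m ∧ Nat.card (F ≃ₐ[F0] F) = e * p * m ∧
      Nat.card (F0⟮ϖ⟯).fixingSubgroup = p * m ∧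
      Nat.card (IntermediateField.adjoin F0 {ϖ, y}).fixingSubgroup = m := by
  have he0 : 0 < e := Nat.pos_of_ne_zero fun h => he (h ▸ dvd_zero p)
  have hK : Module.finrank F0 F0⟮ϖ⟯ = e := hT.finrank_adjoin_root e he0 ϖ hϖ
  have hM : Module.finrank F0 (IntermediateField.adjoin F0 {ϖ, y}) = e * p :=
    hT.finrank_adjoin_pair hp e he ϖ hϖ y q hq hqd hqy j hj hy
  have h1 : Module.finrank F0 (IntermediateField.adjoin F0 {ϖ, y}) *
      Module.finrank (IntermediateField.adjoin F0 {ϖ, y}) F = Module.finrank F0 F :=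
    Module.finrank_mul_finrank F0 _ F
  have h2 : Module.finrank F0 F0⟮ϖ⟯ * Module.finrank F0⟮ϖ⟯ F = Module.finrank F0 F :=
    Module.finrank_mul_finrank F0 _ F
  rw [hM] at h1
  rw [hK] at h2
  refine ⟨Module.finrank (IntermediateField.adjoin F0 {ϖ, y}) F, Module.finrank_pos, h1.symm, ?_, ?_,
    ?_⟩
  · rw [IsGalois.card_aut_eq_finrank, h1]
  · rw [IsGalois.card_fixingSubgroup_eq_finrank]
    apply Nat.eq_of_mul_eq_mul_left he0
    rw [h2, ← h1, mul_assoc]
  · rw [IsGalois.card_fixingSubgroup_eq_finrank]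

end Fermat.Agent.S56.Flat.Ram
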