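/-
S56 / FLAT / RAM (architect helper18, proofs helper205), leaf KUMEST (Mathlib only + ORD, DISTINCT).

The conductor estimate for a degree `p` extension generated by `y` with `ord y = j m`, `p ∤ j`, over a
field whose non zero elements have order in `p m ℤ`.

Proof.  The terms `x_k = c k * y ^ k` (`k < p`) have `v x_k = v π ^ (m (p a_k + k j))` (if `c k ≠ 0`); these
exponents are pairwise distinct (`p ∣ (k - k') j` forces `k = k'`), so by `val_le_val_sum`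
`v x_k ≤ v (∑ x) ≤ 1`, i.e. `p a_k + k j ≥ 0`; for `1 ≤ k < p` it is `≠ 0` (`p ∤ k j`), so `≥ 1`:
`v x_k ≤ v π ^ m`.  Next `τ (∑ x) - ∑ x = ∑_k c k * ((τ y) ^ k - y ^ k)` and
`(τ y) ^ k - y ^ k = (τ y - y) * ∑_{i < k} (τ y) ^ i * y ^ (k - 1 - i)`, so
`v ((τ y) ^ k - y ^ k) ≤ v (τ y - y) * v y ^ (k - 1) ≤ v y ^ k * v π ^ δ` for `k ≥ 1`
(and it is `0` for `k = 0`).  Hence each term has `v ≤ v x_k * v π ^ δ ≤ v π ^ (δ + m)`; `Valuation.map_sum_le`.
-/
import Fermat.Agent.S56.Flat.Ram.Ord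
import Fermat.Agent.S56.Flat.Ram.Distinct

set_option autoImplicit false

namespace Fermat.Agent.S56.Flat.Ram

variable {F : Type*} [Field F] {Γ : Type*} [LinearOrderedCommGroupWithZero Γ]

/-- `v (a ^ (k + 1) - b ^ (k + 1)) ≤ v (a - b) * v b ^ k` if `v a = v b`. -/
theorem KumEst_pow_sub_le (v : Valuation F Γ) (a b : F) (hab : v a = v b) (k : ℕ) :
    v (a ^ (k + 1) - b ^ (k + 1)) ≤ v (a - b) * v b ^ k := by
  rw [← (Commute.all a b).mul_geom_sum₂ (k + 1), map_mul]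
  refine mul_le_mul_right ?_ _
  refine Valuation.map_sum_le v fun i hi => ?_
  have hi' : i ≤ k := Nat.lt_succ_iff.1 (Finset.mem_range.1 hi)
  rw [map_mul, map_pow, map_pow, hab, ← pow_add]
  have : i + (k + 1 - 1 - i) = k := by omega
  rw [this]

/-- local copy of the strict anti-monotonicity of `k ↦ v π ^ k`. -/
theorem KumEst_zpow_le (v : Valuation F Γ) (π : F) (hπ : IsUnif v π) {a b : ℤ} :
    v π ^ a ≤ v π ^ b ↔ b ≤ a :=
  zpow_le_zpow_iff_right_of_lt_one₀ (zero_lt_iff.2 ((map_ne_zero v).2 hπ.ne_zero)) hπ.lt_one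

theorem KumEst_zpow_inj (v : Valuation F Γ) (π : F) (hπ : IsUnif v π) {a b : ℤ} :
    v π ^ a = v π ^ b ↔ a = b := by
  constructor
  · intro h
    exact le_antisymm ((KumEst_zpow_le v π hπ).1 h.ge) ((KumEst_zpow_le v π hπ).1 h.le)
  · rintro rfl; rfl

theorem kummer_estimate {T : Type*} [FunLike T F F] [RingHomClass T F F]
    (v : Valuation F Γ) (π : F) (hπ : IsUnif v π) (τ : T) (hτv : ∀ x, v (τ x) = v x)
    (p : ℕ) (hp : p.Prime) (m : ℤ) (hm : 0 < m) (j δ : ℤ) (hj : ¬ (p : ℤ) ∣ j) (y : F)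
    (hy : v y = v π ^ (j * m)) (hτy : v (τ y - y) ≤ v y * v π ^ δ)
    (c : ℕ → F) (hcτ : ∀ k, τ (c k) = c k)
    (hcv : ∀ k, c k ≠ 0 → ∃ a : ℤ, v (c k) = v π ^ ((p : ℤ) * m * a))
    (hint : v (∑ k ∈ Finset.range p, c k * y ^ k) ≤ 1) :
    v (τ (∑ k ∈ Finset.range p, c k * y ^ k) - ∑ k ∈ Finset.range p, c k * y ^ k) ≤
      v π ^ (δ + m) := by
  have hπ0 : v π ≠ 0 := (map_ne_zero v).2 hπ.ne_zero
  have hpp : Prime (p : ℤ) := Nat.prime_iff_prime_int.1 hp
  -- the valuation of the terms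
  have hx : ∀ k, c k ≠ 0 →
      ∃ a : ℤ, v (c k * y ^ k) = v π ^ (m * ((p : ℤ) * a + (k : ℤ) * j)) := by
    intro k hk
    obtain ⟨a, ha⟩ := hcv k hk
    refine ⟨a, ?_⟩
    rw [map_mul, map_pow, ha, hy, ← zpow_natCast, ← zpow_mul, ← zpow_add₀ hπ0]
    congr 1
    ring
  -- they are pairwise distinct
  have hd : ∀ a ∈ Finset.range p, ∀ b ∈ Finset.range p, a ≠ b → c a * y ^ a ≠ 0 →
      v (c a * y ^ a) ≠ v (c b * y ^ b) := by
    intro a ha b hb hab hxa heq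
    have hca : c a ≠ 0 := left_ne_zero_of_mul hxa
    have hcb : c b ≠ 0 := by
      intro h
      rw [h, zero_mul, map_zero] at heq
      exact hxa ((map_eq_zero v).1 heq)
    obtain ⟨ea, hea⟩ := hx a hca
    obtain ⟨eb, heb⟩ := hx b hcb
    rw [hea, heb, KumEst_zpow_inj v π hπ] at heq
    have h1 : (p : ℤ) * ea + (a : ℤ) * j = (p : ℤ) * eb + (b : ℤ) * j :=
      mul_left_cancel₀ hm.ne' heq
    have h2 : (p : ℤ) ∣ ((a : ℤ) - b) * j := ⟨eb - ea, by linarith⟩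
    have h3 : (p : ℤ) ∣ (a : ℤ) - b := (hpp.dvd_or_dvd h2).resolve_right hj
    have ha' := Finset.mem_range.1 ha
    have hb' := Finset.mem_range.1 hb
    have h4 : (a : ℤ) - b = 0 := by
      refine Int.eq_zero_of_abs_lt_dvd h3 ?_
      rw [abs_lt]
      constructor <;> omega
    exact hab (by omega)
  have hle : ∀ k ∈ Finset.range p, v (c k * y ^ k) ≤ 1 := fun k hk =>
    (val_le_val_sum v _ _ hd k hk).trans hint
  have hkey : ∀ k ∈ Finset.range p, k ≠ 0 → v (c k * y ^ k) ≤ v π ^ m := by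
    intro k hk hk0
    by_cases hck : c k = 0
    · simp [hck]
    obtain ⟨a, ha⟩ := hx k hck
    have h1 := hle k hk
    rw [ha, ← zpow_zero (v π), KumEst_zpow_le v π hπ] at h1
    rw [ha, KumEst_zpow_le v π hπ]
    have h2 : 0 ≤ (p : ℤ) * a + (k : ℤ) * j := by
      by_contra hneg
      rw [not_le] at hneg
      nlinarith
    have h3 : (p : ℤ) * a + (k : ℤ) * j ≠ 0 := by
      intro h0
      have h5 : (p : ℤ) ∣ (k : ℤ) * j := ⟨-a, by linarith⟩
      rcases hpp.dvd_or_dvd h5 with h | h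
      · have h6 := Int.natCast_dvd_natCast.1 h
        exact absurd (Nat.le_of_dvd (Nat.pos_of_ne_zero hk0) h6)
          (not_le.2 (Finset.mem_range.1 hk))
      · exact hj h
    have h4 : 1 ≤ (p : ℤ) * a + (k : ℤ) * j := by omega
    nlinarith
  have hsum : τ (∑ k ∈ Finset.range p, c k * y ^ k) - ∑ k ∈ Finset.range p, c k * y ^ k =
      ∑ k ∈ Finset.range p, c k * ((τ y) ^ k - y ^ k) := by
    rw [map_sum, ← Finset.sum_sub_distrib]
    refine Finset.sum_congr rfl fun k _ => ?_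
    rw [map_mul, map_pow, hcτ, mul_sub]
  rw [hsum]
  refine Valuation.map_sum_le v fun k hk => ?_
  rcases Nat.eq_zero_or_pos k with rfl | hkpos
  · simp
  obtain ⟨k', rfl⟩ := Nat.exists_eq_succ_of_ne_zero hkpos.ne'
  have h1 := KumEst_pow_sub_le v (τ y) y (hτv y) k'
  calc v (c (k' + 1) * ((τ y) ^ (k' + 1) - y ^ (k' + 1)))
      = v (c (k' + 1)) * v ((τ y) ^ (k' + 1) - y ^ (k' + 1)) := map_mul _ _ _
    _ ≤ v (c (k' + 1)) * (v (τ y - y) * v y ^ k') := mul_le_mul_right h1 _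
    _ ≤ v (c (k' + 1)) * ((v y * v π ^ δ) * v y ^ k') :=
        mul_le_mul_right (mul_le_mul_left hτy _) _
    _ = v (c (k' + 1) * y ^ (k' + 1)) * v π ^ δ := by
        rw [map_mul, map_pow, pow_succ]; ac_rfl
    _ ≤ v π ^ m * v π ^ δ := mul_le_mul_left (hkey _ hk (Nat.succ_ne_zero _)) _
    _ = v π ^ (δ + m) := by rw [← zpow_add₀ hπ0, add_comm]

end Fermat.Agent.S56.Flat.Ram
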