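/-
S56 / FLAT / RAM (architect helper18), node KUMHB (task RAM-KUMHB, helper233).

`K = F0(ϖ)`, `M = F0(ϖ, y)`, `GK = K.fixingSubgroup`, `H = M.fixingSubgroup` in `G = Gal(F/F0)`.

`kummer_hB`: with `n = e p m`: `v ϖ = v π ^ (p m)` (from `ϖ ^ e = p`, `v π ^ n = v p`, `zpow_inj`), `v y = v π ^ (j m)`.
  `c` fixed by `H` lies in `M` (`IsGalois.fixedField_fixingSubgroup`), so `c = ∑_{k<p} c_k y^k`, `c_k ∈ K`
  (`exists_expansion`); `τ c_k = c_k`; `v c_k = v ϖ ^ a = v π ^ (p m a)` (`val_mem_adjoin_root`); `τ y ≠ y` because `τ` fixes `ϖ`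
  and is not in `H` (an automorphism fixing `ϖ` and `y` fixes `adjoin F0 {ϖ, y}`).  Apply `kummer_estimate`.
-/
import Fermat.Agent.S56.Flat.Ram.KumEst
import Fermat.Agent.S56.Flat.Ram.FieldM

set_option autoImplicit false

namespace Fermat.Agent.S56.Flat.Ram

open scoped IntermediateField

variable {F0 F : Type*} [Field F0] [Field F] [Algebra F0 F] [FiniteDimensional F0 F] [IsGalois F0 F]
variable {Γ : Type*} [LinearOrderedCommGroupWithZero Γ] {v : Valuation F Γ} {p : ℕ}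

omit [FiniteDimensional F0 F] [IsGalois F0 F] in
/-- an automorphism fixing `ϖ` and `y` fixes `F0(ϖ, y)` -/
private theorem kumHB_mem_fixing (τ : F ≃ₐ[F0] F) (ϖ y : F) (h1 : τ ϖ = ϖ) (h2 : τ y = y) :
    τ ∈ (IntermediateField.adjoin F0 {ϖ, y}).fixingSubgroup := by
  rw [IntermediateField.mem_fixingSubgroup_iff]
  intro x hx
  have hext : ((τ : F →ₐ[F0] F).comp (IntermediateField.adjoin F0 {ϖ, y}).val)
      = (IntermediateField.adjoin F0 {ϖ, y}).val := by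
    apply IntermediateField.adjoin_algHom_ext
    rintro z (rfl | hz)
    · exact h1
    · rw [Set.mem_singleton_iff] at hz
      subst hz
      exact h2
  exact DFunLike.congr_fun hext ⟨x, hx⟩

theorem kummer_hB (hT : TotRam F0 v p) (hp : p.Prime) (π : F) (hπ : IsUnif v π)
    (hπn : v π ^ Module.finrank F0 F = v (p : F)) (e : ℕ) (he : ¬ p ∣ e) (ϖ : F)
    (hϖ : ϖ ^ e = (p : F)) (y : F) (q : Polynomial F0⟮ϖ⟯) (hq : q.Monic) (hqd : q.natDegree = p)
    (hqy : Polynomial.aeval y q = 0) (j : ℤ) (hj : ¬ (p : ℤ) ∣ j) (hy : v y ^ p = v ϖ ^ j) (δ : ℤ)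
    (hδ : ∀ τ : F ≃ₐ[F0] F, τ ϖ = ϖ → τ y ≠ y → v (τ y - y) ≤ v y * v π ^ δ)
    (m : ℕ) (hm0 : 0 < m) (hm : Module.finrank F0 F = e * p * m) :
    ∀ τ ∈ (F0⟮ϖ⟯).fixingSubgroup, τ ∉ (IntermediateField.adjoin F0 {ϖ, y}).fixingSubgroup →
      ∀ c : F, (∀ h ∈ (IntermediateField.adjoin F0 {ϖ, y}).fixingSubgroup, h • c = c) → v c ≤ 1 →
        v (τ • c - c) ≤ v π ^ (δ + (m : ℤ)) := by
  intro τ hτK hτM c hc hc1
  have he0 : 0 < e := Nat.pos_of_ne_zero fun h => he (h ▸ dvd_zero p)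
  have hp0 : (0 : ℤ) < p := by exact_mod_cast hp.pos
  have he0' : (0 : ℤ) < e := by exact_mod_cast he0
  have hϖ0 : ϖ ≠ 0 := by
    rintro rfl
    rw [zero_pow he0.ne'] at hϖ
    exact hT.p_ne hϖ.symm
  -- `v ϖ = v π ^ (p m)`
  have hvϖ : v ϖ = v π ^ ((p : ℤ) * m) := by
    obtain ⟨k, hk⟩ := hπ.disc ϖ hϖ0
    have h1 : v π ^ (k * e) = v π ^ (((e * p * m : ℕ) : ℤ)) := by
      rw [zpow_mul, ← hk, zpow_natCast, zpow_natCast, ← map_pow, hϖ, ← hm, hπn]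
    have h2 := hπ.zpow_inj.mp h1
    have h3 : k = (p : ℤ) * m := by
      push_cast at h2
      have : (e : ℤ) * k = e * (p * m) := by linarith
      exact mul_left_cancel₀ he0'.ne' this
    rw [hk, h3]
  -- `v y = v π ^ (j m)`
  have hy0 : y ≠ 0 := by
    rintro rfl
    rw [map_zero, zero_pow hp.ne_zero] at hy
    exact zpow_ne_zero j ((Valuation.ne_zero_iff v).2 hϖ0) hy.symm
  have hvy : v y = v π ^ (j * m) := by
    obtain ⟨l, hl⟩ := hπ.disc y hy0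
    have h1 : v π ^ (l * p) = v π ^ ((p : ℤ) * m * j) := by
      rw [zpow_mul, ← hl, zpow_natCast, hy, hvϖ, ← zpow_mul]
    have h2 := hπ.zpow_inj.mp h1
    have h3 : l = j * m := by
      have : (p : ℤ) * l = p * (j * m) := by linarith
      exact mul_left_cancel₀ hp0.ne' this
    rw [hl, h3]
  have hτfix : ∀ x ∈ F0⟮ϖ⟯, τ x = x := (IntermediateField.mem_fixingSubgroup_iff _ _).mp hτK
  have hτϖ : τ ϖ = ϖ := hτfix ϖ (IntermediateField.mem_adjoin_simple_self F0 ϖ)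
  have hτy : τ y ≠ y := fun h => hτM (kumHB_mem_fixing τ ϖ y hτϖ h)
  -- `c ∈ M`
  have hcM : c ∈ IntermediateField.adjoin F0 {ϖ, y} := by
    rw [← IsGalois.fixedField_fixingSubgroup (IntermediateField.adjoin F0 {ϖ, y}),
      IntermediateField.mem_fixedField_iff]
    exact hc
  obtain ⟨c', hc'K, rfl⟩ := exists_expansion ϖ y q hq hqd hqy c hcM
  exact kummer_estimate v π hπ τ (hT.inv τ) p hp (m : ℤ) (by exact_mod_cast hm0) j δ hj y hvy
    (hδ τ hτϖ hτy) c' (fun k => hτfix _ (hc'K k))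
    (fun k hk => by
      obtain ⟨a, ha⟩ := hT.val_mem_adjoin_root e he0 ϖ hϖ (c' k) (hc'K k) hk
      exact ⟨a, by rw [ha, hvϖ, ← zpow_mul]⟩)
    hc1

end Fermat.Agent.S56.Flat.Ram
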