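/-
S56 / FLAT / RAM (architect helper18), node LOWER (proof: helper187).

Lower bound for `Φ := ∑_{s ≠ 1} i(s) + i_max` from a subgroup chain `H < GK ≤ G`.

Proof.  Split `∑_{s : G} i(s)` into `s ∉ GK`, `s ∈ GK \ H`, `s ∈ H`.
* `s ∉ GK`: `i(s) ≥ 1` (`one_le_ii`), there are `|G| - |GK|` of them.
* `|H| * ∑_{s ∈ GK \ H} i(s) = ∑_{h : H} ∑_{τ ∈ GK \ H} i(τ h)` (for fixed `h`, `τ ↦ τ h` is a bijection of
  `GK \ H`) `= ∑_{τ ∈ GK \ H} ∑_{h : H} i(τ h) ≥ (|GK| - |H|) * B` by `coset_sum_ge`.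
* `∑_{h : H} i(h) + i(s1) ≥ ∑_{h : H} i(τ0 h) ≥ B` by `coset_sum_le`, `coset_sum_ge` for one `τ0 ∈ GK \ H`.
-/
import Fermat.Agent.S56.Flat.Ram.Coset
import Fermat.Agent.S56.Flat.Ram.Comb

set_option autoImplicit false

namespace Fermat.Agent.S56.Flat.Ram

variable {F : Type*} [Field F] {Γ : Type*} [LinearOrderedCommGroupWithZero Γ]
variable {G : Type*} [Group G] [Fintype G] [MulSemiringAction G F]

open Classical in
private theorem Lower_splitGK (H GK : Subgroup G) (hle : H ≤ GK) (f : G → ℤ) :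
    ∑ s ∈ Finset.univ.filter (fun s => s ∈ GK), f s =
      ∑ s ∈ Finset.univ.filter (fun s => s ∈ GK ∧ s ∉ H), f s +
        ∑ s ∈ Finset.univ.filter (fun s => s ∈ H), f s := by
  rw [← Finset.sum_filter_add_sum_filter_not (Finset.univ.filter (fun s => s ∈ GK))
    (fun s => s ∈ H) f, Finset.filter_filter, Finset.filter_filter]
  have e3 : Finset.univ.filter (fun s => s ∈ GK ∧ s ∈ H) =
      Finset.univ.filter (fun s => s ∈ H) := by
    ext s
    simp only [Finset.mem_filter, Finset.mem_univ, true_and]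
    exact ⟨fun h => h.2, fun h => ⟨hle h, h⟩⟩
  rw [e3, add_comm]

open Classical in
private theorem Lower_split (H GK : Subgroup G) (hle : H ≤ GK) (f : G → ℤ) :
    ∑ s, f s = ∑ s ∈ Finset.univ.filter (fun s => s ∉ GK), f s +
      (∑ s ∈ Finset.univ.filter (fun s => s ∈ GK ∧ s ∉ H), f s +
        ∑ s ∈ Finset.univ.filter (fun s => s ∈ H), f s) := by
  rw [← Finset.sum_filter_add_sum_filter_not Finset.univ (fun s => s ∈ GK) f,
    Lower_splitGK H GK hle, add_comm]

open Classical in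
/-- double counting -/
private theorem Lower_double (H GK : Subgroup G) (hle : H ≤ GK) [Fintype H] (f : G → ℤ) :
    (Fintype.card H : ℤ) * ∑ s ∈ Finset.univ.filter (fun s => s ∈ GK ∧ s ∉ H), f s =
      ∑ τ ∈ Finset.univ.filter (fun s => s ∈ GK ∧ s ∉ H), ∑ h : H, f (τ * (h : G)) := by
  rw [Finset.sum_comm]
  have h1 : ∀ x : H, ∑ τ ∈ Finset.univ.filter (fun s => s ∈ GK ∧ s ∉ H), f (τ * (x : G)) =
      ∑ s ∈ Finset.univ.filter (fun s => s ∈ GK ∧ s ∉ H), f s := by
    intro x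
    refine Finset.sum_equiv (Equiv.mulRight (x : G)) (fun τ => ?_) (fun τ _ => rfl)
    simp only [Finset.mem_filter, Finset.mem_univ, true_and, Equiv.coe_mulRight]
    rw [Subgroup.mul_mem_cancel_right GK (hle x.2), Subgroup.mul_mem_cancel_right H x.2]
  rw [Finset.sum_congr rfl (fun x _ => h1 x), Finset.sum_const, Finset.card_univ, nsmul_eq_mul]

theorem lower_bound (v : Valuation F Γ) (π : F) (hπ : IsUnif v π)
    (hinv : ∀ (s : G) (x : F), v (s • x) = v x) (hgen : ∀ s : G, s ≠ 1 → s • π ≠ π)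
    (s1 : G) (hs1 : s1 ≠ 1) (hmax : ∀ s : G, s ≠ 1 → v (s1 • π - π) ≤ v (s • π - π))
    (H GK : Subgroup G) (hle : H ≤ GK) (hlt : ∃ τ ∈ GK, τ ∉ H) (B : ℤ)
    (hB : ∀ τ ∈ GK, τ ∉ H → ∀ c : F, (∀ h ∈ H, h • c = c) → v c ≤ 1 → v (τ • c - c) ≤ v π ^ B) :
    (Nat.card H : ℤ) * ((Nat.card G : ℤ) - (Nat.card GK : ℤ)) + (Nat.card GK : ℤ) * B ≤
      (Nat.card H : ℤ) * ((∑ s : G, ii v π s) + ii v π s1) := by
  classical
  -- cardinalities
  have cH : Nat.card H = (Finset.univ.filter (fun s : G => s ∈ H)).card :=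
    Nat.subtype_card _ (by simp)
  have cGK0 : Nat.card GK = (Finset.univ.filter (fun s : G => s ∈ GK)).card :=
    Nat.subtype_card _ (by simp)
  have cGK : (Nat.card GK : ℤ) =
      ((Finset.univ.filter (fun s : G => s ∈ GK ∧ s ∉ H)).card : ℤ) +
        ((Finset.univ.filter (fun s : G => s ∈ H)).card : ℤ) := by
    rw [cGK0, Finset.cast_card, Finset.cast_card, Finset.cast_card]
    exact Lower_splitGK H GK hle _
  have cG : (Nat.card G : ℤ) = ((Finset.univ.filter (fun s : G => s ∉ GK)).card : ℤ) +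
      (((Finset.univ.filter (fun s : G => s ∈ GK ∧ s ∉ H)).card : ℤ) +
        ((Finset.univ.filter (fun s : G => s ∈ H)).card : ℤ)) := by
    rw [Nat.card_eq_fintype_card, ← Finset.card_univ, Finset.cast_card, Finset.cast_card,
      Finset.cast_card, Finset.cast_card]
    exact Lower_split H GK hle _
  have cH' : Fintype.card H = Nat.card H := Nat.card_eq_fintype_card.symm
  -- the three estimates
  have e1 : ((Finset.univ.filter (fun s : G => s ∉ GK)).card : ℤ) ≤
      ∑ s ∈ Finset.univ.filter (fun s : G => s ∉ GK), ii v π s := by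
    have := Finset.card_nsmul_le_sum (Finset.univ.filter (fun s : G => s ∉ GK)) (ii v π) 1
      (fun s hs => by
        have hs' : s ∉ GK := (Finset.mem_filter.mp hs).2
        exact hπ.one_le_ii hinv (hgen s (fun h => hs' (h ▸ GK.one_mem))))
    rwa [nsmul_eq_mul, mul_one] at this
  have e2 : ((Finset.univ.filter (fun s : G => s ∈ GK ∧ s ∉ H)).card : ℤ) * B ≤
      (Nat.card H : ℤ) * ∑ s ∈ Finset.univ.filter (fun s : G => s ∈ GK ∧ s ∉ H), ii v π s := by
    rw [← cH', Lower_double H GK hle, ← nsmul_eq_mul]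
    refine Finset.card_nsmul_le_sum _ _ _ (fun τ hτ => ?_)
    obtain ⟨h1, h2⟩ := (Finset.mem_filter.mp hτ).2
    exact coset_sum_ge v π hπ hinv hgen H τ h2 B (hB τ h1 h2)
  have e3 : B ≤ ∑ s ∈ Finset.univ.filter (fun s : G => s ∈ H), ii v π s + ii v π s1 := by
    obtain ⟨τ, h1, h2⟩ := hlt
    have h3 := coset_sum_ge v π hπ hinv hgen H τ h2 B (hB τ h1 h2)
    have h4 := coset_sum_le v π hπ hinv hgen s1 hs1 hmax H τ h2
    have h5 : ∑ s ∈ Finset.univ.filter (fun s : G => s ∈ H), ii v π s =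
        ∑ h : H, ii v π (h : G) :=
      Finset.sum_subtype _ (by simp) _
    rw [h5]
    exact h3.trans h4
  rw [Lower_split H GK hle (ii v π), cG, cGK, cH]
  have hc : (0 : ℤ) ≤ ((Finset.univ.filter (fun s : G => s ∈ H)).card : ℤ) := Int.natCast_nonneg _
  rw [cH] at e2
  have m1 := mul_le_mul_of_nonneg_left e1 hc
  have m3 := mul_le_mul_of_nonneg_left e3 hc
  linarith

end Fermat.Agent.S56.Flat.Ram
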