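/-
S56 / FLAT / RAM (architect helper18), node KUMBOUND, proved by helper11 (Mathlib only + ORD, LOWER, KUMEST, FIELDK, FIELDM).

`K = F0(ϖ)`, `M = F0(ϖ, y)`, `GK = K.fixingSubgroup`, `H = M.fixingSubgroup` in `G = Gal(F/F0)`.

`kummer_cards`: `m := finrank M F`.  `IsGalois.card_fixingSubgroup_eq_finrank`, `Module.finrank_mul_finrank`,
  `IsGalois.card_aut_eq_finrank`, `finrank_adjoin_root` (`= e`), `finrank_adjoin_pair` (`= e p`).
`kummer_hB`: with `n = e p m`: `v ϖ = v π ^ (p m)` (from `ϖ ^ e = p`, `v π ^ n = v p`, `zpow_inj`), `v y = v π ^ (j m)`.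
  `c` fixed by `H` lies in `M` (`IsGalois.fixedField_fixingSubgroup`), so `c = ∑_{k<p} c_k y^k`, `c_k ∈ K`
  (`exists_expansion`); `τ c_k = c_k`; `v c_k = v ϖ ^ a = v π ^ (p m a)` (`val_mem_adjoin_root`); `τ y ≠ y` because `τ` fixes `ϖ`
  and is not in `H` (an automorphism fixing `ϖ` and `y` fixes `adjoin F0 {ϖ, y}`).  Apply `kummer_estimate`.
`kummer_bound`: `G ≠ 1`; choose `s1 ≠ 1` with `v (s1 π - π)` minimal (`Finset.exists_min_image`).  `lower_bound` with `B = δ + m` gives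
  `m (n - p m) + p m (δ + m) ≤ m Φ`, i.e. `n + p δ ≤ Φ`; `hFon s1` gives `(p - 1) (Φ - 1) ≤ p n`.  Conclude by `nlinarith`/`linarith`.
  (`hgen` = `TotRam.smul_unif_ne`, `hinv` = `hT.inv`, `∃ τ ∈ GK, τ ∉ H` since `|GK| = p m > m = |H|`.)
-/
import Fermat.Agent.S56.Flat.Ram.Lower
import Fermat.Agent.S56.Flat.Ram.KumCards
import Fermat.Agent.S56.Flat.Ram.KumHB

set_option autoImplicit false

namespace Fermat.Agent.S56.Flat.Ram

open scoped IntermediateField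

variable {F0 F : Type*} [Field F0] [Field F] [Algebra F0 F] [FiniteDimensional F0 F] [IsGalois F0 F]
variable {Γ : Type*} [LinearOrderedCommGroupWithZero Γ] {v : Valuation F Γ} {p : ℕ}

theorem kummer_bound (hT : TotRam F0 v p) (hp : p.Prime) (π : F) (hπ : IsUnif v π)
    (hπn : v π ^ Module.finrank F0 F = v (p : F)) (hFon : FonBound F0 v p π)
    (e : ℕ) (he : ¬ p ∣ e) (ϖ : F)
    (hϖ : ϖ ^ e = (p : F)) (y : F) (q : Polynomial F0⟮ϖ⟯) (hq : q.Monic) (hqd : q.natDegree = p)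
    (hqy : Polynomial.aeval y q = 0) (j : ℤ) (hj : ¬ (p : ℤ) ∣ j) (hy : v y ^ p = v ϖ ^ j) (δ : ℤ)
    (hδ : ∀ τ : F ≃ₐ[F0] F, τ ϖ = ϖ → τ y ≠ y → v (τ y - y) ≤ v y * v π ^ δ) :
    ((p : ℤ) - 1) * (p : ℤ) * δ ≤ (Module.finrank F0 F : ℤ) + (p : ℤ) - 1 := by
  classical
  obtain ⟨m, hm0, hn, hG, hGK, hH⟩ := kummer_cards hT hp e he ϖ hϖ y q hq hqd hqy j hj hy
  have hB := kummer_hB hT hp π hπ hπn e he ϖ hϖ y q hq hqd hqy j hj hy δ hδ m hm0 hn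
  have hle : (IntermediateField.adjoin F0 {ϖ, y}).fixingSubgroup ≤ (F0⟮ϖ⟯).fixingSubgroup :=
    IntermediateField.fixingSubgroup_antitone
      (IntermediateField.adjoin.mono F0 {ϖ} {ϖ, y} (by simp))
  have hlt : ∃ τ ∈ (F0⟮ϖ⟯).fixingSubgroup,
      τ ∉ (IntermediateField.adjoin F0 {ϖ, y}).fixingSubgroup := by
    by_contra hcon
    push Not at hcon
    have h1 := Subgroup.card_le_of_le (show (F0⟮ϖ⟯).fixingSubgroup ≤
      (IntermediateField.adjoin F0 {ϖ, y}).fixingSubgroup from hcon)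
    rw [hGK, hH] at h1
    have h2 : 2 * m ≤ p * m := Nat.mul_le_mul_right m hp.two_le
    omega
  have hne : (Finset.univ.filter fun s : F ≃ₐ[F0] F => s ≠ 1).Nonempty := by
    obtain ⟨τ, -, hτ⟩ := hlt
    refine ⟨τ, Finset.mem_filter.2 ⟨Finset.mem_univ _, ?_⟩⟩
    rintro rfl
    exact hτ (one_mem _)
  obtain ⟨s1, hs1, hmin⟩ := Finset.exists_min_image _ (fun s : F ≃ₐ[F0] F => v (s • π - π)) hne
  have hs1' : s1 ≠ 1 := (Finset.mem_filter.1 hs1).2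
  have hmax : ∀ s : F ≃ₐ[F0] F, s ≠ 1 → v (s1 • π - π) ≤ v (s • π - π) :=
    fun s hs => hmin s (Finset.mem_filter.2 ⟨Finset.mem_univ _, hs⟩)
  have hlow := lower_bound v π hπ (fun s x => hT.inv s x) (hT.smul_unif_ne π hπ hπn) s1 hs1' hmax
    _ _ hle hlt (δ + (m : ℤ)) hB
  have hfon := hFon s1 hs1' hmax
  rw [hG, hGK, hH] at hlow
  rw [hn] at hfon ⊢
  push_cast at hlow hfon ⊢
  generalize (∑ s : F ≃ₐ[F0] F, ii v π s) + ii v π s1 = Φ at hlow hfon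
  have hmZ : (0 : ℤ) < (m : ℤ) := by exact_mod_cast hm0
  have hpZ : (1 : ℤ) ≤ (p : ℤ) := by exact_mod_cast hp.one_lt.le
  have h1 : (m : ℤ) * ((e : ℤ) * p * m + p * δ) ≤ (m : ℤ) * Φ := by
    calc (m : ℤ) * ((e : ℤ) * p * m + p * δ)
        = (m : ℤ) * ((e : ℤ) * p * m - p * m) + p * m * (δ + m) := by ring
      _ ≤ (m : ℤ) * Φ := hlow
  have h2 : (e : ℤ) * p * m + p * δ ≤ Φ := le_of_mul_le_mul_left h1 hmZ
  have h3 : ((p : ℤ) - 1) * ((e : ℤ) * p * m + p * δ - 1) ≤ ((p : ℤ) - 1) * (Φ - 1) :=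
    mul_le_mul_of_nonneg_left (by linarith) (by linarith)
  nlinarith [h3, hfon]


end Fermat.Agent.S56.Flat.Ram
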