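/-
S56 / FLAT / RAM (architect helper18), leaf ROOT (Lib/InertiaField + EXPAND): a root of the perturbed Eisenstein polynomial `P + p^a X^j`.

Proof.  `Q := X ^ n - ∑ i, C c'_i * X ^ i : (K0 A)[X]`, `c'_i = c_i - [i = j] p^a`, is monic of degree `n`.  `Qb` is algebraically closed:
take a root `x`.  Then `x ^ n = ∑_i c'_i x^i`, `eis c x = - (p ^ a * x ^ j)`;
`v c'_i ≤ v p` (`EisData.val_c_le`), `v c'_0 = v p` (`EisData.val_c_zero`; if `j = 0` then `a ≥ 2` and `v (p^a) < v p`).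
* `v x < 1`: otherwise `v (c'_i x^i) ≤ v p * v x ^ i < v x ^ n` for all `i < n`, contradiction.
* then `v (c'_i x^i) < v p` for `i ≥ 1`, so `v (x ^ n) = v c'_0 = v p = v π ^ n`, and `v x = v π`.
-/
import Fermat.Agent.S56.Flat.Ram.Expand

set_option autoImplicit false

namespace Fermat.Agent.S56.Flat.Ram

open Fermat.Agent.Lib.InertiaField

variable {A : ValuationSubring Qb} {p n : ℕ} {π : Qb} {c : Fin n → Qb}

/-- the Newton polygon argument: a root of `X ^ n - ∑ d_i X^i` with `v d_i ≤ v p < 1`, `v d_0 = v p ≠ 0`. -/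
private theorem Root_val_pow {Γ : Type*} [LinearOrderedCommGroupWithZero Γ] (v : Valuation Qb Γ)
    (hn : 0 < n) (P : Γ) (hP0 : P ≠ 0) (hP1 : P < 1) (d : Fin n → Qb) (hd : ∀ i, v (d i) ≤ P)
    (hd0 : v (d ⟨0, hn⟩) = P) (x : Qb) (hx : x ^ n = ∑ i, d i * x ^ (i : ℕ)) : v x ^ n = P := by
  classical
  have hPpos : 0 < P := zero_lt_iff.2 hP0
  have hlt : v x < 1 := by
    by_contra hcon
    rw [not_lt] at hcon
    have hx0 : 0 < v x := lt_of_lt_of_le zero_lt_one hcon
    have h1 : v (∑ i, d i * x ^ (i : ℕ)) < v x ^ n := by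
      refine Valuation.map_sum_lt v (pow_ne_zero n hx0.ne') fun i _ => ?_
      rw [map_mul, map_pow]
      calc v (d i) * v x ^ (i : ℕ) ≤ P * v x ^ (i : ℕ) := mul_le_mul_left (hd i) _
        _ < 1 * v x ^ (i : ℕ) := mul_lt_mul_of_pos_right hP1 (pow_pos hx0 _)
        _ = v x ^ (i : ℕ) := one_mul _
        _ ≤ v x ^ n := pow_le_pow_right₀ hcon i.2.le
    rw [← hx, map_pow] at h1
    exact lt_irrefl _ h1
  have h2 : v (∑ i ∈ (Finset.univ : Finset (Fin n)).erase ⟨0, hn⟩, d i * x ^ (i : ℕ)) < P := by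
    refine Valuation.map_sum_lt v hP0 fun i hi => ?_
    have hi0 : (i : ℕ) ≠ 0 := by
      intro h0
      exact (Finset.mem_erase.1 hi).1 (Fin.ext h0)
    rw [map_mul, map_pow]
    calc v (d i) * v x ^ (i : ℕ) ≤ P * v x ^ (i : ℕ) := mul_le_mul_left (hd i) _
      _ < P * 1 := mul_lt_mul_of_pos_left (pow_lt_one₀ zero_le hlt hi0) hPpos
      _ = P := mul_one _
  have h3 : v (d ⟨0, hn⟩ * x ^ ((⟨0, hn⟩ : Fin n) : ℕ)) = P := by
    rw [pow_zero, mul_one, hd0]
  rw [← map_pow, hx, ← Finset.add_sum_erase _ _ (Finset.mem_univ (⟨0, hn⟩ : Fin n)),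
    Valuation.map_add_eq_of_lt_left v (by rw [h3]; exact h2), h3]

theorem exists_root (hp : p.Prime) (hA : A.LiesOverPrime p) (h : EisData A p n π c) (a j : ℕ)
    (ha : 1 ≤ a) (hj : j < n) (haj : ¬ (a = 1 ∧ j = 0)) :
    ∃ x : Qb, A.valuation x = A.valuation π ∧ eis c x = - ((p : Qb) ^ a * x ^ j) ∧
      ∃ Q : Polynomial (K0 A), Q.Monic ∧ Q.natDegree = n ∧ Polynomial.aeval x Q = 0 := by
  classical
  have hn : 0 < n := h.npos
  have hP1 : A.valuation (p : Qb) < 1 := (A.mem_nonunits_iff).1 hA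
  have hP0 : A.valuation (p : Qb) ≠ 0 := (map_ne_zero _).2 (Nat.cast_ne_zero.2 hp.ne_zero)
  -- the perturbed coefficients
  let c' : Fin n → K0 A := fun i =>
    (⟨c i, (h.cA0 i).1⟩ : K0 A) - (if i = ⟨j, hj⟩ then (p : K0 A) ^ a else 0)
  have hc' : ∀ i, ((c' i : K0 A) : Qb) = c i - (if i = ⟨j, hj⟩ then (p : Qb) ^ a else 0) := by
    intro i
    by_cases hi : i = ⟨j, hj⟩
    · simp only [c', if_pos hi]
      push_cast
      rfl
    · simp only [c', if_neg hi, sub_zero]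
  let S : Polynomial (K0 A) := ∑ i : Fin n, Polynomial.C (c' i) * Polynomial.X ^ (i : ℕ)
  have hS : S.degree < (n : ℕ) := Polynomial.degree_sum_fin_lt c'
  let Q : Polynomial (K0 A) := Polynomial.X ^ n - S
  have hQm : Q.Monic := Polynomial.monic_X_pow_sub hS
  have hQd : Q.degree = (n : ℕ) := by
    have h1 : S.degree < (Polynomial.X ^ n : Polynomial (K0 A)).degree := by
      rw [Polynomial.degree_X_pow]
      exact hS
    rw [Polynomial.degree_sub_eq_left_of_degree_lt h1, Polynomial.degree_X_pow]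
  have hQn : Q.natDegree = n := Polynomial.natDegree_eq_of_degree_eq_some hQd
  obtain ⟨x, hx⟩ := IsAlgClosed.exists_aeval_eq_zero Qb Q (by
    rw [hQd]
    exact_mod_cast hn.ne')
  have hx' : x ^ n = ∑ i : Fin n, ((c' i : K0 A) : Qb) * x ^ (i : ℕ) := by
    have h1 : Polynomial.aeval x Q = x ^ n - ∑ i : Fin n, ((c' i : K0 A) : Qb) * x ^ (i : ℕ) := by
      simp only [Q, S, map_sub, map_pow, Polynomial.aeval_X, map_sum, map_mul, Polynomial.aeval_C]
      rfl
    rw [h1] at hx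
    exact sub_eq_zero.1 hx
  have hpa : A.valuation ((p : Qb) ^ a) ≤ A.valuation (p : Qb) := by
    rw [map_pow]
    exact pow_le_of_le_one zero_le hP1.le (by omega)
  have hd : ∀ i, A.valuation ((c' i : K0 A) : Qb) ≤ A.valuation (p : Qb) := by
    intro i
    rw [hc']
    refine (Valuation.map_sub _ _ _).trans (max_le (h.val_c_le hp hA i) ?_)
    split_ifs
    · exact hpa
    · rw [map_zero]
      exact zero_le
  have hd0 : A.valuation ((c' ⟨0, hn⟩ : K0 A) : Qb) = A.valuation (p : Qb) := by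
    rw [hc']
    by_cases hj0 : j = 0
    · have ha2 : 1 < a := by
        rcases Nat.lt_or_ge 1 a with h1 | h1
        · exact h1
        · exact absurd ⟨le_antisymm h1 ha, hj0⟩ haj
      have h1 : (⟨0, hn⟩ : Fin n) = ⟨j, hj⟩ := Fin.ext hj0.symm
      rw [if_pos h1]
      have h2 : A.valuation ((p : Qb) ^ a) < A.valuation (c ⟨0, hn⟩) := by
        rw [h.val_c_zero hp hA, map_pow]
        exact pow_lt_self_of_lt_one₀ (zero_lt_iff.2 hP0) hP1 ha2
      rw [Valuation.map_sub_eq_of_lt_left _ h2, h.val_c_zero hp hA]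
    · have h1 : (⟨0, hn⟩ : Fin n) ≠ ⟨j, hj⟩ := fun h0 => hj0 (congrArg Fin.val h0).symm
      rw [if_neg h1, sub_zero, h.val_c_zero hp hA]
  have hval := Root_val_pow A.valuation hn _ hP0 hP1 (fun i => ((c' i : K0 A) : Qb)) hd hd0 x hx'
  refine ⟨x, ?_, ?_, Q, hQm, hQn, hx⟩
  · rw [← h.val] at hval
    exact (pow_left_inj₀ zero_le zero_le hn.ne').1 hval
  · rw [eis, hx', ← Finset.sum_sub_distrib]
    have h1 : ∀ i : Fin n, ((c' i : K0 A) : Qb) * x ^ (i : ℕ) - c i * x ^ (i : ℕ) =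
        if i = ⟨j, hj⟩ then - ((p : Qb) ^ a * x ^ j) else 0 := by
      intro i
      rw [hc']
      by_cases hi : i = ⟨j, hj⟩
      · rw [if_pos hi, if_pos hi, hi]
        ring
      · rw [if_neg hi, if_neg hi]
        ring
    rw [Finset.sum_congr rfl fun i _ => h1 i, Finset.sum_ite_eq' Finset.univ (⟨j, hj⟩ : Fin n),
      if_pos (Finset.mem_univ _)]

end Fermat.Agent.S56.Flat.Ram
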