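/-
S56 / FLAT / RAM (architect helper18), node SHAPE2 (helper145).

`a' = 1 + u ϖ ^ j`, `0 < j < e`, `p ∤ j`, with a `p`-th root `α'` in `F` contradicts Fontaine's bound:
`y = α' - 1`, `q = (X + 1) ^ p - C a'`, `v y ^ p = v ϖ ^ j`, `v (τ y - y) = v (ζ - 1) = v π ^ d1`;
`kummer_bound` gives `(e - j) o ≤ 1` with `o = ord ϖ`, but `p ∣ o`.
-/
import Fermat.Agent.S56.Flat.Ram.KumBound
import Fermat.Agent.S56.Flat.Ram.Zeta

set_option autoImplicit false

namespace Fermat.Agent.S56.Flat.Ram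

open scoped IntermediateField

variable {F0 F : Type*} [Field F0] [Field F] [Algebra F0 F] [FiniteDimensional F0 F] [IsGalois F0 F]
variable {Γ : Type*} [LinearOrderedCommGroupWithZero Γ] {v : Valuation F Γ} {p : ℕ}

omit [FiniteDimensional F0 F] [IsGalois F0 F] in
/-- an automorphism fixing `ϖ` fixes `F0(ϖ)` -/
private theorem shape2_fix {τ : F ≃ₐ[F0] F} {ϖ : F} (hτ : τ ϖ = ϖ) {x : F} (hx : x ∈ F0⟮ϖ⟯) :
    τ x = x := by
  induction hx using IntermediateField.adjoin_induction with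
  | mem x hx =>
    rw [Set.mem_singleton_iff.1 hx]
    exact hτ
  | algebraMap c => exact τ.commutes c
  | add x y _ _ hx hy => rw [map_add, hx, hy]
  | inv x _ hx => rw [map_inv₀, hx]
  | mul x y _ _ hx hy => rw [map_mul, hx, hy]

omit [Algebra F0 F] [FiniteDimensional F0 F] [IsGalois F0 F] in
/-- the binomial formula modulo `p` -/
private theorem shape2_binom (hp : p.Prime) {y : F} (hy : v y ≤ 1) :
    ∃ r : F, v r ≤ 1 ∧ (y + 1) ^ p = y ^ p + 1 + (p : F) * y * r := by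
  obtain ⟨r, hr⟩ := exists_add_pow_prime_eq hp (⟨y, hy⟩ : v.integer) 1
  refine ⟨r, r.2, ?_⟩
  have h1 := congrArg (Subtype.val) hr
  simpa using h1

theorem shape_two_false (hT : TotRam F0 v p) (hp : p.Prime) (π : F) (hπ : IsUnif v π)
    (hπn : v π ^ Module.finrank F0 F = v (p : F)) (hFon : FonBound F0 v p π)
    (e : ℕ) (he : ¬ p ∣ e) (hpe : (p - 1) ∣ e) (ϖ : F) (hϖ : ϖ ^ e = (p : F))
    (a' α' : F) (ha' : a' ∈ F0⟮ϖ⟯) (hα' : α' ^ p = a') (j : ℕ) (hj0 : 0 < j) (hje : j < e)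
    (hpj : ¬ p ∣ j) (hv : v (a' - 1) = v ϖ ^ j) : False := by
  have hπ0 : v π ≠ 0 := hπ.val_pos.ne'
  have he0 : 0 < e := lt_of_le_of_lt (Nat.zero_le _) hje
  -- `ϖ`
  have hϖ0 : ϖ ≠ 0 := by
    rintro rfl
    rw [zero_pow he0.ne'] at hϖ
    exact hT.p_ne hϖ.symm
  have hvϖ0 : 0 < v ϖ := zero_lt_iff.2 ((map_ne_zero v).2 hϖ0)
  have hvϖe : v ϖ ^ e = v (p : F) := by rw [← map_pow, hϖ]
  have hvϖ1 : v ϖ < 1 := by
    by_contra h
    rw [not_lt] at h
    have h1 : 1 ≤ v ϖ ^ e := one_le_pow₀ h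
    rw [hvϖe] at h1
    exact absurd hT.p_lt (not_lt.2 h1)
  -- `a'`, `α'`, `y`
  have hva1 : v (a' - 1) < 1 := by
    rw [hv]
    exact pow_lt_one₀ zero_le hvϖ1 hj0.ne'
  have hva : v a' = 1 := by
    have h1 : v ((a' - 1) + 1) = v 1 := v.map_add_eq_of_lt_right (by rwa [map_one])
    rwa [sub_add_cancel, map_one] at h1
  have hvα : v α' = 1 := by
    have h1 : v α' ^ p = 1 := by rw [← map_pow, hα', hva]
    exact (pow_eq_one_iff.1 h1).resolve_right hp.ne_zero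
  have hα0 : α' ≠ 0 := by
    rintro rfl
    rw [map_zero] at hvα
    exact zero_ne_one hvα
  have ha0 : a' ≠ 0 := by
    rintro rfl
    rw [map_zero] at hva
    exact zero_ne_one hva
  set y : F := α' - 1 with hy
  have hy1 : v y ≤ 1 := by
    refine le_trans (v.map_sub _ _) ?_
    rw [hvα, map_one, max_self]
  obtain ⟨r, hr1, hr⟩ := shape2_binom hp hy1
  have hyα : y + 1 = α' := by rw [hy, sub_add_cancel]
  have hyp : y ^ p = (a' - 1) - (p : F) * y * r := by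
    rw [hyα, hα'] at hr
    rw [hr]
    ring
  have hsmall : v ((p : F) * y * r) < v (a' - 1) := by
    have h1 : v ((p : F) * y * r) ≤ v (p : F) := by
      rw [map_mul, map_mul]
      calc v (p : F) * v y * v r ≤ v (p : F) * 1 * 1 := by gcongr
        _ = v (p : F) := by rw [mul_one, mul_one]
    refine lt_of_le_of_lt h1 ?_
    rw [hv, ← hvϖe]
    exact pow_lt_pow_right_of_lt_one₀ hvϖ0 hvϖ1 hje
  have hvy : v y ^ p = v ϖ ^ j := by
    rw [← map_pow, hyp, v.map_sub_eq_of_lt_left hsmall, hv]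
  have hy0 : y ≠ 0 := by
    intro h0
    rw [h0, map_zero, zero_pow hp.ne_zero] at hvy
    exact (pow_pos hvϖ0 j).ne hvy
  -- orders
  obtain ⟨o, ho⟩ := hπ.disc ϖ hϖ0
  obtain ⟨oy, hoy⟩ := hπ.disc y hy0
  obtain ⟨t, ht⟩ := hpe
  have hP : ((p - 1 : ℕ) : ℤ) = (p : ℤ) - 1 := by
    rw [Nat.cast_sub hp.one_le, Nat.cast_one]
  have hP1 : (0 : ℤ) < (p : ℤ) - 1 := by
    have : (1 : ℤ) < (p : ℤ) := by exact_mod_cast hp.one_lt
    linarith
  have het : (e : ℤ) = ((p : ℤ) - 1) * t := by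
    rw [ht, Nat.cast_mul, hP]
  have H1 : o * (e : ℤ) = (Module.finrank F0 F : ℤ) := by
    apply hπ.zpow_inj.1
    rw [zpow_mul, ← ho, zpow_natCast, zpow_natCast, hvϖe, hπn]
  have H2 : oy * (p : ℤ) = o * (j : ℤ) := by
    apply hπ.zpow_inj.1
    rw [zpow_mul, zpow_mul, ← ho, ← hoy, zpow_natCast, zpow_natCast, hvy]
  have ho0 : 0 < o := by
    apply hπ.zpow_lt_zpow.1
    rw [← ho, zpow_zero]
    exact hvϖ1
  have hpo : (p : ℤ) ∣ o := by
    have h1 : (p : ℤ) ∣ o * (j : ℤ) := ⟨oy, by rw [← H2, mul_comm]⟩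
    rcases (Nat.prime_iff_prime_int.1 hp).dvd_or_dvd h1 with h2 | h2
    · exact h2
    · exact absurd (Int.natCast_dvd_natCast.1 h2) hpj
  have ho2 : (2 : ℤ) ≤ o := by
    have h1 := Int.le_of_dvd ho0 hpo
    have h2 : (2 : ℤ) ≤ (p : ℤ) := by exact_mod_cast hp.two_le
    linarith
  -- the polynomial
  let q : Polynomial F0⟮ϖ⟯ := (Polynomial.X + Polynomial.C 1) ^ p - Polynomial.C ⟨a', ha'⟩
  have hqd : q.natDegree = p := by
    rw [Polynomial.natDegree_sub_C, Polynomial.natDegree_pow_X_add_C]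
  have hq : q.Monic := by
    refine ((Polynomial.monic_X_add_C 1).pow p).sub_of_left ?_
    refine lt_of_le_of_lt Polynomial.degree_C_le ?_
    rw [Polynomial.degree_eq_natDegree ((Polynomial.monic_X_add_C 1).pow p).ne_zero,
      Polynomial.natDegree_pow_X_add_C]
    exact_mod_cast hp.pos
  have hqy : Polynomial.aeval y q = 0 := by
    have h1 : Polynomial.aeval y q = (y + 1) ^ p - a' := by
      simp only [q, map_sub, map_pow, map_add, Polynomial.aeval_X, Polynomial.aeval_C, map_one]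
      rfl
    rw [h1, hyα, hα', sub_self]
  -- the estimate
  have hδ : ∀ τ : F ≃ₐ[F0] F, τ ϖ = ϖ → τ y ≠ y → v (τ y - y) ≤ v y * v π ^ (o * t - oy) := by
    intro τ hτϖ hτy
    have hτa : τ a' = a' := shape2_fix hτϖ ha'
    set ζ : F := τ α' / α' with hζ
    have hζp : ζ ^ p = 1 := by
      rw [hζ, div_pow, ← map_pow, hα', hτa, div_self ha0]
    have hζ1 : ζ ≠ 1 := by
      intro h1
      apply hτy
      rw [hζ, div_eq_one_iff_eq hα0] at h1
      rw [hy, map_sub, map_one, h1]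
    have hz := val_zeta_sub_one v p hp ζ hζp hζ1
    obtain ⟨k, hk⟩ := hπ.disc (ζ - 1) (sub_ne_zero.2 hζ1)
    have H3 : k * ((p : ℤ) - 1) = (Module.finrank F0 F : ℤ) := by
      apply hπ.zpow_inj.1
      rw [← hP, zpow_mul, ← hk, zpow_natCast, zpow_natCast, hz, hπn]
    have hkt : k = o * t := by
      apply mul_right_cancel₀ hP1.ne'
      rw [H3, ← H1, het]
      ring
    have e1 : τ y - y = (ζ - 1) * α' := by
      rw [hy, map_sub, map_one, hζ]
      field_simp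
      ring
    rw [e1, map_mul, hvα, mul_one, hk, hkt, hoy, ← zpow_add₀ hπ0, add_sub_cancel]
  have hb := kummer_bound hT hp π hπ hπn hFon e he ϖ hϖ y q hq hqd hqy (j : ℤ)
    (fun h => hpj (Int.natCast_dvd_natCast.1 h)) (by rw [zpow_natCast]; exact hvy) (o * t - oy) hδ
  -- arithmetic
  have heq : ((p : ℤ) - 1) * (o * ((e : ℤ) - j) - 1) =
      ((p : ℤ) - 1) * (p : ℤ) * (o * t - oy) - ((Module.finrank F0 F : ℤ) + (p : ℤ) - 1) := by
    rw [← H1, het]
    linear_combination ((p : ℤ) - 1) * H2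
  have h5 : ((p : ℤ) - 1) * (o * ((e : ℤ) - j) - 1) ≤ 0 := by
    rw [heq]
    linarith
  have h6 : o * ((e : ℤ) - j) - 1 ≤ 0 := by
    by_contra hc
    rw [not_le] at hc
    have := mul_pos hP1 hc
    linarith
  have hej : (1 : ℤ) ≤ (e : ℤ) - j := by
    have : (j : ℤ) < (e : ℤ) := by exact_mod_cast hje
    linarith
  have h7 : (2 : ℤ) * 1 ≤ o * ((e : ℤ) - j) :=
    mul_le_mul ho2 hej (by norm_num) (by linarith)
  linarith

end Fermat.Agent.S56.Flat.Ram
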